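import Fermat.Agent.Cov.Inv
import Mathlib.RingTheory.Invariant.Basic

/-!
# The decomposition group of the Gauss valuation is everything
-/

set_option autoImplicit false
set_option linter.style.haveILetI false
set_option linter.unusedSectionVars false

noncomputable section

open UpperHalfPlane Complex ModularCurve Filter ModularForm Polynomial
open scoped Topology Manifold MatrixGroups Pointwise

namespace Fermat.Agent.Cov

open Fermat.Agent.X0Genus Fermat.Agent.JFun Fermat.Agent.ModPoly Fermat.Agent.RedMod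
open Fermat.Agent.MFLib Fermat.Agent.KumG Fermat.Agent.Kum Fermat.Agent.Red

variable {N : ℕ} [NeZero N] {A : ValuationSubring ℂ}

/-- the residue field -/
abbrev KA (A : ValuationSubring ℂ) : Type := IsLocalRing.ResidueField A

/-! ### Polynomials in `j` -/

variable (N A) in
/-- the function `j` -/
def jB : BB N A := jdB N A 1 (one_dvd N)

theorem coe_jB : (jB N A : hol) = jH := jdH_one

theorem smul_jB (g : SL(2, ℤ)) : g • jB N A = jB N A := by
  apply Subtype.ext
  rw [coe_smul', coe_jB, pull_jH]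

theorem hasExp_jB : HasExp 1 A (jB N A : hol) (jqModC A) := by
  have := hasExp_jdH_one (A := A) 1
  rwa [qExpand_one_apply] at this

theorem expB_jB : expB N A (jB N A) = qExpand A N (jqModC A) := expB_eq (hasExp_of_one hasExp_jB)

theorem expB_algebraMap (a : A) : expB N A (algebraMap A (BB N A) a) = HahnSeries.C a :=
  expB_eq (HasExp.const a)

theorem qExpand_evT {R : Type*} [CommRing R] (m : ℕ) [NeZero m] (t : LaurentSeries R) (P : R[X]) :
    qExpand R m (evT t P) = evT (qExpand R m t) P := by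
  unfold evT
  simp only [coe_eval₂RingHom]
  rw [Polynomial.hom_eval₂]
  congr 1
  ext a : 1
  exact qExpand_C m a

theorem expB_aeval (P : A[X]) : expB N A (aeval (jB N A) P) = qExpand A N (evT (jqModC A) P) := by
  rw [qExpand_evT, ← expB_jB, aeval_def, Polynomial.hom_eval₂, evT, coe_eval₂RingHom]
  congr 1
  ext a : 1
  exact expB_algebraMap a

theorem red_def (x : BB N A) : red N A x = coeffMap (IsLocalRing.residue A) (expB N A x) := rfl

theorem red_aeval (P : A[X]) : red N A (aeval (jB N A) P) =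
    qExpand (KA A) N (evT (jqModC (KA A)) (P.map (algebraMap A (KA A)))) := by
  rw [red_def, expB_aeval, coeffMap_qExpand, coeffMap_evT, coeffMap_jqModC]
  rfl

theorem smul_aeval (g : SL(2, ℤ)) (P : A[X]) : g • aeval (jB N A) P = aeval (jB N A) P := by
  have h : (MulSemiringAction.toRingHom SL(2, ℤ) (BB N A) g) (aeval (jB N A) P) =
      aeval (jB N A) P := by
    have h1 : (MulSemiringAction.toRingHom SL(2, ℤ) (BB N A) g).comp (algebraMap A (BB N A)) =
        algebraMap A (BB N A) := RingHom.ext fun a => smul_algebraMap_BB g a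
    have h2 : (MulSemiringAction.toRingHom SL(2, ℤ) (BB N A) g) (jB N A) = jB N A := smul_jB g
    rw [aeval_def, Polynomial.hom_eval₂, h1, h2]
  exact h

theorem expB_injective : Function.Injective (expB N A) := by
  intro x y h
  apply Subtype.ext
  have h1 := hasExp_expB x
  rw [h] at h1
  exact h1.injective (hasExp_expB y)

/-! ### Monomials -/

theorem exists_mono {z : LaurentSeries ℤ} (hz : z ∈ Mono N) :
    ∃ y : BB N A, HasExp 1 A (y : hol) (cst A z) ∧
      ∀ g ∈ CongruenceSubgroup.Gamma0 N, g • y = y := by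
  induction hz using Submonoid.closure_induction with
  | mem z hz =>
    obtain ⟨m, hm0, hm, rfl⟩ := hz
    refine ⟨jdB N A m hm, ?_, fun g hg => smul_jdB_of_mem hm hg⟩
    rw [cst, coeffMap_qExpand, coeffMap_jqModC]
    exact hasExp_jdH_one m
  | one => exact ⟨1, by rw [cst, map_one]; exact HasExp.one, fun g _ => smul_one g⟩
  | mul x y _ _ hx hy =>
    obtain ⟨a, ha, ha'⟩ := hx
    obtain ⟨b, hb, hb'⟩ := hy
    exact ⟨a * b, by rw [cst, map_mul]; exact ha.mul hb, fun g hg => by
      rw [smul_mul', ha' g hg, hb' g hg]⟩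

/-- the monomials in `BB` -/
def mB (hN : (N : KA A) ≠ 0) (i : Fin (dedekindPsi N)) : BB N A :=
  (exists_mono (A := A) (monos_mem hN i)).choose

theorem hasExp_mB (hN : (N : KA A) ≠ 0) (i : Fin (dedekindPsi N)) :
    HasExp 1 A (mB hN i : hol) (cst A (monos hN i)) :=
  (exists_mono (monos_mem hN i)).choose_spec.1

theorem smul_mB (hN : (N : KA A) ≠ 0) (i : Fin (dedekindPsi N)) {g : SL(2, ℤ)} (hg : g ∈ CongruenceSubgroup.Gamma0 N) :
    g • mB hN i = mB hN i := (exists_mono (monos_mem hN i)).choose_spec.2 g hg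

theorem expB_mB (hN : (N : KA A) ≠ 0) (i : Fin (dedekindPsi N)) : expB N A (mB hN i) =
    qExpand A N (cst A (monos hN i)) := expB_eq (hasExp_of_one (hasExp_mB hN i))

theorem residue_surj : Function.Surjective (algebraMap A (KA A)) := IsLocalRing.residue_surjective

/-- representation of elements of the Gauss ring -/
theorem exists_rep (hN : (N : KA A) ≠ 0) {w : LaurentSeries ℂ} (hw : w ∈ FF ℂ N) (hw' : w ∈ WL A ℂ (KA A)) :
    ∃ (q : A[X]) (Q : Fin (dedekindPsi N) → A[X]), q.map (algebraMap A (KA A)) ≠ 0 ∧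
      incL A ℂ (evT (jqModC A) q) * w =
        incL A ℂ (∑ i, evT (jqModC A) (Q i) * cst A (monos hN i)) := by
  letI : Algebra A (LaurentSeries (KA A)) :=
    ((algebraMap (KA A) (LaurentSeries (KA A))).comp (algebraMap A (KA A))).toAlgebra
  letI : Algebra A (FF ℂ N) := ((algebraMap ℂ (FF ℂ N)).comp (algebraMap A ℂ)).toAlgebra
  haveI : IsScalarTower A ℂ (FF ℂ N) := IsScalarTower.of_algebraMap_eq fun a => rfl
  have hT : ∀ a : A, algebraMap A (LaurentSeries (KA A)) a =
    algebraMap (KA A) (LaurentSeries (KA A)) (algebraMap A (KA A) a) := fun a => rfl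
  haveI := IsScalarTower.of_algebraMap_eq hT
  let G := gauss0 ℂ hT hN
  have hx : (⟨w, hw⟩ : FF ℂ N) ∈ G.W := hw'
  obtain ⟨q, hq, P, hP⟩ := G.exists_primitive_repr (gauss0_span hT hN) ⟨w, hw⟩
  obtain ⟨Q, hQ⟩ := G.exists_of_mem residue_surj hx hq hP
  refine ⟨q, Q, hq, ?_⟩
  have h1 := congrArg (FF ℂ N).val hP
  have e1 : (FF ℂ N).val (aeval G.t q) = incL A ℂ (evT (jqModC A) q) := by
    have e2 : (FF ℂ N).val G.t = incL A ℂ (jqModC A) := val_jF
    rw [aeval_def, ← AlgHom.coe_toRingHom, Polynomial.hom_eval₂, coeffMap_evT, evT,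
      coe_eval₂RingHom, Polynomial.eval₂_map]
    change eval₂ _ ((FF ℂ N).val G.t) q = _
    rw [e2]
    congr 1
    ext a : 1
    exact φ_algebraMap (FF ℂ N).val a
  rw [map_mul, e1] at h1
  change _ * w = _ at h1
  rw [h1, map_sum]
  change (FF ℂ N).val (∑ i, aeval G.t (P i) * G.y i) = _
  rw [map_sum]
  refine Finset.sum_congr rfl fun i _ => ?_
  rw [map_mul, map_mul, hQ i, G.aeval_map_K]
  congr 1
  · have e2 : (FF ℂ N).val G.t = incL A ℂ (jqModC A) := val_jF
    rw [aeval_def, ← AlgHom.coe_toRingHom, Polynomial.hom_eval₂, coeffMap_evT, evT,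
      coe_eval₂RingHom, Polynomial.eval₂_map]
    change eval₂ _ ((FF ℂ N).val G.t) (Q i) = _
    rw [e2]
    congr 1
    ext a : 1
    exact φ_algebraMap (FF ℂ N).val a

/-- Elements invariant under `Γ₀(N)` are in the function field of level `N`. -/
theorem exists_mem_FF {x : BB N A} (hx : ∀ γ ∈ CongruenceSubgroup.Gamma0 N, γ • x = x) :
    ∃ s, HasExp 1 A (x : hol) s ∧ incL A ℂ s ∈ FF ℂ N := by
  haveI : LvlG (CongruenceSubgroup.Gamma0 N) := ⟨MFLib.T_mem_Gamma0 N, by
    rw [CongruenceSubgroup.Gamma0_mem]; simp, inferInstance⟩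
  obtain ⟨s, hs, k, f, g, h⟩ := exists_mem_MFunG hx
  refine ⟨s, hs, ?_⟩
  have h1 := KumF.MFun_le N (x := coeffMap (algebraMap A ℂ) s) ⟨k, f, g, h.mf, h.mg, h.g0, h.eq⟩
  rwa [FK, baseChange_eq] at h1

/-- **Key lemma**: the Gauss valuation of `F₀(N)` is the unique extension. -/
theorem red_smul_eq_zero_iff (hN : (N : KA A) ≠ 0) {x : BB N A} (hx : ∀ γ ∈ CongruenceSubgroup.Gamma0 N, γ • x = x)
    (g : SL(2, ℤ)) : red N A (g • x) = 0 ↔ red N A x = 0 := by
  obtain ⟨s, hs, hsF⟩ := exists_mem_FF hx
  have hexp : expB N A x = qExpand A N s := expB_eq (hasExp_of_one hs)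
  have hredx : red N A x = qExpand (KA A) N (redL A (KA A) s) := by
    rw [red_def, hexp, coeffMap_qExpand]
    rfl
  have hW : incL A ℂ s ∈ WL A ℂ (KA A) := incL_mem s
  have hsum : ∀ Q : Fin (dedekindPsi N) → A[X],
      expB N A (∑ i, aeval (jB N A) (Q i) * mB hN i) =
        qExpand A N (∑ i, evT (jqModC A) (Q i) * cst A (monos hN i)) := by
    intro Q
    rw [map_sum, map_sum]
    refine Finset.sum_congr rfl fun i _ => ?_
    rw [map_mul, map_mul, expB_aeval, expB_mB]
  have hqne : ∀ q : A[X], q.map (algebraMap A (KA A)) ≠ 0 → red N A (aeval (jB N A) q) ≠ 0 := by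
    intro q hq h0
    rw [red_aeval, map_eq_zero_iff _ (qExpand_injective N), evT_eq_aeval] at h0
    apply hq
    apply aeval_jqModC_injective
    rw [h0, map_zero]
  constructor
  · intro h
    by_contra hne
    have hne' : redL A (KA A) s ≠ 0 := by
      intro h0
      apply hne
      rw [hredx, h0, map_zero]
    have hs0 : incL A ℂ s ≠ 0 := by
      intro h0
      apply hne'
      have : s = 0 := incL_injective A ℂ (by rw [h0, map_zero])
      rw [this, map_zero]
    have hinv : (incL A ℂ s)⁻¹ ∈ WL A ℂ (KA A) := inv_mem_WL hW (by rwa [πL_incL])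
    obtain ⟨q, Q, hq, hqQ⟩ := exists_rep hN (inv_mem hsF) hinv
    have h1 : evT (jqModC A) q = (∑ i, evT (jqModC A) (Q i) * cst A (monos hN i)) * s := by
      apply incL_injective A ℂ
      rw [map_mul, ← hqQ, mul_assoc, inv_mul_cancel₀ hs0, mul_one]
    have h2 : aeval (jB N A) q = (∑ i, aeval (jB N A) (Q i) * mB hN i) * x := by
      apply expB_injective
      rw [map_mul, expB_aeval, hsum, hexp, h1, map_mul]
    have h3 := congrArg (fun y => red N A (g • y)) h2
    simp only [smul_mul', map_mul, h, mul_zero, smul_aeval] at h3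
    exact hqne q hq h3
  · intro h
    have hs' : redL A (KA A) s = 0 := by
      rw [hredx, map_eq_zero_iff _ (qExpand_injective N)] at h
      exact h
    obtain ⟨q, Q, hq, hqQ⟩ := exists_rep hN hsF hW
    have h1 : evT (jqModC A) q * s = ∑ i, evT (jqModC A) (Q i) * cst A (monos hN i) := by
      apply incL_injective A ℂ
      rw [map_mul, ← hqQ]
    have h2 : aeval (jB N A) q * x = ∑ i, aeval (jB N A) (Q i) * mB hN i := by
      apply expB_injective
      rw [map_mul, expB_aeval, hsum, hexp, ← h1, map_mul]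
    have hQ : ∀ i, (Q i).map (algebraMap A (KA A)) = 0 := by
      apply monos_indep hN (fun i => (Q i).map (algebraMap A (KA A)))
      have h3 := congrArg (redL A (KA A)) h1
      rw [map_mul, hs', mul_zero, map_sum] at h3
      rw [h3]
      refine Finset.sum_congr rfl fun i _ => ?_
      rw [map_mul, coeffMap_evT, coeffMap_jqModC, coeffMap_cst]
    have h3 := congrArg (fun y => red N A (g • y)) h2
    simp only [smul_mul', map_mul, smul_aeval, Finset.smul_sum, map_sum] at h3
    have h4 : ∀ i, red N A (aeval (jB N A) (Q i)) = 0 := by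
      intro i
      rw [red_aeval, hQ i, map_zero, map_zero]
    simp only [h4, zero_mul, Finset.sum_const_zero] at h3
    exact (mul_eq_zero.1 h3).resolve_left (hqne q hq)

end Fermat.Agent.Cov
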