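import Fermat.Agent.Cov.FGeq
import Fermat.Agent.DS.Sturm
import Fermat.Agent.Dim.Weight12
import Fermat.Agent.RR.ModularGenus
import Fermat.Agent.KumG.Exist

/-!
# Upper bound for the genus of the modular function field of level `Γ_H(N)`
-/

set_option autoImplicit false
set_option linter.style.haveILetI false
set_option linter.unusedSectionVars false

noncomputable section

open UpperHalfPlane Complex ModularCurve Filter ModularForm Polynomial IntermediateField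
open scoped Topology Manifold MatrixGroups

namespace Fermat.Agent.Cov

open Fermat.Agent.GamH Fermat.Agent.MFLib Fermat.Agent.KumG AlgebraicCurve Fermat.Agent.RR

local notation "Δ" => ModularForm.discriminant

section sep

variable {N : ℕ} [NeZero N] {H : Subgroup (ZMod N)ˣ}

/-- the candidates for the separating form of weight twelve -/
def xh (H : Subgroup (ZMod N)ˣ) (c : ℕ) : ℍ → ℂ := Ea H 1 * (⇑E₄) ^ 2 + (c : ℂ) • xN N

theorem isMF_E4_sq : IsMF ⊤ 8 ((⇑E₄ : ℍ → ℂ) ^ 2) :=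
  ((IsMF.of_SL E₄).pow 2).congr_weight (by norm_num)

theorem isMF_xh (c : ℕ) : IsMF (GH N H) 12 (xh H c) :=
  (((isMF_Ea 1).mul (isMF_E4_sq.mono le_top)).congr_weight (by norm_num)).add
    (((isMF_xN N).mono (GH_le N H)).smul _)

theorem isRat_E4 : IsRat (qe (⇑E₄ : ℍ → ℂ)) := isRat_qe_E (by norm_num) (by decide)

theorem isRat_xh (hN : 2 ≤ N) (hH : -1 ∈ H) (c : ℕ) : IsRat (qe (xh H c)) := by
  have q1 : QG (Ea H 1) := qg_Ea 1
  have q2 : QG (⇑E₄ : ℍ → ℂ) := qg_E4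
  have q3 : QG (xN N) := (isMF_xN N).qg (T_mem_Gamma0 N)
  rw [xh, (q1.mul (q2.pow 2)).qe_add (q3.smul _), q1.qe_mul (q2.pow 2), q2.qe_pow, q3.qe_smul]
  refine IsRat.add ((isInt_qe_Ea hN hH 1).isRat.mul (isRat_E4.pow 2)) ?_
  have := (isRat_qe_xN N).smul (c : ℚ)
  simpa using this

theorem xh_slash (c : ℕ) (γ : SL(2, ℤ)) : xh H c ∣[(12 : ℤ)] γ =
    (Ea H 1 ∣[(4 : ℤ)] γ) * (⇑E₄) ^ 2 + (c : ℂ) • (xN N ∣[(12 : ℤ)] γ) := by
  rw [xh, SlashAction.add_slash, SL_smul_slash]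
  congr 1
  have h1 := mul_slash_SL2 4 8 γ (Ea H 1) ((⇑E₄ : ℍ → ℂ) ^ 2)
  rw [isMF_E4_sq.slash γ (Subgroup.mem_top _)] at h1
  exact h1

theorem E4_ne_zero' : ((⇑E₄ : ℍ → ℂ) ^ 2) ≠ 0 := by
  intro h
  have h1 : (⇑E₄ : ℍ → ℂ) = 0 := by
    funext z
    have := congrFun h z
    simpa using this
  exact E_ne_zero (n := 4) (by norm_num) (by decide) h1

/-- at most one candidate fails for a given `γ` -/
theorem xh_ne (hN : 2 ≤ N) (hH : -1 ∈ H) {γ : SL(2, ℤ)} (hγ : γ ∉ GH N H) {c d : ℕ} (hcd : c ≠ d)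
    (hc : xh H c ∣[(12 : ℤ)] γ = xh H c) (hd : xh H d ∣[(12 : ℤ)] γ = xh H d) : False := by
  rw [xh_slash] at hc hd
  have hcd' : (c : ℂ) - d ≠ 0 := by
    rw [sub_ne_zero]
    exact_mod_cast hcd
  have hx : xN N ∣[(12 : ℤ)] γ = xN N := by
    funext τ
    have h1 := congrFun hc τ
    have h2 := congrFun hd τ
    simp only [xh, Pi.mul_apply, Pi.add_apply, Pi.smul_apply, smul_eq_mul] at h1 h2
    apply mul_left_cancel₀ hcd'
    linear_combination h1 - h2
  rw [hx] at hc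
  have h0 : γ ∈ CongruenceSubgroup.Gamma0 N := mem_Gamma0_of_xN_slash (N := N) hx
  have h1 : (Ea H 1 ∣[(4 : ℤ)] γ - Ea H 1) * (⇑E₄) ^ 2 = 0 := by
    have h2 := add_right_cancel (hc : _ = Ea H 1 * (⇑E₄) ^ 2 + (c : ℂ) • xN N)
    rw [sub_mul, h2, sub_self]
  rcases (UpperHalfPlane.mul_eq_zero_iff ((holo_slash (isMF_Ea 1).holo 4 γ).sub
    (isMF_Ea 1).holo) isMF_E4_sq.holo).mp h1 with h | h
  · exact Ea_slash_ne hN hH h0 hγ (sub_eq_zero.1 h)
  · exact E4_ne_zero' h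

/-- **a separating rational form of weight twelve for `Γ_H(N)`** -/
theorem exists_sep12 (hN : 2 ≤ N) (hH : -1 ∈ H) [(GH N H).FiniteIndex] :
    ∃ x : ℍ → ℂ, IsMF (GH N H) 12 x ∧ IsRat (qe x) ∧
    Function.Injective (MFLib.conj (GH N H) 12 x) := by
  classical
  let bad : (SL(2, ℤ) ⧸ (GH N H)) → Set ℕ := fun q =>
    {c | q ≠ ((1 : SL(2, ℤ)) : SL(2, ℤ) ⧸ (GH N H)) ∧
      MFLib.conj (GH N H) 12 (xh H c) q = xh H c}
  have hbad : ∀ q, (bad q).Subsingleton := by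
    intro q c hc d hd
    induction q using QuotientGroup.induction_on with
    | H g =>
      by_contra hcd
      obtain ⟨hq, hc⟩ := hc
      obtain ⟨-, hd⟩ := hd
      rw [conj_mk (isMF_xh c)] at hc
      rw [conj_mk (isMF_xh d)] at hd
      refine xh_ne hN hH (γ := g⁻¹) (fun hmem => hq ?_) hcd hc hd
      rw [QuotientGroup.eq, mul_one]
      exact hmem
  have hfin : (⋃ q, bad q).Finite := Set.finite_iUnion fun q => (hbad q).finite
  obtain ⟨c, hc⟩ := hfin.exists_notMem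
  refine ⟨xh H c, isMF_xh c, isRat_xh hN hH c, ?_⟩
  intro p q
  induction p using QuotientGroup.induction_on with
  | H g =>
  induction q using QuotientGroup.induction_on with
  | H h =>
  intro heq
  rw [conj_mk (isMF_xh c), conj_mk (isMF_xh c)] at heq
  by_contra hne
  apply hc
  rw [Set.mem_iUnion]
  refine ⟨((h⁻¹ * g : SL(2, ℤ)) : SL(2, ℤ) ⧸ (GH N H)), ?_, ?_⟩
  · intro h1
    apply hne
    rw [QuotientGroup.eq, mul_one, _root_.mul_inv_rev, inv_inv] at h1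
    rw [QuotientGroup.eq]
    exact h1
  · rw [conj_mk (isMF_xh c), _root_.mul_inv_rev, inv_inv, SlashAction.slash_mul, heq,
      ← SlashAction.slash_mul, inv_mul_cancel, SlashAction.slash_one]

end sep

section general

variable {Γ : Subgroup SL(2, ℤ)} [LvlG Γ]

instance finite_mf' (k : ℤ) : Module.Finite ℂ (Dim.mf Γ k) :=
  DS.finiteDimensional_MFs LvlG.T_mem k

/-- coefficient functionals -/
def cfd (Γ : Subgroup SL(2, ℤ)) [LvlG Γ] (k : ℤ) (n : ℕ) : Dim.mf Γ k →ₗ[ℂ] ℂ :=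
  DS.cfn (Γ := Γ) LvlG.T_mem k n

theorem cfd_apply (k : ℤ) (n : ℕ) (f : Dim.mf Γ k) : cfd Γ k n f = (qe (f : ℍ → ℂ)).coeff n := rfl

variable {l : ℤ} {x : ℍ → ℂ} (hx : IsMF Γ l x) (hrat : IsRat (qe x))
  (hinj : Function.Injective (MFLib.conj Γ l x))

include hx hrat hinj

theorem span_rational_mfG (k : ℤ) :
    Submodule.span ℂ {f : Dim.mf Γ k | ∀ n, ∃ r : ℚ, cfd Γ k n f = r} = ⊤ := by
  obtain ⟨B, hB⟩ := DS.sturm (Γ := Γ) LvlG.T_mem k
  refine span_rational (cfd Γ k) B ?_ ?_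
  · intro f hf
    exact Subtype.ext (hB f.1 f.2 hf)
  · intro σ f
    obtain ⟨f', hf', hq⟩ := exists_conj_form hx LvlG.T_mem hinj hrat σ f.2
    refine ⟨⟨f', hf'⟩, fun n => ?_⟩
    rw [cfd_apply, cfd_apply, hq, PowerSeries.coeff_map]

theorem exists_rational_basisG (k : ℤ) :
    ∃ h : Fin (Module.finrank ℂ (Dim.mf Γ k)) → ℍ → ℂ,
      (∀ i, IsMF Γ k (h i) ∧ IsRat (qe (h i))) ∧ LinearIndependent ℂ h := by
  classical
  obtain ⟨b, hbS, hbspan, hbli⟩ := exists_linearIndependent ℂ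
    {f : Dim.mf Γ k | ∀ n, ∃ r : ℚ, cfd Γ k n f = r}
  rw [span_rational_mfG hx hrat hinj] at hbspan
  let B : Module.Basis b ℂ (Dim.mf Γ k) := Module.Basis.mk hbli (by
    rw [Subtype.range_coe, hbspan])
  have hfin : Finite b := Module.Finite.finite_basis B
  have hft : Fintype b := Fintype.ofFinite b
  have hcard : Module.finrank ℂ (Dim.mf Γ k) = Fintype.card b := Module.finrank_eq_card_basis B
  let e : Fin (Module.finrank ℂ (Dim.mf Γ k)) ≃ b :=
    (finCongr hcard).trans (Fintype.equivFin b).symm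
  refine ⟨fun i => ((e i : Dim.mf Γ k) : ℍ → ℂ), fun i => ⟨(e i : Dim.mf Γ k).2, fun n => ?_⟩, ?_⟩
  · exact hbS (e i).2 n
  · have h1 : LinearIndependent ℂ (fun i => (e i : Dim.mf Γ k)) := hbli.comp e e.injective
    exact h1.map' (Submodule.subtype _) (Submodule.ker_subtype _)

end general

section bound

open Fermat.Agent.Kum (oQ oAt QW oQ_pow ql_pow pow_ne_zero'' ql_smul ql_eq_zero ql_zero)
open Fermat.Agent.X0Genus (thetaM)
open Fermat.Agent.JFun (qExpansion_E4)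

variable {Γ : Subgroup SL(2, ℤ)} [LvlG Γ] [RatG Γ] {K : Type*} [Field K] [Algebra ℚ K]
  [IsAlgClosed K] [CharZero K] {ι : K →+* ℂ}

theorem qw_E4 (w : ℕ) : QW w (⇑E₄ : ℍ → ℂ) where
  per := by
    have h1 : Function.Periodic ((⇑E₄ : ℍ → ℂ) ∘ ofComplex) (1 : ℝ) := qg_E4.per
    have h2 := h1.nat_mul w
    simpa using h2
  holo := qg_E4.holo
  bdd := qg_E4.bdd

theorem coeff_zero_E4 (w : ℕ) (hw : 0 < w) :
    (qExpansion (w : ℝ) (⇑E₄ : ℍ → ℂ)).coeff 0 = 1 := by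
  rw [qExpansion_coeff_zero (by exact_mod_cast hw) ((qw_E4 w).analyticAt hw) (qw_E4 w).per,
    ← qExpansion_coeff_zero one_pos qg_E4.analyticAt qg_E4.per, qExpansion_E4]
  simp [ModularCurve.eisenstein4, PowerSeries.coeff_mk]

theorem E4_ne_zero : (⇑E₄ : ℍ → ℂ) ≠ 0 := E_ne_zero (n := 4) (by norm_num) (by decide)

theorem oQ_E4_pow (w n : ℕ) (hw : 0 < w) : oQ w ((⇑E₄ : ℍ → ℂ) ^ n) = 0 := by
  rw [oQ_pow hw (qw_E4 w) E4_ne_zero]
  have h1 : oQ w (⇑E₄ : ℍ → ℂ) = 0 := by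
    rw [oQ]
    have h2 : (qExpansion (w : ℝ) (⇑E₄ : ℍ → ℂ)).order = 0 := by
      rw [PowerSeries.order_eq_nat (n := 0) |>.2]
      · rfl
      · exact ⟨by rw [coeff_zero_E4 w hw]; exact one_ne_zero, fun i hi => absurd hi (Nat.not_lt_zero i)⟩
    rw [h2]
    rfl
  rw [h1, mul_zero]

theorem repK_jj_pow (n : ℕ) :
    RepK ι ((jj Γ K) ^ n) (12 * n) (((⇑E₄ : ℍ → ℂ) ^ 3) ^ n) (Δ ^ n) := by
  have h := repK_jj (Γ := Γ) (K := K) ι
  refine ⟨(h.mf.pow n).congr_weight (by ring), (h.mg.pow n).congr_weight (by ring), ?_, ?_⟩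
  · exact pow_ne_zero'' isMF_disc.holo disc_ne_zero n
  · have e1 : coeffMap ι (((jj Γ K) ^ n : FG Γ K) : LaurentSeries K) =
        (coeffMap ι ((jj Γ K : FG Γ K) : LaurentSeries K)) ^ n := by
      rw [← map_pow]
      rfl
    rw [e1, ql_pow h.mg.qgG, ql_pow h.mf.qgG, ← h.eq, mul_pow]

theorem Bd_of_rep {y : FG Γ K} {n : ℕ} {f : ℍ → ℂ} (hy : y ≠ 0)
    (h : RepK ι y (12 * n) f (Δ ^ n)) : Bd n y := by
  have hΔs : ∀ δ : SL(2, ℤ), (Δ ^ n : ℍ → ℂ) ∣[(12 * n : ℤ)] δ = Δ ^ n := fun δ =>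
    (isMF_disc_pow (Γ := ⊤) n).slash δ (Subgroup.mem_top _)
  have hj0 : jj Γ K ≠ 0 := jj_ne_zero
  have hjn := repK_jj_pow (Γ := Γ) (K := K) (ι := ι) n
  intro v
  rcases le_or_gt 0 (v.ord (jj Γ K)) with hv | hv
  · obtain ⟨z, τ, e, he, he6, hord⟩ := exists_point_of_place ι v hv
    rw [min_eq_left hv, mul_zero]
    induction z using QuotientGroup.induction_on with
    | H γ =>
      have h3 := hord y hy
      have h4 := thetaM_rep ι hy h γ⁻¹ τ
      rw [inv_inv, h3, hΔs] at h4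
      have h5 : oAt τ (Δ ^ n : ℍ → ℂ) = 0 := by
        rw [oAt]
        have : analyticOrderAt ((Δ ^ n : ℍ → ℂ) ∘ ofComplex) (τ : ℂ) = 0 := by
          rw [(analyticAt_ofComplex h.mg.holo τ).analyticOrderAt_eq_zero]
          simpa using fun h0 => (discriminant_ne_zero τ h0).elim
        rw [this]; rfl
      rw [h5] at h4
      push_cast at h4
      have h6 : 0 ≤ (e : ℤ) * v.ord y := by
        rw [h4]; simp
      have he' : (0 : ℤ) < e := by exact_mod_cast he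
      exact nonneg_of_mul_nonneg_right h6 he'
  · obtain ⟨z, e, he, heN, hord⟩ := exists_cusp_of_place ι v hv
    rw [min_eq_right hv.le]
    induction z using QuotientGroup.induction_on with
    | H γ =>
      have h3 := hord y hy
      have h4 := phiC_rep ι hy h γ⁻¹
      have h3' := hord _ (pow_ne_zero n hj0)
      have h4' := phiC_rep ι (pow_ne_zero n hj0) hjn γ⁻¹
      rw [inv_inv, h3, hΔs] at h4
      rw [inv_inv, h3', hΔs] at h4'
      have h7 : (((⇑E₄ : ℍ → ℂ) ^ 3) ^ n) ∣[(12 * n : ℤ)] γ⁻¹ = (⇑E₄ : ℍ → ℂ) ^ (3 * n) := by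
        rw [← pow_mul]
        refine IsMF.slash (Γ := ⊤) ?_ γ⁻¹ (Subgroup.mem_top _)
        exact ((IsMF.of_SL E₄).pow (3 * n)).congr_weight (by push_cast; ring)
      rw [h7, oQ_E4_pow _ _ (NeZero.pos _)] at h4'
      rw [Curve.ord_pow] at h4'
      have he' : (1 : ℤ) ≤ e := by exact_mod_cast he
      have h5 : (e : ℤ) * (n * v.ord (jj Γ K)) ≤ (e : ℤ) * v.ord y := by
        rw [h4]
        push_cast at h4'
        have : (0 : ℤ) ≤ oQ (wd Γ) (f ∣[(12 * n : ℤ)] γ⁻¹) := Int.natCast_nonneg _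
        linarith
      exact le_of_mul_le_mul_left h5 (by omega)

/-- the function attached to a rational form -/
theorem exists_eltG (ι : K →+* ℂ) {n : ℕ} {f : ℍ → ℂ} (hf : IsMF Γ (12 * n) f)
    (hr : IsRat (qe f)) : ∃ y : FG Γ K, RepK ι y (12 * n) f (Δ ^ n) ∧
      coeffMap ι (y : LaurentSeries K) = nrm n f := by
  obtain ⟨F, hF, hF'⟩ := nrm_rat hf hr
  have h1 : coeffMap ι (coeffEmb K F) = nrm n f := by
    rw [← hF']
    exact coeffMap_coeffEmb ι F
  refine ⟨⟨coeffEmb K F, coeffEmb_mem_laurentBaseChange K hF⟩, ?_, h1⟩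
  refine ⟨hf, isMF_disc_pow n, pow_ne_zero'' isMF_disc.holo disc_ne_zero n, ?_⟩
  change coeffMap ι (coeffEmb K F) * _ = _
  rw [h1, nrm, ql_pow qg_disc, inv_pow, inv_mul_cancel_right₀ (pow_ne_zero _ qlD_ne)]

theorem coeffMap_const (ι : K →+* ℂ) (a : K) (y : FG Γ K) :
    coeffMap ι ((a • y : FG Γ K) : LaurentSeries K) =
      HahnSeries.C (ι a) * coeffMap ι (y : LaurentSeries K) := by
  have h1 : ((a • y : FG Γ K) : LaurentSeries K) = HahnSeries.C a * (y : LaurentSeries K) := by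
    rw [Algebra.smul_def]
    change algebraMap K (LaurentSeries K) a * (y : LaurentSeries K) = _
    rw [algebraMap_laurentSeries_eq_single]
    rfl
  rw [h1, map_mul]
  congr 1
  exact coeffMap_single ι 0 a

/-- independent functions in `L(n (j)_∞)` -/
theorem exists_familyG (ι : K →+* ℂ) {x : ℍ → ℂ} (hx : IsMF Γ 12 x) (hrat : IsRat (qe x))
    (hinj : Function.Injective (MFLib.conj Γ 12 x)) {n : ℕ} (hn : 1 ≤ n) :
    ∃ (m : ℕ) (y : Fin m → FG Γ K), (m : ℤ) = n * Γ.index + 1 - Module.finrank ℂ (Dim.cf Γ 2) ∧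
      LinearIndependent K y ∧ ∀ i, Bd n (y i) := by
  classical
  obtain ⟨Fr⟩ := Dim.exists_frame (Γ := Γ) LvlG.neg_mem hx hinj
  obtain ⟨h, hh1, hh2⟩ := exists_rational_basisG hx hrat hinj (12 * n)
  choose y hy1 hy2 using fun i => exists_eltG (K := K) ι (hh1 i).1 (hh1 i).2
  have hq : ∀ i, QG (h i) := fun i => (hh1 i).1.qgG
  have hli : LinearIndependent K y := by
    rw [Fintype.linearIndependent_iff] at hh2 ⊢
    intro a ha i
    have h1 := congrArg (fun z : FG Γ K => coeffMap ι (z : LaurentSeries K)) ha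
    have h2 : coeffMap ι ((∑ i, a i • y i : FG Γ K) : LaurentSeries K) =
        nrm n (∑ i, ι (a i) • h i) := by
      rw [nrm_sum n _ _ fun i _ => (hq i).smul _]
      rw [AddSubmonoidClass.coe_finsetSum, map_sum]
      refine Finset.sum_congr rfl fun i _ => ?_
      rw [coeffMap_const, hy2, nrm, nrm, ql_smul _ (hq i), mul_assoc]
    simp only [h2, ZeroMemClass.coe_zero, map_zero] at h1
    rw [nrm] at h1
    have h3 := (mul_eq_zero.mp h1).resolve_right (pow_ne_zero _ (inv_ne_zero qlD_ne))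
    rw [ql_eq_zero (QG.sum fun i _ => (hq i).smul _)] at h3
    exact (map_eq_zero ι).mp (hh2 (fun i => ι (a i)) h3 i)
  refine ⟨_, y, ?_, hli, fun i => Bd_of_rep (hli.ne_zero i) (hy1 i)⟩
  have := Fr.finrank_mf_twelve hn
  rw [this]
  rfl

/-- **upper bound for the genus** -/
theorem rrGenus_le_cf (ι : K →+* ℂ) {x : ℍ → ℂ} (hx : IsMF Γ 12 x) (hrat : IsRat (qe x))
    (hinj : Function.Injective (MFLib.conj Γ 12 x)) [FunField K (FG Γ K)] :
    rrGenus K (FG Γ K) ≤ Module.finrank ℂ (Dim.cf Γ 2) := by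
  haveI : Nonempty (K →+* ℂ) := ⟨ι⟩
  have ht := transcendental_jj (K := K) (Γ := Γ)
  have hn0 := finrank_eq Γ K ι
  obtain ⟨c, hc⟩ := exists_riemann (K := K) (F := FG Γ K)
  let n : ℕ := c.toNat + 1
  have hn1 : 1 ≤ n := by omega
  have hj0 : jj Γ K ≠ 0 := jj_ne_zero
  obtain ⟨m, y, hm, hy1, hy2⟩ := exists_familyG (K := K) (Γ := Γ) ι hx hrat hinj hn1
  have hmem : ∀ i, y i ∈ riemannRochSpace (n • poleDiv K (jj Γ K)) := by
    intro i v
    rw [v.adicValuation_eq_exp_neg_ord (hy1.ne_zero i), WithZero.exp_le_exp,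
      Finsupp.smul_apply, poleDiv_apply, nsmul_eq_mul]
    have h1 := hy2 i v
    have h2 : max (-v.ord (jj Γ K)) 0 = - min 0 (v.ord (jj Γ K)) := by
      rcases le_total 0 (v.ord (jj Γ K)) with h | h
      · rw [min_eq_left h, max_eq_right (by omega), neg_zero]
      · rw [min_eq_right h, max_eq_left (by omega)]
    rw [h2]
    linarith
  let w : Fin m → riemannRochSpace (n • poleDiv K (jj Γ K)) := fun i => ⟨y i, hmem i⟩
  have hw : LinearIndependent K w := by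
    apply LinearIndependent.of_comp (riemannRochSpace (n • poleDiv K (jj Γ K))).subtype
    exact hy1
  have h2 := hw.fintype_card_le_finrank
  rw [Fintype.card_fin] at h2
  have hidx : Γ.index = idx Γ := by
    rw [Subgroup.index, Nat.card_eq_fintype_card]
  have hdeg : Divisor.degree (n • poleDiv K (jj Γ K)) = n * Γ.index := by
    rw [map_nsmul, degree_poleDiv ht, nsmul_eq_mul, hn0, hidx]
  have hpsi : 0 < Γ.index := Nat.pos_of_ne_zero Subgroup.FiniteIndex.index_ne_zero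
  have h3 := hc (n • poleDiv K (jj Γ K)) (by
    rw [hdeg]
    have h2 := Int.self_le_toNat c
    have h3 : (c.toNat : ℤ) ≤ n := by
      have : c.toNat ≤ n := by omega
      exact_mod_cast this
    have h4 : (1 : ℤ) ≤ Γ.index := by exact_mod_cast hpsi
    have h5 : (0 : ℤ) ≤ n := by positivity
    nlinarith)
  rw [hdeg] at h3
  have h4 : (m : ℤ) ≤ ell (n • poleDiv K (jj Γ K)) := by exact_mod_cast h2
  rw [h3, hm] at h4
  have : (rrGenus K (FG Γ K) : ℤ) ≤ Module.finrank ℂ (Dim.cf Γ 2) := by linarith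
  exact_mod_cast this

end bound

section numeric

theorem cInf_eq (Γ : Subgroup SL(2, ℤ)) : cInf Γ =
    Nat.card (MulAction.orbitRel.Quotient (Subgroup.zpowers ModularGroup.T) (SL(2, ℤ) ⧸ Γ)) := by
  have key : ∀ (m : ℤ) (x : SL(2, ℤ) ⧸ Γ),
      (Quot.mk (fun x y : SL(2, ℤ) ⧸ Γ => y = ModularGroup.T • x) (ModularGroup.T ^ m • x)) =
        Quot.mk _ x := by
    intro m
    induction m using Int.induction_on with
    | zero => intro x; simp
    | succ i ih =>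
      intro x
      rw [← ih x]
      symm
      apply Quot.sound
      rw [← mul_smul]
      congr 1
      rw [zpow_add_one]
      group
    | pred i ih =>
      intro x
      rw [← ih x]
      apply Quot.sound
      rw [← mul_smul]
      congr 1
      rw [zpow_sub_one]
      group
  refine Nat.card_congr
    { toFun := Quot.lift (fun x => Quotient.mk'' x) ?_
      invFun := fun o => Quotient.liftOn' o (fun x => Quot.mk _ x) ?_
      left_inv := ?_
      right_inv := ?_ }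
  · intro a b hab
    refine (Quotient.eq''.mpr ?_).symm
    exact ⟨⟨ModularGroup.T, Subgroup.mem_zpowers _⟩, hab.symm⟩
  · intro a b hab
    obtain ⟨⟨γ, m, rfl⟩, hm⟩ := hab
    rw [← hm]
    exact key m b
  · intro o
    induction o using Quot.inductionOn with
    | h x => rfl
  · intro o
    induction o using Quotient.inductionOn' with
    | h x => rfl

variable {Γ : Subgroup SL(2, ℤ)} [LvlG Γ] [RatG Γ] {K : Type*} [Field K] [Algebra ℚ K]
  [IsAlgClosed K] [CharZero K]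

theorem rrGenus_le_num (ι : K →+* ℂ) {x : ℍ → ℂ} (hx : IsMF Γ 12 x) (hrat : IsRat (qe x))
    (hinj : Function.Injective (MFLib.conj Γ 12 x)) [FunField K (FG Γ K)] :
    (rrGenus K (FG Γ K) : ℚ) ≤ 1 + (Γ.index : ℚ) / 12 - (cInf Γ : ℚ) / 2 := by
  have h1 := rrGenus_le_cf (K := K) ι hx hrat hinj
  obtain ⟨Fr⟩ := Dim.exists_frame (Γ := Γ) LvlG.neg_mem hx hinj
  have h2 := Fr.genus_formula
  rw [← cInf_eq] at h2
  have h3 : (rrGenus K (FG Γ K) : ℚ) ≤ Module.finrank ℂ (Dim.cf Γ 2) := by exact_mod_cast h1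
  refine h3.trans ?_
  rw [h2]
  have h4 : (0 : ℚ) ≤ Nat.card {x : SL(2, ℤ) ⧸ Γ // ModularGroup.S • x = x} := by positivity
  have h5 : (0 : ℚ) ≤ Nat.card {x : SL(2, ℤ) ⧸ Γ //
    (ModularGroup.S * ModularGroup.T) • x = x} := by positivity
  have h6 : (Nat.card (SL(2, ℤ) ⧸ Γ) : ℚ) = Γ.index := rfl
  rw [h6]
  linarith

end numeric

/-- **upper bound for the genus in characteristic zero** -/
theorem rrGenus_FG_le {K : Type*} [Field K] [Algebra ℚ K] [IsAlgClosed K] [CharZero K]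
    (ι : K →+* ℂ) {N : ℕ} [NeZero N] {H : Subgroup (ZMod N)ˣ} (hN : 2 ≤ N) (hH : -1 ∈ H) :
    haveI := lvlG_GH N H hH
    haveI : FunField K (FG (GH N H) K) := by
      haveI := ratG_GH N H hH
      haveI : Nonempty (K →+* ℂ) := ⟨ι⟩
      infer_instance
    (rrGenus K (FG (GH N H) K) : ℚ) ≤ 1 + ((dedekindPsi N * H.index : ℕ) : ℚ) / 12 -
      (cInf (GH N H) : ℚ) / 2 := by
  haveI := lvlG_GH N H hH
  haveI := ratG_GH N H hH
  haveI : Nonempty (K →+* ℂ) := ⟨ι⟩
  obtain ⟨x, hx, hrat, hinj⟩ := exists_sep12 (N := N) hN hH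
  have h := rrGenus_le_num (K := K) ι hx hrat hinj
  rw [index_GH] at h
  exact h

end Fermat.Agent.Cov
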