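import Fermat.Agent.Cov.Elem
import Fermat.Agent.GamH.Forms

/-!
# Integrality of the Eisenstein series at all cusps
-/

set_option autoImplicit false
set_option linter.style.haveILetI false
set_option linter.unusedSectionVars false

noncomputable section

open UpperHalfPlane hiding I
open Complex ModularCurve Filter ModularForm
open scoped Topology Manifold MatrixGroups Real

namespace Fermat.Agent.Cov

open Fermat.Agent.X0Genus Fermat.Agent.JFun Fermat.Agent.ModPoly Fermat.Agent.RedMod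
open Fermat.Agent.GamH Fermat.Agent.MFLib Fermat.Agent.KumG

variable {N : ℕ} [NeZero N] {A : ValuationSubring ℂ}

theorem natCast_inv_mem (hN : (N : IsLocalRing.ResidueField A) ≠ 0) : ((N : ℂ))⁻¹ ∈ A := by
  have h1 : IsUnit (N : A) := by
    rw [← IsLocalRing.residue_ne_zero_iff_isUnit, map_natCast]
    exact hN
  obtain ⟨u, hu⟩ := h1
  have h2 : ((u⁻¹ : Aˣ) : A) * (N : A) = 1 := by rw [← hu, Units.inv_mul]
  have h3 : (((u⁻¹ : Aˣ) : A) : ℂ) * (N : ℂ) = 1 := by
    have := congrArg (algebraMap A ℂ) h2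
    rw [map_mul, map_one, map_natCast] at this
    exact this
  rw [← eq_inv_of_mul_eq_one_left h3]
  exact Subtype.prop _

theorem zM_mem : zM N ∈ A := by
  obtain ⟨u, hu⟩ := exists_rootUnit A (NeZero.ne N) (zM_pow N)
  rw [← hu]
  exact (u : A).2

theorem inv_one_sub_mem (hN : (N : IsLocalRing.ResidueField A) ≠ 0) {x : ℂ} (hx : x ^ N = 1)
    (hx1 : x ≠ 1) (hxA : x ∈ A) : (1 - x)⁻¹ ∈ A := by
  have h0 : ∑ i ∈ Finset.range N, x ^ i = 0 := by
    have h1 := geom_sum_mul x N
    rw [hx, sub_self] at h1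
    exact (mul_eq_zero.1 h1).resolve_right (sub_ne_zero.2 hx1)
  have h1 : (N : ℂ) = (1 - x) * ∑ i ∈ Finset.range N, ∑ j ∈ Finset.range i, x ^ j := by
    rw [Finset.mul_sum]
    have h2 : ∀ i ∈ Finset.range N, (1 - x) * ∑ j ∈ Finset.range i, x ^ j = 1 - x ^ i := by
      intro i _
      have h3 := geom_sum_mul x i
      linear_combination -h3
    rw [Finset.sum_congr rfl h2, Finset.sum_sub_distrib, h0]
    simp
  have h2 : (1 - x)⁻¹ = (N : ℂ)⁻¹ * ∑ i ∈ Finset.range N, ∑ j ∈ Finset.range i, x ^ j := by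
    have hx2 : (1 - x) ≠ 0 := sub_ne_zero.2 (Ne.symm hx1)
    have hN0 : (N : ℂ) ≠ 0 := by exact_mod_cast NeZero.ne N
    field_simp
    linear_combination h1
  rw [h2]
  exact mul_mem (natCast_inv_mem hN) (sum_mem fun i _ => sum_mem fun j _ => pow_mem hxA j)

theorem natCast_mem (n : ℕ) : (n : ℂ) ∈ A := by
  have := (n : A).2
  have h : ((n : A) : ℂ) = (n : ℂ) := map_natCast (algebraMap A ℂ) n
  rwa [h] at this

theorem Pc_mem (hN : (N : IsLocalRing.ResidueField A) ≠ 0) {x : ℂ} (hx : x ^ N = 1)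
    (hx1 : x ≠ 1) (hxA : x ∈ A) : Pc x ∈ A := by
  have h := inv_one_sub_mem hN hx hx1 hxA
  have e : Pc x = x * (1 + ((4 : ℕ) : ℂ) * x + x ^ 2) * ((1 - x)⁻¹) ^ 4 := by
    rw [Pc, div_eq_mul_inv, inv_pow]
    push_cast
    ring
  rw [e]
  exact mul_mem (mul_mem hxA (add_mem (add_mem (one_mem _) (mul_mem (natCast_mem 4) hxA))
    (pow_mem hxA 2))) (pow_mem h 4)

theorem Pc_inv {x : ℂ} (hx : x ≠ 0) (hx1 : x ≠ 1) : Pc x⁻¹ = Pc x := by
  have h1 : (1 - x) ≠ 0 := sub_ne_zero.2 (Ne.symm hx1)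
  have h2 : (x - 1) ≠ 0 := sub_ne_zero.2 hx1
  have h3 : 1 - x⁻¹ = (x - 1) / x := by field_simp
  rw [Pc, Pc, h3]
  field_simp
  ring

theorem zM_pow_neg (b : ZMod N) : zM N ^ (-b).val = (zM N ^ b.val)⁻¹ := by
  apply eq_inv_of_mul_eq_one_left
  rw [← pow_add]
  have h : (N : ℕ) ∣ (-b).val + b.val := by
    rw [← ZMod.natCast_eq_zero_iff]
    push_cast
    rw [ZMod.natCast_zmod_val, ZMod.natCast_zmod_val, neg_add_cancel]
  obtain ⟨c, hc⟩ := h
  rw [hc, pow_mul, zM_pow, one_pow]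

theorem zM_pow_ne_one {b : ZMod N} (hb : b ≠ 0) : zM N ^ b.val ≠ 1 := by
  rw [ne_eq, (zM_primitive N).pow_eq_one_iff_dvd]
  intro h
  apply hb
  rw [← ZMod.natCast_zmod_val b]
  exact (ZMod.natCast_eq_zero_iff _ _).2 h

theorem zM_pow_val_mem (b : ZMod N) : zM N ^ b.val ∈ A := pow_mem zM_mem _

theorem zM_pow_val_pow (b : ZMod N) : (zM N ^ b.val) ^ N = 1 := by
  rw [← pow_mul, mul_comm, pow_mul, zM_pow, one_pow]

theorem C4_eq : C4 N = C4 1 * ((N : ℂ)⁻¹) ^ 4 := by
  rw [C4, C4]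
  push_cast
  rw [one_pow, div_one, div_eq_mul_inv, inv_pow]

theorem qM_tendsto : Tendsto (fun n : ℕ => qM N (Complex.I / (n + 1))) atTop (𝓝 1) := by
  have h1 : Tendsto (fun n : ℕ => (1 : ℂ) / ((n : ℂ) + 1)) atTop (𝓝 0) := by
    have := tendsto_one_div_add_atTop_nhds_zero_nat (𝕜 := ℝ)
    have h2 := (Complex.continuous_ofReal.tendsto 0).comp this
    rw [Complex.ofReal_zero] at h2
    refine h2.congr fun n => ?_
    simp only [Function.comp]
    push_cast
    rfl
  have h3 : Continuous (fun w : ℂ => cexp (2 * π * Complex.I * (Complex.I * w) / N)) := by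
    fun_prop
  have h4 := (h3.tendsto 0).comp h1
  simp only [mul_zero, zero_div, Complex.exp_zero] at h4
  refine h4.congr fun n => ?_
  simp only [Function.comp, qM]
  congr 1
  ring

theorem kap_eq {b : ZMod N} (hb : b ≠ 0) : kap b = C4 N * Pc (zM N ^ b.val) := by
  have him : ∀ n : ℕ, 0 < (Complex.I / ((n : ℂ) + 1)).im := by
    intro n
    have h1 : (Complex.I / ((n : ℂ) + 1)) = ((1 / ((n : ℝ) + 1) : ℝ) : ℂ) * Complex.I := by
      push_cast
      ring
    rw [h1, Complex.im_ofReal_mul, Complex.I_im, mul_one]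
    positivity
  have hre : ∀ n : ℕ, (Complex.I / ((n : ℂ) + 1)).re = 0 := by
    intro n
    have h1 : (Complex.I / ((n : ℂ) + 1)) = ((1 / ((n : ℝ) + 1) : ℝ) : ℂ) * Complex.I := by
      push_cast
      ring
    rw [h1, Complex.re_ofReal_mul, Complex.I_re, mul_zero]
  have h0 : Tendsto (fun n : ℕ => Complex.I / ((n : ℂ) + 1)) atTop (𝓝 0) := by
    have h1 : Tendsto (fun n : ℕ => (1 : ℂ) / ((n : ℂ) + 1)) atTop (𝓝 0) := by
      have := tendsto_one_div_add_atTop_nhds_zero_nat (𝕜 := ℝ)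
      have h2 := (Complex.continuous_ofReal.tendsto 0).comp this
      rw [Complex.ofReal_zero] at h2
      refine h2.congr fun n => ?_
      simp only [Function.comp]
      push_cast
      rfl
    have h2 := h1.const_mul Complex.I
    rw [mul_zero] at h2
    refine h2.congr fun n => ?_
    ring
  have hk0 : ∀ k : ℤ, (k : ZMod N) = b → k ≠ 0 := by
    rintro k hk rfl
    exact hb (by rw [← hk, Int.cast_zero])
  have hL : Tendsto (fun n : ℕ => ∑' k : ℤ, (if (k : ZMod N) = b then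
      (((Complex.I / ((n : ℂ) + 1)) + k) ^ 4)⁻¹ else 0)) atTop (𝓝 (kap b)) := by
    rw [kap]
    refine tendsto_tsum_of_dominated_convergence (bound := fun k : ℤ => 1 / |(k : ℝ)| ^ 4) ?_ ?_ ?_
    · have h2 := (Real.summable_one_div_int_pow (p := 4)).2 (by norm_num)
      refine h2.congr fun k => ?_
      rw [show |(k : ℝ)| ^ 4 = (k : ℝ) ^ 4 from Even.pow_abs (by decide) _]
    · intro k
      by_cases hk : (k : ZMod N) = b
      · simp only [if_pos hk]
        have hkc : (k : ℂ) ≠ 0 := by exact_mod_cast hk0 k hk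
        have h1 := ((h0.add_const (k : ℂ)).pow 4).inv₀ (by
          rw [zero_add]; exact pow_ne_zero _ hkc)
        rwa [zero_add] at h1
      · simp only [if_neg hk]
        exact tendsto_const_nhds
    · refine Eventually.of_forall fun n k => ?_
      by_cases hk : (k : ZMod N) = b
      · rw [if_pos hk, norm_inv, norm_pow, one_div]
        have hkr : (0 : ℝ) < |(k : ℝ)| := abs_pos.2 (by exact_mod_cast hk0 k hk)
        apply inv_anti₀ (by positivity)
        apply pow_le_pow_left₀ (abs_nonneg _)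
        have h1 := Complex.abs_re_le_norm ((Complex.I / ((n : ℂ) + 1)) + k)
        rw [Complex.add_re, hre, zero_add, Complex.intCast_re] at h1
        exact h1
      · rw [if_neg hk, norm_zero]
        positivity
  have hR : Tendsto (fun n : ℕ => C4 N * Pc (zM N ^ b.val * qM N (Complex.I / ((n : ℂ) + 1))))
      atTop (𝓝 (C4 N * Pc (zM N ^ b.val))) := by
    apply Tendsto.const_mul
    have h1 : Tendsto (fun n : ℕ => zM N ^ b.val * qM N (Complex.I / ((n : ℂ) + 1))) atTop
        (𝓝 (zM N ^ b.val)) := by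
      have := (qM_tendsto (N := N)).const_mul (zM N ^ b.val)
      rwa [mul_one] at this
    have h2 : 1 - zM N ^ b.val ≠ 0 := sub_ne_zero.2 (Ne.symm (zM_pow_ne_one hb))
    have h3 : ContinuousAt (fun x : ℂ => Pc x) (zM N ^ b.val) := by
      unfold Pc
      apply ContinuousAt.div (by fun_prop) (by fun_prop)
      exact pow_ne_zero _ h2
    exact h3.tendsto.comp h1
  refine tendsto_nhds_unique hL (hR.congr fun n => ?_)
  have h1 := tsum_class b (⟨Complex.I / ((n : ℂ) + 1), him n⟩ : ℍ)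
  have h2 : ‖zM N ^ b.val * qM N (Complex.I / ((n : ℂ) + 1))‖ < 1 := by
    rw [norm_mul, norm_pow, norm_zM, one_pow, one_mul]
    exact norm_qM_lt' (him n)
  rw [← tsum_cube h2]
  exact h1.symm

theorem sum_symm {f : ZMod N → ℂ} (hf : ∀ b, f (-b) = f b) (h0 : ∀ b, b = -b → f b = 0) :
    ∑ b, f b = 2 * ∑ b : ZMod N, if b.val < (-b).val then f b else 0 := by
  have h1 : ∀ b : ZMod N, f b = (if b.val < (-b).val then f b else 0) +
      (if (-b).val < (- -b).val then f (-b) else 0) := by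
    intro b
    rw [neg_neg, hf]
    rcases lt_trichotomy b.val (-b).val with h | h | h
    · rw [if_pos h, if_neg h.not_gt, add_zero]
    · rw [if_neg h.not_lt, if_neg h.not_gt, h0 b (ZMod.val_injective N h), add_zero]
    · rw [if_neg h.not_gt, if_pos h, zero_add]
  rw [Finset.sum_congr rfl fun b _ => h1 b, Finset.sum_add_distrib, two_mul]
  congr 1
  exact Equiv.sum_comp (Equiv.neg (ZMod N)) (fun b => if b.val < (-b).val then f b else 0)

/-- integrality of the coefficients -/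
theorem coeff_mem (hN : (N : IsLocalRing.ResidueField A) ≠ 0) (R : (Fin 2 → ZMod N) → Prop)
    (hR : ∀ x y, R ![-x, -y] ↔ R ![x, y]) (h0 : ∀ b, b = -b → ¬ R ![0, b]) (n : ℕ) :
    (2 * C4 1)⁻¹ * ∑ b : ZMod N, cG (fun m => R ![(m : ZMod N), b]) b n ∈ A := by
  classical
  have hC : C4 1 ≠ 0 := C4_ne_zero 1
  have hNi := natCast_inv_mem hN
  have hb0 : ∀ b, R ![0, b] → b ≠ 0 := by
    rintro b hb rfl
    exact h0 0 (by rw [neg_zero]) hb
  rcases eq_or_ne n 0 with rfl | hn
  · have h1 : ∀ b : ZMod N, cG (fun m => R ![(m : ZMod N), b]) b 0 =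
        C4 N * (if R ![0, b] then Pc (zM N ^ b.val) else 0) := by
      intro b
      rw [cG, if_pos rfl]
      simp only [Int.cast_zero]
      by_cases h : R ![0, b]
      · rw [if_pos h, if_pos h, kap_eq (hb0 b h)]
      · rw [if_neg h, if_neg h, mul_zero]
    rw [Finset.sum_congr rfl fun b _ => h1 b, ← Finset.mul_sum]
    have h2 := sum_symm (f := fun b : ZMod N => if R ![0, b] then Pc (zM N ^ b.val) else 0) (by
      intro b
      have h3 : R ![0, -b] ↔ R ![0, b] := by
        have := hR 0 b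
        rwa [neg_zero] at this
      simp only [h3]
      by_cases h : R ![0, b]
      · rw [if_pos h, if_pos h, zM_pow_neg, Pc_inv (pow_ne_zero _ (by
          intro h5
          have h6 := zM_pow N
          rw [h5, zero_pow (NeZero.ne N)] at h6
          exact zero_ne_one h6)) (zM_pow_ne_one (hb0 b h))]
      · rw [if_neg h, if_neg h]) (by
      intro b hb
      exact if_neg (h0 b hb))
    rw [h2, C4_eq (N := N)]
    have h3 : ∀ X : ℂ, (2 * C4 1)⁻¹ * (C4 1 * ((N : ℂ)⁻¹) ^ 4 * (2 * X)) =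
        ((N : ℂ)⁻¹) ^ 4 * X := by
      intro X
      field_simp
    rw [h3]
    refine mul_mem (pow_mem hNi 4) (sum_mem fun b _ => ?_)
    split_ifs with h4 h5
    · exact Pc_mem hN (zM_pow_val_pow b) (zM_pow_ne_one (hb0 b h5)) (zM_pow_val_mem b)
    · exact zero_mem _
    · exact zero_mem _
  · have h1 : ∀ b : ZMod N, cG (fun m => R ![(m : ZMod N), b]) b n = C4 N *
        (∑ x ∈ n.divisorsAntidiagonal, (if R ![((x.1 : ℕ) : ZMod N), b] then
          (x.2 : ℂ) ^ 3 * (zM N ^ b.val) ^ x.2 else 0)) + C4 N *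
        (∑ x ∈ n.divisorsAntidiagonal, (if R ![((x.1 : ℕ) : ZMod N), -b] then
          (x.2 : ℂ) ^ 3 * (zM N ^ (-b).val) ^ x.2 else 0)) := by
      intro b
      rw [cG, if_neg hn, ← mul_add, ← Finset.sum_add_distrib]
      congr 1
      refine Finset.sum_congr rfl fun x _ => ?_
      have h2 : R ![-((x.1 : ℕ) : ZMod N), b] ↔ R ![((x.1 : ℕ) : ZMod N), -b] := by
        have := hR ((x.1 : ℕ) : ZMod N) (-b)
        rwa [neg_neg] at this
      push_cast
      simp only [h2]
    rw [Finset.sum_congr rfl fun b _ => h1 b, Finset.sum_add_distrib]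
    have h2 := Equiv.sum_comp (Equiv.neg (ZMod N)) (fun b => C4 N *
        (∑ x ∈ n.divisorsAntidiagonal, (if R ![((x.1 : ℕ) : ZMod N), b] then
          (x.2 : ℂ) ^ 3 * (zM N ^ b.val) ^ x.2 else 0)))
    simp only [Equiv.neg_apply] at h2
    rw [h2, ← two_mul, ← Finset.mul_sum, C4_eq (N := N)]
    have h3 : ∀ X : ℂ, (2 * C4 1)⁻¹ * (2 * (C4 1 * ((N : ℂ)⁻¹) ^ 4 * X)) =
        ((N : ℂ)⁻¹) ^ 4 * X := by
      intro X
      field_simp
    rw [h3]
    refine mul_mem (pow_mem hNi 4) (sum_mem fun b _ => sum_mem fun x _ => ?_)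
    split_ifs
    · exact mul_mem (pow_mem (natCast_mem _) _) (pow_mem (zM_pow_val_mem b) _)
    · exact zero_mem _

end Fermat.Agent.Cov
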