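import Fermat.Agent.Cov.Ring
import Fermat.Agent.Cusp.Places

/-!
# Constants and the functions `j(dτ)` in the ring `BB`
-/

set_option autoImplicit false
set_option linter.style.haveILetI false
set_option linter.unusedSectionVars false

noncomputable section

open UpperHalfPlane Complex ModularCurve Filter ModularForm
open scoped Topology Manifold MatrixGroups

namespace Fermat.Agent.Cov

open Fermat.Agent.X0Genus Fermat.Agent.JFun Fermat.Agent.ModPoly Fermat.Agent.RedMod

variable {N : ℕ} [NeZero N] {A : ValuationSubring ℂ}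

/-- roots of unity are units of `A` -/
theorem exists_rootUnit (A : ValuationSubring ℂ) {c : ℂ} {D : ℕ} (hD : D ≠ 0) (hc : c ^ D = 1) :
    ∃ u : Aˣ, ((u : A) : ℂ) = c := by
  have h1 : c ∈ A := by
    rcases A.mem_or_inv_mem c with h | h
    · exact h
    · have h2 : c = c⁻¹ ^ (D - 1) := by
        have hc0 : c ≠ 0 := by
          rintro rfl
          rw [zero_pow hD] at hc
          exact zero_ne_one hc
        rw [inv_pow]
        apply eq_inv_of_mul_eq_one_left
        rw [← pow_succ', Nat.sub_add_cancel (Nat.one_le_iff_ne_zero.2 hD), hc]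
      rw [h2]
      exact pow_mem h _
  have h2 : (⟨c, h1⟩ : A) ^ D = 1 := Subtype.ext hc
  exact ⟨Units.ofPowEqOne _ D h2 hD, rfl⟩

theorem constH_mem (a : A) : constH (a : ℂ) ∈ BB N A :=
  ⟨fun γ _ => pull_constH γ _, fun g => ⟨_, by rw [pull_constH]; exact HasExp.const a⟩⟩

variable (N A) in
/-- constants -/
def constB : A →+* BB N A :=
  ((constH.comp (algebraMap A ℂ)).codRestrict (BB N A)) fun a => constH_mem a

theorem coe_constB (a : A) : (constB N A a : hol) = constH (a : ℂ) := rfl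

theorem smul_constB (g : SL(2, ℤ)) (a : A) : g • constB N A a = constB N A a := Subtype.ext rfl

theorem red_constB (a : A) : red N A (constB N A a) = HahnSeries.C (IsLocalRing.residue A a) := by
  rw [red_eq (HasExp.const a), coeffMap_C]

instance : Algebra A (BB N A) := (constB N A).toAlgebra

theorem algebraMap_BB (a : A) : algebraMap A (BB N A) a = constB N A a := rfl

theorem smul_algebraMap_BB (g : SL(2, ℤ)) (a : A) :
    g • algebraMap A (BB N A) a = algebraMap A (BB N A) a := smul_constB g a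

/-- the translates of `j(dτ)` have integral expansions -/
theorem hasExp_pull_jdH {d : ℕ} [NeZero d] (hd : d ∣ N) (g : SL(2, ℤ)) :
    ∃ (a D : ℕ) (_ : NeZero (a * (N / D))) (c : Aˣ), a * D = d ∧ (a : ℤ) ∣ g 1 0 ∧ D ≠ 0 ∧
      HasExp N A (pull g (jdH d)) (qExpand A (a * (N / D)) (twist c (jqModC A))) := by
  obtain ⟨a, D, ha, hD, B, ε, hAD, hag, hε⟩ := exists_decomp d g
  have hDN : D ∣ N := (Dvd.intro_left a hAD).trans hd
  haveI hne : NeZero (a * (N / D)) := ⟨Nat.mul_ne_zero (NeZero.ne a)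
    (Nat.div_pos (Nat.le_of_dvd (NeZero.pos N) hDN) (NeZero.pos D)).ne'⟩
  obtain ⟨c, hc⟩ := exists_rootUnit A (c := Complex.exp (2 * Real.pi * Complex.I * B / D))
    (D := D) (NeZero.ne D) (by
      have hD0 : (D : ℂ) ≠ 0 := NeZero.ne _
      rw [← Complex.exp_nat_mul, Complex.exp_eq_one_iff]
      exact ⟨B, by field_simp⟩)
  refine ⟨a, D, hne, c, hAD, hag, NeZero.ne D, ?_⟩
  let c' : ℂˣ := Units.mk0 (Complex.exp (2 * Real.pi * Complex.I * B / D)) (Complex.exp_ne_zero _)
  have hc' : ‖(c' : ℂ)‖ = 1 := by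
    change ‖Complex.exp (2 * Real.pi * Complex.I * B / D)‖ = 1
    have : (2 * Real.pi * Complex.I * B / D : ℂ) = ((2 * Real.pi * B / D : ℝ) : ℂ) * Complex.I := by
      push_cast; ring
    rw [this, Complex.norm_exp_ofReal_mul_I]
  have hcc : Units.map (algebraMap A ℂ : A →* ℂ) c = c' := Units.ext hc
  refine ⟨⟨qExpand ℂ (a * (N / D)) (twist c' (jqModC ℂ)), (conv_jqModC.twist hc').qExpand _⟩,
    ?_, ?_⟩
  · rw [coeffMap_qExpand, coeffMap_twist, coeffMap_jqModC]
    exact congrArg (fun u => qExpand ℂ (a * (N / D)) (twist u (jqModC ℂ))) hcc.symm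
  · apply Subtype.ext
    funext τ
    rw [pull_apply, jdH_apply, hε τ, jfun_smul, evPh_apply]
    simp only
    rw [evz_qExpand, evz_twist, ← evz_jqModC, qParam_affD N a D hDN B τ]
    rfl

theorem jdH_mem {d : ℕ} [NeZero d] (hd : d ∣ N) : jdH d ∈ BB N A := by
  refine ⟨fun γ hγ => ?_, fun g => ?_⟩
  · refine pull_jdH_of_mem N hd ?_
    rw [CongruenceSubgroup.Gamma0_mem]
    exact (CongruenceSubgroup.Gamma_mem.1 hγ).2.2.1
  · obtain ⟨a, D, h0, c, -, -, -, h⟩ := hasExp_pull_jdH (A := A) hd g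
    exact ⟨_, h⟩

variable (N A) in
/-- `j(dτ)` -/
def jdB (d : ℕ) [NeZero d] (hd : d ∣ N) : BB N A := ⟨jdH d, jdH_mem hd⟩

theorem coe_jdB (d : ℕ) [NeZero d] (hd : d ∣ N) : (jdB N A d hd : hol) = jdH d := rfl

theorem smul_jdB_of_mem {d : ℕ} [NeZero d] (hd : d ∣ N) {g : SL(2, ℤ)}
    (hg : g ∈ CongruenceSubgroup.Gamma0 N) : g • jdB N A d hd = jdB N A d hd :=
  Subtype.ext (pull_jdH_of_mem N hd (inv_mem hg))

/-- width one expansions -/
theorem hasExp_of_one {x : hol} {s : LaurentSeries A} (h : HasExp 1 A x s) :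
    HasExp N A x (qExpand A N s) := by
  obtain ⟨F, hF, rfl⟩ := h
  refine ⟨⟨qExpand ℂ N F.1, F.2.qExpand N⟩, ?_, ?_⟩
  · rw [coeffMap_qExpand, ← hF]
  · apply Subtype.ext
    funext τ
    rw [evPh_apply, evPh_apply]
    simp only
    rw [evz_qExpand, qpp_pow_self, qpp_one]

theorem hasExp_jdH_one (d : ℕ) [NeZero d] : HasExp 1 A (jdH d) (qExpand A d (jqModC A)) :=
  ⟨⟨_, conv_qExpand_jqModC d⟩, by rw [coeffMap_qExpand, coeffMap_jqModC], rfl⟩

theorem red_jdB (d : ℕ) [NeZero d] (hd : d ∣ N) : red N A (jdB N A d hd) =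
    qExpand _ N (qExpand _ d (jqModC (IsLocalRing.ResidueField A))) := by
  rw [red_eq (hasExp_of_one (hasExp_jdH_one d)), coeffMap_qExpand, coeffMap_qExpand,
    coeffMap_jqModC]

theorem order_jqModC (k : Type*) [Field k] : (jqModC k).order = -1 := by
  have := order_Jc (k := k) 1 1
  rw [Jc_one_one] at this
  simpa using this

/-- the translate of `j(Nτ)` by `g` has the same reduction only if `g ∈ Γ₀(N)`. -/
theorem mem_Gamma0_of_red_eq {g : SL(2, ℤ)}
    (h : red N A (g • jdB N A N dvd_rfl) = red N A (jdB N A N dvd_rfl)) :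
    g ∈ CongruenceSubgroup.Gamma0 N := by
  obtain ⟨a, D, h0, c, haD, hag, hD0, hexp⟩ := hasExp_pull_jdH (A := A) (N := N) dvd_rfl g⁻¹
  have h1 : red N A (g • jdB N A N dvd_rfl) = _ := red_eq (x := g • jdB N A N dvd_rfl) hexp
  rw [h1, red_jdB, coeffMap_qExpand, coeffMap_twist, coeffMap_jqModC] at h
  have h2 := congrArg HahnSeries.order h
  have h3 : (twist (Units.map (IsLocalRing.residue A : A →* IsLocalRing.ResidueField A) c)
      (jqModC (IsLocalRing.ResidueField A))).order = -1 := by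
    rw [← order_jqModC (IsLocalRing.ResidueField A)]
    have := Cusp.order_SbA_one (Units.map (IsLocalRing.residue A : A →* IsLocalRing.ResidueField A) c)
      (jqModC (IsLocalRing.ResidueField A))
    rw [← this]
    congr 1
    ext n
    rw [twist_coeff, Cusp.SbA_one_coeff]
  rw [order_qExpand, h3, order_qExpand, order_qExpand, order_jqModC] at h2
  have hDN : D ∣ N := Dvd.intro_left a haD
  have h4 : a * (N / D) = N * N := by
    have : ((a * (N / D) : ℕ) : ℤ) = ((N * N : ℕ) : ℤ) := by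
      push_cast at h2 ⊢
      linarith
    exact_mod_cast this
  have h5 : N / D = a := by
    rw [← haD]
    exact Nat.mul_div_cancel _ (Nat.pos_of_ne_zero hD0)
  rw [h5] at h4
  have h6 : a = N := Nat.mul_self_inj.1 h4
  rw [h6] at hag
  have h7 : g⁻¹ ∈ CongruenceSubgroup.Gamma0 N := by
    rw [CongruenceSubgroup.Gamma0_mem, ZMod.intCast_zmod_eq_zero_iff_dvd]
    exact hag
  simpa using inv_mem h7

end Fermat.Agent.Cov
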