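import Fermat.Agent.Cov.Elem
import Fermat.Agent.KumG.Defs
import Fermat.Agent.KumF.Full

/-!
# Invariant elements of `BB` are modular functions
-/

set_option autoImplicit false
set_option linter.style.haveILetI false
set_option linter.unusedSectionVars false

noncomputable section

open UpperHalfPlane Complex ModularCurve Filter ModularForm
open scoped Topology Manifold MatrixGroups

namespace Fermat.Agent.Cov

open Fermat.Agent.X0Genus Fermat.Agent.JFun Fermat.Agent.ModPoly Fermat.Agent.RedMod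
open Fermat.Agent.MFLib Fermat.Agent.KumG Fermat.Agent.Kum

variable {N : ℕ} [NeZero N] {A : ValuationSubring ℂ}

/-- A Laurent series supported on multiples of `e` is a series in `q ^ e`. -/
theorem exists_qExpand' {R : Type*} [CommRing R] {e : ℕ} [NeZero e] {x : LaurentSeries R}
    (hx : ∀ n : ℤ, ¬ (e : ℤ) ∣ n → x.coeff n = 0) : ∃ y, qExpand R e y = x := by
  classical
  have he : (0 : ℤ) < e := by exact_mod_cast NeZero.pos e
  refine ⟨⟨fun n => x.coeff (e * n), ?_⟩, ?_⟩
  · have : (Function.support fun n : ℤ => x.coeff (e * n)) =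
        (fun n : ℤ => (e : ℤ) * n) ⁻¹' (Function.support x.coeff) := rfl
    rw [this]
    have h2 : (Function.support x.coeff).IsWF := x.isPWO_support.isWF
    rw [Set.isPWO_iff_isWF]
    rw [Set.isWF_iff_no_descending_seq] at h2 ⊢
    intro f hf hmem
    exact h2 (fun n => (e : ℤ) * f n) (fun m n hmn => mul_lt_mul_of_pos_left (hf hmn) he)
      (fun n => hmem n)
  · ext n
    by_cases h : (e : ℤ) ∣ n
    · obtain ⟨m, rfl⟩ := h
      rw [qExpand_coeff_mul]
    · rw [qExpand_coeff_of_not_dvd e _ h, hx n h]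

theorem conv_of_qExpand {m : ℕ} [NeZero m] {F : LaurentSeries ℂ} (h : Conv (qExpand ℂ m F)) :
    Conv F := by
  intro z hz hz1
  obtain ⟨w, hw⟩ := IsAlgClosed.exists_pow_nat_eq z (NeZero.pos m)
  have hw0 : w ≠ 0 := by
    rintro rfl
    rw [zero_pow (NeZero.ne m)] at hw
    exact hz hw.symm
  have hw1 : ‖w‖ < 1 := by
    by_contra hcon
    push Not at hcon
    have : 1 ≤ ‖w‖ ^ m := one_le_pow₀ hcon
    rw [← norm_pow, hw] at this
    linarith
  have h1 := h w hw0 hw1
  have h2 := h1.comp_injective (i := fun k : ℤ => (m : ℤ) * k) (by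
    intro a b hab
    have : (m : ℤ) ≠ 0 := by exact_mod_cast NeZero.ne m
    exact mul_left_cancel₀ this hab)
  refine h2.congr fun k => ?_
  simp only [Function.comp]
  rw [qExpand_coeff_mul, zpow_mul, zpow_natCast, hw]

theorem hasExp_one_of {x : hol} {s : LaurentSeries A} (h : HasExp N A x (qExpand A N s)) :
    HasExp 1 A x s := by
  obtain ⟨F, hF, rfl⟩ := h
  rw [coeffMap_qExpand] at hF
  have hc : Conv (coeffMap (algebraMap A ℂ) s) := by
    apply conv_of_qExpand (m := N)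
    rw [← hF]
    exact F.2
  refine ⟨⟨_, hc⟩, rfl, ?_⟩
  have h1 : F = ⟨qExpand ℂ N (coeffMap (algebraMap A ℂ) s), hc.qExpand N⟩ := Subtype.ext hF
  rw [h1]
  apply Subtype.ext
  funext τ
  rw [evPh_apply, evPh_apply]
  simp only
  rw [evz_qExpand, qpp_pow_self, qpp_one]

variable (N A) in
theorem expB_T_smul : ∃ c : Aˣ, IsPrimitiveRoot ((c : A) : ℂ) N ∧
    (∀ x : BB N A, expB N A (ModularGroup.T • x) = twist c (expB N A x)) := by
  obtain ⟨c, hc⟩ := exists_rootUnit A (c := (lamC N : ℂ)) (D := N) (NeZero.ne N) (by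
    have := (lamC_primitive N).pow_eq_one
    rw [← Units.val_pow_eq_pow_val, this, Units.val_one])
  refine ⟨c, by rw [hc]; exact (IsPrimitiveRoot.coe_units_iff).2 (lamC_primitive N), fun x => ?_⟩
  have hcc : Units.map (algebraMap A ℂ : A →* ℂ) c = lamC N := Units.ext hc
  apply expB_eq
  obtain ⟨F, hF, hx⟩ := hasExp_expB x
  refine ⟨twistC (lamC N) (norm_lamC N) F, ?_, ?_⟩
  · rw [coeffMap_twist, ← hF]
    exact congrArg (fun u => twist u F.1) hcc.symm
  · rw [evPh_twistC, hx]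
    rfl

/-- `T`-invariant elements have expansions in `q` -/
theorem exists_exp_one {x : BB N A} (hT : ModularGroup.T • x = x) :
    ∃ s, HasExp 1 A (x : hol) s := by
  obtain ⟨c, hc, h⟩ := expB_T_smul N A
  have h1 := h x
  rw [hT] at h1
  obtain ⟨s, hs⟩ := exists_qExpand' (e := N) (x := expB N A x) (by
    intro n hn
    have h2 := congrArg (fun y : LaurentSeries A => y.coeff n) h1
    simp only [twist_coeff] at h2
    have h3 : ((1 : A) - ((c ^ n : Aˣ) : A)) * (expB N A x).coeff n = 0 := by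
      rw [sub_mul, one_mul]
      exact sub_eq_zero.2 h2
    rcases mul_eq_zero.1 h3 with h4 | h4
    · exfalso
      apply hn
      rw [← hc.zpow_eq_one_iff_dvd]
      have h5 := congrArg (Subtype.val) (sub_eq_zero.1 h4)
      have h6 : (((c ^ n : Aˣ) : A) : ℂ) = ((c : A) : ℂ) ^ n := by
        have h7 : Units.map (algebraMap A ℂ : A →* ℂ) (c ^ n) =
            (Units.map (algebraMap A ℂ : A →* ℂ) c) ^ n := map_zpow _ _ _
        have h8 := congrArg (Units.val) h7
        rw [Units.val_zpow_eq_zpow_val] at h8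
        exact h8
      rw [← h6]
      exact h5.symm
    · exact h4)
  refine ⟨s, hasExp_one_of (N := N) ?_⟩
  rw [hs]
  exact hasExp_expB x

/-- bounded poles -/
theorem exists_bound (x : BB N A) : ∃ M : ℕ, ∀ (g : SL(2, ℤ)) (n : ℤ), n < -(M : ℤ) →
    (expB N A (g • x)).coeff n = 0 := by
  classical
  haveI : Fintype (SL(2, ℤ) ⧸ CongruenceSubgroup.Gamma N) := Fintype.ofFinite _
  let f : SL(2, ℤ) ⧸ CongruenceSubgroup.Gamma N → BB N A := Quotient.lift (fun g => g • x) (by
    intro a b hab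
    have hab' := QuotientGroup.leftRel_apply.1 hab
    change a • x = b • x
    have : b = a * (a⁻¹ * b) := by group
    rw [this, mul_smul, smul_of_Gamma hab'])
  refine ⟨Finset.univ.sup fun c => (-(expB N A (f c)).order).toNat, fun g n hn => ?_⟩
  apply HahnSeries.coeff_eq_zero_of_lt_order
  have h1 : (-(expB N A (f (QuotientGroup.mk g))).order).toNat ≤
    Finset.univ.sup fun c => (-(expB N A (f c)).order).toNat :=
    Finset.le_sup (f := fun c => (-(expB N A (f c)).order).toNat) (Finset.mem_univ _)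
  have h2 : f (QuotientGroup.mk g) = g • x := rfl
  rw [h2] at h1
  have h3 := Int.self_le_toNat (-(expB N A (g • x)).order)
  have h4 : ((-(expB N A (g • x)).order).toNat : ℤ) ≤
    ((Finset.univ.sup fun c => (-(expB N A (f c)).order).toNat : ℕ) : ℤ) := by exact_mod_cast h1
  linarith

local notation "Δ" => ModularForm.discriminant

/-- evaluation of the expansion of `Δ` -/
theorem evPh_delta (N : ℕ) [NeZero N] (m : ℕ) : (evPh N ⟨qExpand ℂ N (deltaC ℂ) ^ m,
    (show qExpand ℂ N (deltaC ℂ) ^ m ∈ ConvL from pow_mem (conv_deltaC.qExpand N) m)⟩ : ℍ → ℂ) =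
      Δ ^ m := by
  have h1 : (⟨qExpand ℂ N (deltaC ℂ) ^ m, (show qExpand ℂ N (deltaC ℂ) ^ m ∈ ConvL from
    pow_mem (conv_deltaC.qExpand N) m)⟩ : ConvL) = ⟨qExpand ℂ N (deltaC ℂ), conv_deltaC.qExpand N⟩ ^ m :=
    Subtype.ext rfl
  rw [h1, map_pow]
  change ((evPh N _ : hol) : ℍ → ℂ) ^ m = _
  congr 1
  funext τ
  rw [evPh_apply]
  simp only
  rw [evz_qExpand, qpp_pow_self, evz_deltaC]

theorem coeff_delta_pow {m : ℕ} {n : ℤ} (hn : n < N * m) :
    (qExpand ℂ N (deltaC ℂ) ^ m).coeff n = 0 := by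
  have h0 : deltaC ℂ ≠ 0 := fun h => by
    have := deltaC_mul_inv ℂ
    rw [h, zero_mul] at this
    exact zero_ne_one this
  apply HahnSeries.coeff_eq_zero_of_lt_order
  rw [HahnSeries.order_pow, order_qExpand]
  have h1 : 1 ≤ (deltaC ℂ).order := by
    by_contra hcon
    push Not at hcon
    exact coeff_order_ne h0 (order_delta_pos _ hcon)
  have hN : (1 : ℤ) ≤ N := by exact_mod_cast NeZero.pos N
  have hm : (0 : ℤ) ≤ m := Int.natCast_nonneg m
  rw [nsmul_eq_mul]
  have h2 : (N : ℤ) * m * 1 ≤ N * m * (deltaC ℂ).order :=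
    mul_le_mul_of_nonneg_left h1 (by positivity)
  calc n < N * m := hn
    _ ≤ N * m * (deltaC ℂ).order := by linarith
    _ = m * (N * (deltaC ℂ).order) := by ring

theorem isMF_mul_delta {Γ : Subgroup SL(2, ℤ)} {x : BB N A} (hx : ∀ γ ∈ Γ, γ • x = x) {M : ℕ}
    (hM : ∀ (g : SL(2, ℤ)) (n : ℤ), n < -(M : ℤ) → (expB N A (g • x)).coeff n = 0) :
    IsMF Γ (0 + M * 12) (((x : hol) : ℍ → ℂ) * Δ ^ M) := by
  have hD : IsMF ⊤ (M * 12) (Δ ^ M) := isMF_disc.pow M
  have hsl : ∀ γ : SL(2, ℤ), (((x : hol) : ℍ → ℂ) * Δ ^ M) ∣[(0 + M * 12 : ℤ)] γ =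
      ((pull γ (x : hol) : hol) : ℍ → ℂ) * Δ ^ M := by
    intro γ
    rw [mul_slash_SL2, hD.slash γ (Subgroup.mem_top _)]
    congr 1
    funext τ
    rw [ModularForm.SL_slash_apply]
    simp [pull_apply]
  refine ⟨⟨(x : hol).2.mul hD.holo, fun γ => ?_⟩, fun γ hγ => ?_⟩
  · rw [hsl]
    obtain ⟨F, hF, hFx⟩ := hasExp_expB (γ⁻¹ • x)
    have h1 : ((γ⁻¹ • x : BB N A) : hol) = pull γ (x : hol) := by
      rw [coe_smul', inv_inv]
    rw [h1] at hFx
    rw [← hFx, ← evPh_delta N M]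
    set G : ConvL := ⟨qExpand ℂ N (deltaC ℂ) ^ M, _⟩ with hG
    have h2 : ((evPh N F : hol) : ℍ → ℂ) * ((evPh N G : hol) : ℍ → ℂ) = evP N (F * G) := by
      rw [map_mul]; rfl
    rw [h2]
    apply bounded_evP_of_coeff
    intro n hn
    change (F.1 * (qExpand ℂ N (deltaC ℂ) ^ M)).coeff n = 0
    rcases eq_or_ne F.1 0 with h0 | h0
    · rw [h0, zero_mul]; rfl
    have h0' : qExpand ℂ N (deltaC ℂ) ^ M ≠ 0 := by
      apply pow_ne_zero
      intro h
      have h00 : deltaC ℂ = 0 := (qExpand ℂ N).injective (by rw [h, map_zero])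
      have := deltaC_mul_inv ℂ
      rw [h00, zero_mul] at this
      exact zero_ne_one this
    apply HahnSeries.coeff_eq_zero_of_lt_order
    rw [HahnSeries.order_mul h0 h0']
    have h3 : -(M : ℤ) ≤ F.1.order := by
      by_contra hcon
      push Not at hcon
      apply coeff_order_ne h0
      rw [hF, coeffMap_coeff, ← hF, hM _ _ hcon, map_zero]
    have h4 : (N : ℤ) * M ≤ (qExpand ℂ N (deltaC ℂ) ^ M).order := by
      by_contra hcon
      push Not at hcon
      exact coeff_order_ne h0' (coeff_delta_pow hcon)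
    have hN : (1 : ℤ) ≤ N := by exact_mod_cast NeZero.pos N
    have hm : (0 : ℤ) ≤ M := Int.natCast_nonneg M
    nlinarith
  · rw [hsl]
    have h1 := congrArg (fun y : BB N A => (y : hol)) (hx γ⁻¹ (inv_mem hγ))
    simp only [coe_smul', inv_inv] at h1
    rw [h1]

/-- invariant elements are modular functions -/
theorem exists_mem_MFunG {Γ : Subgroup SL(2, ℤ)} [LvlG Γ] {x : BB N A} (hx : ∀ γ ∈ Γ, γ • x = x) :
    ∃ s, HasExp 1 A (x : hol) s ∧ coeffMap (algebraMap A ℂ) s ∈ MFunG Γ := by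
  obtain ⟨s, hs⟩ := exists_exp_one (hx _ LvlG.T_mem)
  refine ⟨s, hs, ?_⟩
  obtain ⟨M, hM⟩ := exists_bound x
  have h1 := isMF_mul_delta hx hM
  have h2 : IsMF Γ (0 + M * 12) (Δ ^ M) := ((isMF_disc.pow M).mono le_top).congr_weight (by ring)
  refine ⟨_, _, _, ⟨h1, h2, ?_, ?_⟩⟩
  · intro h
    have h0 := congrFun h UpperHalfPlane.I
    exact pow_ne_zero _ (discriminant_ne_zero UpperHalfPlane.I) h0
  · obtain ⟨F, hF, hFx⟩ := hs
    have c1 : Conv (ql (Δ ^ M)) := conv_qExpansion h2.qgG.per h2.qgG.holo h2.qgG.bdd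
    have c2 : Conv (ql (((x : hol) : ℍ → ℂ) * Δ ^ M)) :=
      conv_qExpansion h1.qgG.per h1.qgG.holo h1.qgG.bdd
    have h3 : F * ⟨_, c1⟩ = (⟨_, c2⟩ : ConvL) := by
      apply evPh_injective 1
      rw [map_mul, hFx]
      apply Subtype.ext
      funext τ
      change ((x : hol) : ℍ → ℂ) τ * ((evPh 1 ⟨_, c1⟩ : hol) : ℍ → ℂ) τ = _
      rw [evPh_apply, evPh_apply, qpp_one]
      have e1 := evz_qExpansion h2.qgG.per h2.qgG.holo h2.qgG.bdd τ
      have e2 := evz_qExpansion h1.qgG.per h1.qgG.holo h1.qgG.bdd τ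
      change _ * evz (HahnSeries.ofPowerSeries ℤ ℂ (qe _)) _ =
        evz (HahnSeries.ofPowerSeries ℤ ℂ (qe _)) _
      rw [e1, e2]
      rfl
    rw [← hF]
    exact congrArg Subtype.val h3

end Fermat.Agent.Cov
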