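import Fermat.Agent.Cov.EisB
import Fermat.Agent.Cov.Inv

/-!
# The functions `z_a = F_a E₄² / Δ`
-/

set_option autoImplicit false
set_option linter.style.haveILetI false
set_option linter.unusedSectionVars false

noncomputable section

open UpperHalfPlane hiding I
open Complex ModularCurve Filter ModularForm
open scoped Topology Manifold MatrixGroups Real

namespace Fermat.Agent.Cov

open Fermat.Agent.X0Genus Fermat.Agent.JFun Fermat.Agent.ModPoly Fermat.Agent.RedMod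
open Fermat.Agent.GamH Fermat.Agent.MFLib Fermat.Agent.KumG Fermat.Agent.Kum

variable {N : ℕ} [NeZero N] {A : ValuationSubring ℂ}

local notation "Δ" => ModularForm.discriminant

/-- the expansions of the lattice sums -/
theorem exists_exp_Lat (hN : (N : IsLocalRing.ResidueField A) ≠ 0) (R : (Fin 2 → ZMod N) → Prop)
    (hR : ∀ x y, R ![-x, -y] ↔ R ![x, y]) (h0 : ∀ b, b = -b → ¬ R ![0, b]) :
    ∃ (F : ConvL) (s : LaurentSeries A), F.1 = coeffMap (algebraMap A ℂ) s ∧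
      evP N F = (2 * C4 1)⁻¹ • Lat (fun v => R (fun i => (v i : ZMod N))) := by
  classical
  let G : ZMod N → ConvL := fun b => ⟨_, conv_lsum (fun m => R ![(m : ZMod N), b]) b⟩
  refine ⟨⟨HahnSeries.single 0 (2 * C4 1)⁻¹, conv_single _ _⟩ * ∑ b, G b,
    HahnSeries.ofPowerSeries ℤ A (PowerSeries.mk fun n => ⟨_, coeff_mem hN R hR h0 n⟩), ?_, ?_⟩
  · rw [coeffMap_ofPowerSeries]
    change HahnSeries.single 0 (2 * C4 1)⁻¹ * ConvL.subtype (∑ b, G b) = _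
    rw [map_sum]
    have h1 : ∀ b, ConvL.subtype (G b) = HahnSeries.ofPowerSeries ℤ ℂ
        (PowerSeries.mk (cG (fun m => R ![(m : ZMod N), b]) b)) := fun b => rfl
    simp only [h1]
    rw [← map_sum, ← HahnSeries.C_apply, ← HahnSeries.ofPowerSeries_C (Γ := ℤ), ← map_mul]
    congr 1
    ext n
    rw [PowerSeries.coeff_C_mul, map_sum, PowerSeries.coeff_map, PowerSeries.coeff_mk]
    simp only [PowerSeries.coeff_mk]
    rfl
  · rw [map_mul, map_sum, Lat_eq_sum]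
    have h1 : ∀ b, evP N (G b) = lsum (fun m => R ![(m : ZMod N), b]) b := fun b => evP_lsum _ b
    simp only [h1]
    funext τ
    rw [Pi.mul_apply, Pi.smul_apply, smul_eq_mul]
    congr 1
    rw [evP_apply]
    simp only
    rw [evz_single]
    simp

variable {H : Subgroup (ZMod N)ˣ}

theorem Ea_slash_exp (hN : (N : IsLocalRing.ResidueField A) ≠ 0) (hN3 : 3 ≤ N) (hH : -1 ∈ H)
    (a : (ZMod N)ˣ) (g : SL(2, ℤ)) :
    ∃ (F : ConvL) (s : LaurentSeries A), F.1 = coeffMap (algebraMap A ℂ) s ∧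
      evP N F = Ea H a ∣[(4 : ℤ)] g := by
  have h := exists_exp_Lat (A := A) hN (fun u : Fin 2 → ZMod N => inC H a
    (u 0 * (((g⁻¹) 0 0 : ℤ) : ZMod N) + u 1 * (((g⁻¹) 1 0 : ℤ) : ZMod N))) (by
      intro x y
      have h1 : (![-x, -y] 0 * (((g⁻¹) 0 0 : ℤ) : ZMod N) + ![-x, -y] 1 * (((g⁻¹) 1 0 : ℤ) : ZMod N)) =
        -(![x, y] 0 * (((g⁻¹) 0 0 : ℤ) : ZMod N) + ![x, y] 1 * (((g⁻¹) 1 0 : ℤ) : ZMod N)) := by
        simp
        ring
      simp only [h1]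
      exact inC_neg hH a _) (by
      intro b hb hR
      have h1 : (![(0 : ZMod N), b] 0 * (((g⁻¹) 0 0 : ℤ) : ZMod N) +
        ![(0 : ZMod N), b] 1 * (((g⁻¹) 1 0 : ℤ) : ZMod N)) = b * (((g⁻¹) 1 0 : ℤ) : ZMod N) := by
        simp
      simp only [h1] at hR
      obtain ⟨h, -, he⟩ := hR
      have hu : IsUnit (b * (((g⁻¹) 1 0 : ℤ) : ZMod N)) := by
        rw [he, ← Units.val_mul]
        exact Units.isUnit _
      have hb' : IsUnit b := isUnit_of_mul_isUnit_left hu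
      have h2 : (2 : ZMod N) * b = 0 := by
        rw [two_mul]
        nth_rewrite 1 [hb]
        exact neg_add_cancel b
      have h3 : ((2 : ℕ) : ZMod N) = 0 := by
        push_cast
        exact (hb'.mul_left_eq_zero).1 h2
      have h4 := (ZMod.natCast_eq_zero_iff _ _).1 h3
      have := Nat.le_of_dvd (by norm_num) h4
      omega)
  obtain ⟨F, s, hF, hF'⟩ := h
  refine ⟨F, s, hF, ?_⟩
  rw [hF', Ea, SL_smul_slash, Fa, Lat_slash]
  congr 2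
  funext v
  have h1 : (((Matrix.vecMul v (g⁻¹).1) 0 : ℤ) : ZMod N) = ((v 0 : ℤ) : ZMod N) * (((g⁻¹) 0 0 : ℤ) : ZMod N) +
      ((v 1 : ℤ) : ZMod N) * (((g⁻¹) 1 0 : ℤ) : ZMod N) := by
    simp [Matrix.vecMul, dotProduct, Fin.sum_univ_two, -Matrix.SpecialLinearGroup.coe_inv]
  rw [h1]

/-- the weight `-4` factor -/
def wZ (R : Type*) [CommRing R] : LaurentSeries R := eisC R ^ 2 * deltaInvC R

theorem coeffMap_eisC {R S : Type*} [CommRing R] [CommRing S] (f : R →+* S) :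
    coeffMap f (eisC R) = eisC S := by
  rw [eisC, coeffMap_ofPowerSeries, ← RingHom.comp_apply (PowerSeries.map f)
    (PowerSeries.map (Int.castRingHom R)),
    ← PowerSeries.map_comp, RingHom.ext_int (f.comp (Int.castRingHom R)) (Int.castRingHom S)]
  rfl

theorem coeffMap_wZ {R S : Type*} [CommRing R] [CommRing S] (f : R →+* S) :
    coeffMap f (wZ R) = wZ S := by
  rw [wZ, map_mul, map_pow, coeffMap_eisC, coeffMap_deltaInvC, wZ]

theorem conv_wZ : Conv (wZ ℂ) := by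
  rw [wZ, pow_two]
  exact (conv_eisC.mul conv_eisC).mul conv_deltaInvC

theorem evz_wZ (τ : ℍ) : evz (wZ ℂ) (Function.Periodic.qParam 1 τ) =
    (E₄ τ) ^ 2 / Δ τ := by
  have a := qParam_one_ne_zero τ
  have b := norm_qParam_one_lt τ
  rw [wZ, pow_two, evz_mul (conv_eisC.mul conv_eisC) conv_deltaInvC a b,
    evz_mul conv_eisC conv_eisC a b, evz_eisC, evz_deltaInvC, pow_two,
    div_eq_mul_inv]

/-- the functions `z_a` -/
def zH (H : Subgroup (ZMod N)ˣ) (a : (ZMod N)ˣ) : hol :=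
  ⟨Ea H a * ((E₄ : ℍ → ℂ) ^ 2 / Δ),
    (qg_Ea (H := H) a).holo.mul ((mdiff_E4.pow 2).div mdiff_disc discriminant_ne_zero)⟩

theorem zH_apply (a : (ZMod N)ˣ) (τ : ℍ) : (zH H a : ℍ → ℂ) τ =
    Ea H a τ * ((E₄ τ) ^ 2 / Δ τ) := rfl

theorem pull_zH_apply (g : SL(2, ℤ)) (a : (ZMod N)ˣ) (τ : ℍ) :
    (pull g (zH H a) : ℍ → ℂ) τ = (Ea H a ∣[(4 : ℤ)] g) τ * ((E₄ τ) ^ 2 / Δ τ) := by
  rw [pull_apply, zH_apply]
  have h4 : (E₄ : ℍ → ℂ) ∣[(4 : ℤ)] g = E₄ :=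
    (isMF_E (k := 4) (by norm_num)).slash g (Subgroup.mem_top g)
  have h12 : (discriminant : ℍ → ℂ) ∣[(12 : ℤ)] g = discriminant :=
    isMF_disc.slash g (Subgroup.mem_top g)
  have e4 := congrFun h4 τ
  have e12 := congrFun h12 τ
  rw [SL_slash_apply] at e4 e12 ⊢
  have hd : denom (g : GL (Fin 2) ℝ) τ ≠ 0 := denom_ne_zero _ τ
  have hD : Δ τ ≠ 0 := discriminant_ne_zero τ
  have hD' : Δ (g • τ) ≠ 0 := discriminant_ne_zero _
  rw [← e4, ← e12]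
  have e : denom (g : GL (Fin 2) ℝ) τ ^ (-(12 : ℤ)) = denom (g : GL (Fin 2) ℝ) τ ^ (-(4 : ℤ)) *
    (denom (g : GL (Fin 2) ℝ) τ ^ (-(4 : ℤ))) ^ 2 := by
    rw [← zpow_natCast, ← zpow_mul, ← zpow_add₀ hd]
    norm_num
  have hd4 : denom (g : GL (Fin 2) ℝ) τ ^ (-(4 : ℤ)) ≠ 0 := zpow_ne_zero _ hd
  rw [e]
  field_simp

/-- the action of `Γ₀(N)` -/
theorem pull_zH_Gamma0 {γ : SL(2, ℤ)} (hγ : γ ∈ CongruenceSubgroup.Gamma0 N) {u : (ZMod N)ˣ}
    (hu : (u : ZMod N) = ((γ 1 1 : ℤ) : ZMod N)) (a : (ZMod N)ˣ) :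
    pull γ (zH H a) = zH H (a * u⁻¹) := by
  apply Subtype.ext
  funext τ
  rw [pull_zH_apply, Ea_slash hγ hu, zH_apply]

theorem zH_mul_mem {u : (ZMod N)ˣ} (hu : u ∈ H) (a : (ZMod N)ˣ) : zH H (a * u) = zH H a := by
  apply Subtype.ext
  funext τ
  rw [zH_apply, zH_apply, Ea_mul_mem hu]

theorem pull_zH_GH {γ : SL(2, ℤ)} (hγ : γ ∈ GH N H) (a : (ZMod N)ˣ) :
    pull γ (zH H a) = zH H a := by
  obtain ⟨h0, u, hu, hu'⟩ := mem_GH.1 hγ
  rw [pull_zH_Gamma0 h0 hu' a, zH_mul_mem (inv_mem hu)]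

/-- evaluation of the weight `-4` factor -/
theorem evPh_wZ (τ : ℍ) : (evPh N ⟨qExpand ℂ N (wZ ℂ), conv_wZ.qExpand N⟩ : ℍ → ℂ) τ =
    (E₄ τ) ^ 2 / Δ τ := by
  rw [evPh_apply]
  simp only
  rw [evz_qExpand, qpp_pow_self, evz_wZ]

/-- the translates of `z_a` have integral expansions -/
theorem hasExp_pull_zH (hN : (N : IsLocalRing.ResidueField A) ≠ 0) (hN3 : 3 ≤ N) (hH : -1 ∈ H)
    (a : (ZMod N)ˣ) (g : SL(2, ℤ)) : ∃ s, HasExp N A (pull g (zH H a)) s := by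
  obtain ⟨F, s, hF, hF'⟩ := Ea_slash_exp (A := A) hN hN3 hH a g
  refine ⟨s * qExpand A N (wZ A), F * ⟨qExpand ℂ N (wZ ℂ), conv_wZ.qExpand N⟩, ?_, ?_⟩
  · rw [map_mul, coeffMap_qExpand, coeffMap_wZ, ← hF]
    rfl
  · apply Subtype.ext
    funext τ
    rw [pull_zH_apply, ← hF', map_mul]
    change ((evPh N F : hol) : ℍ → ℂ) τ * (evPh N ⟨qExpand ℂ N (wZ ℂ), _⟩ : ℍ → ℂ) τ = _
    rw [evPh_wZ]
    rfl

theorem zH_mem (hN : (N : IsLocalRing.ResidueField A) ≠ 0) (hN3 : 3 ≤ N) (hH : -1 ∈ H)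
    (a : (ZMod N)ˣ) : zH H a ∈ BB N A :=
  ⟨fun _ hγ => pull_zH_GH (Gamma1_le_GH N H (by
      rw [CongruenceSubgroup.Gamma1_mem]
      have h := CongruenceSubgroup.Gamma_mem.1 hγ
      exact ⟨h.1, h.2.2.2, h.2.2.1⟩)) a,
    fun g => hasExp_pull_zH hN hN3 hH a g⟩

/-- the expansion at infinity of `z_a` -/
def zs (H : Subgroup (ZMod N)ˣ) (a : (ZMod N)ˣ) : LaurentSeries ℤ :=
  HahnSeries.ofPowerSeries ℤ ℤ (fa H a) * wZ ℤ

theorem hasExp_zH (hN2 : 2 ≤ N) (hH : -1 ∈ H) (a : (ZMod N)ˣ) :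
    HasExp 1 A (zH H a) (cst A (zs H a)) := by
  have hq := qg_Ea (H := H) a
  have h1 : Conv (ql (Ea H a)) := conv_qExpansion hq.per hq.holo hq.bdd
  refine ⟨⟨_, h1⟩ * ⟨wZ ℂ, conv_wZ⟩, ?_, ?_⟩
  · rw [coeffMap_cst, zs, cst, map_mul, coeffMap_wZ, coeffMap_ofPowerSeries, ← qe_Ea hN2 hH]
    rfl
  · apply Subtype.ext
    funext τ
    rw [zH_apply, map_mul]
    change (evPh 1 ⟨ql (Ea H a), h1⟩ : ℍ → ℂ) τ * (evPh 1 ⟨wZ ℂ, _⟩ : ℍ → ℂ) τ = _
    rw [evPh_apply, evPh_apply, qpp_one]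
    simp only
    rw [evz_wZ]
    congr 1
    exact evz_qExpansion hq.per hq.holo hq.bdd τ

end Fermat.Agent.Cov
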