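import Fermat.Agent.Cov.Full
import Fermat.Agent.Cov.ZB

/-!
# The field generated by the reductions and its embeddings
-/

set_option autoImplicit false
set_option linter.style.haveILetI false
set_option linter.unusedSectionVars false

noncomputable section

open UpperHalfPlane Complex ModularCurve Filter ModularForm
open scoped Topology Manifold MatrixGroups Pointwise

namespace Fermat.Agent.Cov

open Fermat.Agent.X0Genus Fermat.Agent.JFun Fermat.Agent.ModPoly Fermat.Agent.RedMod
open Fermat.Agent.GamH Fermat.Agent.KumG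

variable {N : ℕ} [NeZero N] {A : ValuationSubring ℂ}

variable (N A) in
/-- the field generated by the reductions -/
def Lr : Subfield (LaurentSeries (KA A)) := Subfield.closure (Set.range (red N A))

theorem red_mem_Lr (x : BB N A) : red N A x ∈ Lr N A := Subfield.subset_closure ⟨x, rfl⟩

theorem exists_div {z : LaurentSeries (KA A)} (hz : z ∈ Lr N A) :
    ∃ x y : BB N A, red N A y ≠ 0 ∧ z = red N A x / red N A y := by
  rw [Lr, Subfield.mem_closure_iff] at hz
  have hcl : Subring.closure (Set.range (red N A)) = (red N A).range := by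
    have := Subring.closure_eq (red N A).range
    rwa [RingHom.coe_range] at this
  rw [hcl] at hz
  obtain ⟨_, ⟨x, rfl⟩, _, ⟨y, rfl⟩, rfl⟩ := hz
  by_cases hy : red N A y = 0
  · refine ⟨0, 1, ?_, ?_⟩
    · rw [map_one]; exact one_ne_zero
    · rw [hy, div_zero, map_zero, zero_div]
  · exact ⟨x, y, hy, rfl⟩

theorem red_smul_ne (hN : (N : KA A) ≠ 0) (g : SL(2, ℤ)) {y : BB N A} (hy : red N A y ≠ 0) :
    red N A (g • y) ≠ 0 := fun h => hy ((red_smul_iff hN g y).1 h)

theorem red_smul_congr (hN : (N : KA A) ≠ 0) (g : SL(2, ℤ)) {x y : BB N A}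
    (h : red N A x = red N A y) : red N A (g • x) = red N A (g • y) := by
  rw [← sub_eq_zero, ← map_sub, ← smul_sub, red_smul_iff hN, map_sub, h, sub_self]

theorem emb_wd (hN : (N : KA A) ≠ 0) (g : SL(2, ℤ)) {x y x' y' : BB N A} (hy : red N A y ≠ 0)
    (hy' : red N A y' ≠ 0) (h : red N A x / red N A y = red N A x' / red N A y') :
    red N A (g • x) / red N A (g • y) = red N A (g • x') / red N A (g • y') := by
  rw [div_eq_div_iff hy hy', ← map_mul, ← map_mul] at h
  rw [div_eq_div_iff (red_smul_ne hN g hy) (red_smul_ne hN g hy')]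
  have h1 := red_smul_congr hN g h
  rwa [smul_mul', smul_mul', map_mul, map_mul] at h1

/-- numerators -/
def numB (z : Lr N A) : BB N A := (exists_div z.2).choose

/-- denominators -/
def denB (z : Lr N A) : BB N A := (exists_div z.2).choose_spec.choose

theorem denB_ne (z : Lr N A) : red N A (denB z) ≠ 0 := (exists_div z.2).choose_spec.choose_spec.1

theorem eq_num_den (z : Lr N A) : (z : LaurentSeries (KA A)) = red N A (numB z) / red N A (denB z) :=
  (exists_div z.2).choose_spec.choose_spec.2

theorem red_one_ne : red N A 1 ≠ 0 := by rw [map_one]; exact one_ne_zero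

/-- the embeddings of the field generated by the reductions -/
def emb (hN : (N : KA A) ≠ 0) (g : SL(2, ℤ)) : Lr N A →+* LaurentSeries (KA A) where
  toFun z := red N A (g • numB z) / red N A (g • denB z)
  map_one' := by
    rw [emb_wd hN g (denB_ne 1) red_one_ne (x' := 1) (by
      rw [← eq_num_den, map_one, div_one]; rfl)]
    rw [smul_one, map_one, div_one]
  map_zero' := by
    rw [emb_wd hN g (denB_ne 0) red_one_ne (x' := 0) (by
      rw [← eq_num_den, map_one, map_zero, zero_div]; rfl)]
    rw [smul_zero, map_zero, zero_div]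
  map_mul' z w := by
    rw [emb_wd hN g (denB_ne (z * w)) (y' := denB z * denB w)
      (by rw [map_mul]; exact mul_ne_zero (denB_ne z) (denB_ne w)) (x' := numB z * numB w) (by
      rw [← eq_num_den, map_mul, map_mul, ← div_mul_div_comm, ← eq_num_den, ← eq_num_den]; rfl)]
    rw [smul_mul', smul_mul', map_mul, map_mul, ← div_mul_div_comm]
  map_add' z w := by
    rw [emb_wd hN g (denB_ne (z + w)) (y' := denB z * denB w)
      (by rw [map_mul]; exact mul_ne_zero (denB_ne z) (denB_ne w))
      (x' := numB z * denB w + denB z * numB w) (by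
      rw [← eq_num_den, map_add, map_mul, map_mul, map_mul,
        ← div_add_div _ _ (denB_ne z) (denB_ne w), ← eq_num_den, ← eq_num_den]; rfl)]
    rw [smul_mul', smul_add, smul_mul', smul_mul', map_mul, map_add, map_mul, map_mul,
      div_add_div _ _ (red_smul_ne hN g (denB_ne z)) (red_smul_ne hN g (denB_ne w))]

theorem emb_div (hN : (N : KA A) ≠ 0) (g : SL(2, ℤ)) (z : Lr N A) {x y : BB N A}
    (hy : red N A y ≠ 0) (h : (z : LaurentSeries (KA A)) = red N A x / red N A y) :
    emb hN g z = red N A (g • x) / red N A (g • y) :=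
  emb_wd hN g (denB_ne z) hy (by rw [← eq_num_den, h])

theorem emb_red (hN : (N : KA A) ≠ 0) (g : SL(2, ℤ)) (x : BB N A) {z : Lr N A}
    (h : (z : LaurentSeries (KA A)) = red N A x) : emb hN g z = red N A (g • x) := by
  rw [emb_div hN g z red_one_ne (x := x) (by rw [map_one, div_one, h]), smul_one, map_one, div_one]

variable (N A) in
/-- the root of unity describing the action of `T` -/
def rootT : (KA A)ˣ :=
  Units.map (IsLocalRing.residue A : A →* KA A) (expB_T_smul N A).choose

theorem rootT_pow : rootT N A ^ N = 1 := by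
  have h := (expB_T_smul N A).choose_spec.1.pow_eq_one
  rw [rootT, ← map_pow]
  have h1 : (expB_T_smul N A).choose ^ N = 1 := by
    apply Units.ext
    apply Subtype.ext
    rw [Units.val_pow_eq_pow_val]
    exact h
  rw [h1, map_one]

theorem red_T_smul (x : BB N A) : red N A (ModularGroup.T • x) =
    twist (rootT N A) (red N A x) := by
  rw [red_def, (expB_T_smul N A).choose_spec.2, coeffMap_twist, ← red_def]
  rfl

theorem emb_T_mul (hN : (N : KA A) ≠ 0) (g : SL(2, ℤ)) (z : Lr N A) :
    emb hN (ModularGroup.T * g) z = twist (rootT N A) (emb hN g z) := by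
  rw [emb_div hN _ z (denB_ne z) (eq_num_den z), emb_div hN g z (denB_ne z) (eq_num_den z),
    map_div₀, mul_smul, mul_smul, red_T_smul, red_T_smul]

/-- the root of unity is primitive -/
theorem rootT_primitive (hN : (N : KA A) ≠ 0) : IsPrimitiveRoot (rootT N A) N := by
  obtain ⟨c, hc, -⟩ : ∃ c : Aˣ, IsPrimitiveRoot ((c : A) : ℂ) N ∧
    rootT N A = Units.map (IsLocalRing.residue A : A →* KA A) c :=
    ⟨(expB_T_smul N A).choose, (expB_T_smul N A).choose_spec.1, rfl⟩
  refine IsPrimitiveRoot.mk_of_lt _ (NeZero.pos N) rootT_pow ?_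
  intro l hl0 hlN h
  have hc' := (expB_T_smul N A).choose_spec.1
  set d := (expB_T_smul N A).choose with hd
  -- `d ^ l = 1` modulo the maximal ideal, but `1 - d ^ l` is a unit
  have h1 : ((d : A) : ℂ) ^ l ≠ 1 := hc'.pow_ne_one_of_pos_of_lt hl0.ne' hlN
  have h2 : (1 - ((d : A) : ℂ) ^ l)⁻¹ ∈ A := inv_one_sub_mem hN (by
    rw [← pow_mul, mul_comm, pow_mul, hc'.pow_eq_one, one_pow]) h1 (pow_mem (d : A).2 l)
  have h3 : IsUnit (1 - (d : A) ^ l) := by
    refine IsUnit.of_mul_eq_one ⟨_, h2⟩ ?_
    apply Subtype.ext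
    have h4 : (1 - ((d : A) : ℂ) ^ l) ≠ 0 := sub_ne_zero.2 (Ne.symm h1)
    exact mul_inv_cancel₀ h4
  have h5 : IsLocalRing.residue A (1 - (d : A) ^ l) = 0 := by
    rw [map_sub, map_one, map_pow, sub_eq_zero]
    have h6 := congrArg Units.val h
    rw [rootT, ← map_pow] at h6
    have h7 : ((Units.map (IsLocalRing.residue A : A →* KA A) (d ^ l) : (KA A)ˣ) : KA A) =
      (IsLocalRing.residue A (d : A)) ^ l := by
      rw [Units.coe_map, Units.val_pow_eq_pow_val]
      exact map_pow _ _ _
    rw [← h7, h6, Units.val_one]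
  exact (IsLocalRing.residue_ne_zero_iff_isUnit _).2 h3 h5

end Fermat.Agent.Cov
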