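import Fermat.Agent.Cov.Inf
import Fermat.Agent.KumG.Places

/-!
# The modular function field of level `Γ_H(N)` in characteristic zero
-/

set_option autoImplicit false
set_option linter.style.haveILetI false
set_option linter.unusedSectionVars false

noncomputable section

open UpperHalfPlane Complex ModularCurve Filter ModularForm Polynomial IntermediateField
open scoped Topology Manifold MatrixGroups Pointwise

namespace Fermat.Agent.Cov

open Fermat.Agent.X0Genus Fermat.Agent.JFun Fermat.Agent.ModPoly Fermat.Agent.RedMod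
open Fermat.Agent.GamH Fermat.Agent.KumG AlgebraicCurve

section

variable {N : ℕ} [NeZero N] {A : ValuationSubring ℂ} {Γ : Subgroup SL(2, ℤ)} [LvlG Γ]

theorem cst_mem_MFunG {x : BB N A} (hx : ∀ γ ∈ Γ, γ • x = x) {w : LaurentSeries ℤ}
    (hw : HasExp 1 A (x : hol) (cst A w)) : cst ℂ w ∈ MFunG Γ := by
  obtain ⟨s, hs, hs'⟩ := exists_mem_MFunG hx
  have h1 : s = cst A w := hs.unique hw
  rw [h1, coeffMap_cst] at hs'
  exact hs'

theorem cst_mem_FG {K : Type*} [Field K] [Algebra ℚ K] {w : LaurentSeries ℤ}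
    (hw : cst ℂ w ∈ MFunG Γ) : cst K w ∈ FG Γ K := by
  have h1 : cst ℚ w ∈ FQG Γ := by
    rw [mem_FQG, coeffMap_cst]
    exact hw
  have h2 := coeffEmb_mem_laurentBaseChange K h1
  have h3 : coeffEmb K (cst ℚ w) = cst K w := coeffMap_cst (algebraMap ℚ K) w
  rwa [h3] at h2

end

variable {K : Type*} [Field K] [Algebra ℚ K] {N : ℕ} [NeZero N] {H : Subgroup (ZMod N)ˣ}

theorem exists_hyp (hN3 : 3 ≤ N) (hH : -1 ∈ H) : ∃ A : ValuationSubring ℂ, Hyp N A H := by
  obtain ⟨A, hA⟩ := exists_valuationSubring_charP (p := 0) (Or.inr rfl)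
  haveI : CharZero (KA A) := CharP.charP_to_charZero _
  exact ⟨A, ⟨by exact_mod_cast NeZero.ne N, hN3, hH⟩⟩

theorem FH_le_FG (hN3 : 3 ≤ N) (hH : -1 ∈ H) :
    haveI := lvlG_GH N H hH
    FH K N H ≤ FG (GH N H) K := by
  haveI := lvlG_GH N H hH
  obtain ⟨A, h⟩ := exists_hyp (N := N) hN3 hH
  apply FH_le
  · rw [FF_eq_adjoin, IntermediateField.adjoin_le_iff]
    rintro _ ⟨m, hm, rfl⟩
    haveI : NeZero (m : ℕ) := ⟨m.ne_zero⟩
    have h1 : (Jc 1 m : LaurentSeries K) = cst K (qExpand ℤ m (jqModC ℤ)) := by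
      rw [cst, coeffMap_qExpand, coeffMap_jqModC, Jc_one_eq]
    rw [h1]
    apply cst_mem_FG
    refine cst_mem_MFunG (N := N) (A := A) (x := jdB N A m hm)
      (fun γ hγ => smul_jdB_of_mem hm (GH_le N H hγ)) ?_
    have h2 : cst A (qExpand ℤ m (jqModC ℤ)) = qExpand A m (jqModC A) := by
      rw [cst, coeffMap_qExpand, coeffMap_jqModC]
    rw [h2]
    exact hasExp_jdH_one m
  · exact cst_mem_FG (cst_mem_MFunG (x := zB h 1) (fun γ hγ => smul_zB_of_mem h hγ 1)
      (hasExp_zB h 1))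

variable [IsAlgClosed K] [CharZero K]

theorem FG_eq_FH (ι : K →+* ℂ) (hN3 : 3 ≤ N) (hH : -1 ∈ H) :
    haveI := lvlG_GH N H hH
    FG (GH N H) K = FH K N H := by
  haveI := lvlG_GH N H hH
  haveI := ratG_GH N H hH
  haveI : Nonempty (K →+* ℂ) := ⟨ι⟩
  refine le_antisymm ?_ (FH_le_FG hN3 hH)
  have hk : (N : K) ≠ 0 := by exact_mod_cast NeZero.ne N
  intro x hx
  have h1 : Module.finrank K⟮jj (GH N H) K⟯ (FG (GH N H) K) =
      Fintype.card (Fin (dedekindPsi N) × Fin H.index) := by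
    rw [finrank_eq (GH N H) K ι, Fintype.card_prod, Fintype.card_fin, Fintype.card_fin,
      ← index_GH, Subgroup.index, Nat.card_eq_fintype_card]
  obtain ⟨q, hq, P, hP⟩ := Red.exists_repr_of_finrank (jj (GH N H) K)
    (transcendental_jj (Γ := GH N H) (K := K))
    (fun p => (⟨cst K (yF hk H p), FH_le_FG hN3 hH (yF_mem hk K p)⟩ : FG (GH N H) K))
    (by
      intro P hP
      funext i
      refine LIZ_yF hk hN3 hH P ?_ i
      have h2 := congrArg (fun x : FG (GH N H) K => (x : LaurentSeries K)) hP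
      simp only [AddSubmonoidClass.coe_finsetSum, MulMemClass.coe_mul, ZeroMemClass.coe_zero] at h2
      rw [← h2]
      refine Finset.sum_congr rfl fun i _ => ?_
      congr 1
      exact (coe_aeval_of (FG (GH N H) K) j_mem _).symm) h1 ⟨x, hx⟩
  have h2 := congrArg (fun x : FG (GH N H) K => (x : LaurentSeries K)) hP
  simp only [AddSubmonoidClass.coe_finsetSum, MulMemClass.coe_mul] at h2
  have e1 : ∀ Q : K[X], ((aeval (jj (GH N H) K) Q : FG (GH N H) K) : LaurentSeries K) =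
      evT (jqModC K) Q := fun Q => coe_aeval_of (FG (GH N H) K) j_mem Q
  simp only [e1] at h2
  have h3 : evT (jqModC K) q * x ∈ FH K N H := by
    rw [h2]
    exact sum_mem fun i _ => mul_mem (evT_mem _ jq_mem_FH _) (yF_mem hk K i)
  have h4 : x = (evT (jqModC K) q)⁻¹ * (evT (jqModC K) q * x) := by
    rw [inv_mul_cancel_left₀ (evT_ne_zero hq)]
  rw [h4]
  exact mul_mem (inv_mem (evT_mem _ jq_mem_FH _)) h3

end Fermat.Agent.Cov
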