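import Fermat.Agent.Cov.Indep

/-!
# The function fields of level `Γ_H(N)` in arbitrary characteristic
-/

set_option autoImplicit false
set_option linter.style.haveILetI false
set_option linter.unusedSectionVars false

noncomputable section

open UpperHalfPlane Complex ModularCurve Filter ModularForm Polynomial IntermediateField
open scoped Topology Manifold MatrixGroups Pointwise

namespace Fermat.Agent.Cov

open Fermat.Agent.X0Genus Fermat.Agent.JFun Fermat.Agent.ModPoly Fermat.Agent.RedMod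
open Fermat.Agent.GamH Fermat.Agent.KumG

/-! ### valuation rings of `ℂ` with given residue characteristic -/

theorem exists_valuationSubring_charP {p : ℕ} (hp : p.Prime ∨ p = 0) :
    ∃ A : ValuationSubring ℂ, CharP (KA A) p := by
  rcases hp with hp | rfl
  · let R : Subring ℂ := (Int.castRingHom ℂ).range
    let π : R := ⟨(p : ℂ), ⟨(p : ℤ), by simp⟩⟩
    have hI : (Ideal.span {π} : Ideal R) ≠ ⊤ := by
      intro h
      rw [Ideal.span_singleton_eq_top] at h
      obtain ⟨⟨_, ⟨b, rfl⟩⟩, hb⟩ := h.exists_right_inv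
      have h1 := congrArg (Subtype.val) hb
      have h2 : ((p : ℤ) : ℂ) * ((b : ℤ) : ℂ) = 1 := by
        have : ((p : ℕ) : ℂ) * (Int.castRingHom ℂ b) = 1 := h1
        push_cast
        exact this
      have h3 : (p : ℤ) * b = 1 := by exact_mod_cast h2
      have h4 : (p : ℤ) ∣ 1 := ⟨b, h3.symm⟩
      have h5 : p ∣ 1 := by exact_mod_cast h4
      exact hp.one_lt.ne' (Nat.dvd_one.1 h5)
    obtain ⟨B, -, hB⟩ := Ideal.image_subset_nonunits_valuationSubring _ hI
    refine ⟨B, ?_⟩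
    have h1 : (p : ℂ) ∈ (B.nonunits : Set ℂ) := hB ⟨π, Ideal.subset_span rfl, rfl⟩
    have h2 : ((p : ℕ) : KA B) = 0 := by
      have h3 : IsLocalRing.residue B (p : B) = 0 := by
        rw [IsLocalRing.residue_eq_zero_iff]
        rw [← B.image_maximalIdeal] at h1
        obtain ⟨b, hb, hb'⟩ := h1
        have : b = (p : B) := Subtype.ext (by rw [hb']; exact (map_natCast (algebraMap B ℂ) p).symm)
        rwa [← this]
      rwa [map_natCast] at h3
    obtain ⟨q, hq⟩ := CharP.exists (KA B)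
    have h3 : q ∣ p := (CharP.cast_eq_zero_iff (KA B) q p).1 h2
    rcases (Nat.dvd_prime hp).1 h3 with h4 | h4
    · subst h4
      exact absurd rfl (CharP.char_ne_one (KA B) 1)
    · subst h4
      exact hq
  · refine ⟨⊤, ?_⟩
    haveI : CharZero (KA ⊤) := by
      refine charZero_of_inj_zero fun q h => ?_
      by_contra hq
      have h1 : IsLocalRing.residue (⊤ : ValuationSubring ℂ) (q : (⊤ : ValuationSubring ℂ)) = 0 := by
        rw [map_natCast]
        exact h
      rw [IsLocalRing.residue_eq_zero_iff] at h1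
      apply h1
      have hq0 : (q : ℂ) ≠ 0 := by exact_mod_cast hq
      refine IsUnit.of_mul_eq_one (⟨(q : ℂ)⁻¹, trivial⟩ : (⊤ : ValuationSubring ℂ)) ?_
      apply Subtype.ext
      change ((q : (⊤ : ValuationSubring ℂ)) : ℂ) * (q : ℂ)⁻¹ = 1
      have : ((q : (⊤ : ValuationSubring ℂ)) : ℂ) = (q : ℂ) :=
        map_natCast (algebraMap (⊤ : ValuationSubring ℂ) ℂ) q
      rw [this, mul_inv_cancel₀ hq0]
    exact CharP.ofCharZero _

theorem exists_valuationSubring_of (k : Type*) [Field k] : ∃ (p : ℕ) (A : ValuationSubring ℂ),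
    CharP k p ∧ CharP (KA A) p := by
  obtain ⟨p, hp⟩ := CharP.exists k
  obtain ⟨A, hA⟩ := exists_valuationSubring_charP (CharP.char_is_prime_or_zero k p)
  exact ⟨p, A, hp, hA⟩

theorem natCast_ne_zero_congr {k k' : Type*} [Field k] [Field k'] (p : ℕ) [CharP k p] [CharP k' p]
    {N : ℕ} : (N : k) ≠ 0 ↔ (N : k') ≠ 0 := by
  rw [ne_eq, ne_eq, CharP.cast_eq_zero_iff k p, CharP.cast_eq_zero_iff k' p]

/-! ### the fields -/

section FH

variable {k : Type*} [Field k] {N : ℕ} [NeZero N] {H : Subgroup (ZMod N)ˣ}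

variable (k N H) in
/-- the function field of level `Γ_H(N)` -/
def FH : IntermediateField k (LaurentSeries k) :=
  IntermediateField.adjoin k ((FF k N : Set (LaurentSeries k)) ∪ {cst k (zs H 1)})

theorem FF_le_FH : FF k N ≤ FH k N H := fun x hx =>
  IntermediateField.subset_adjoin k _ (Or.inl hx)

theorem z_mem_FH : cst k (zs H 1) ∈ FH k N H := IntermediateField.subset_adjoin k _ (Or.inr rfl)

theorem jq_mem_FF : jqModC k ∈ FF k N := (Jc_one_one (k := k)) ▸ Jc_one_mem (one_dvd N)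

theorem jq_mem_FH : jqModC k ∈ FH k N H := FF_le_FH jq_mem_FF

variable (k N H) in
/-- `j` -/
def jX : FH k N H := ⟨jqModC k, jq_mem_FH⟩

theorem coe_jX : ((jX k N H : FH k N H) : LaurentSeries k) = jqModC k := rfl

variable (k N H) in
/-- the generator -/
def zX : FH k N H := ⟨cst k (zs H 1), z_mem_FH⟩

theorem jF_eq : (⟨jqModC k, jq_mem_FF⟩ : FF k N) = jF' k N := Subtype.ext Jc_one_one.symm

theorem FH_le {F : IntermediateField k (LaurentSeries k)} (h1 : FF k N ≤ F)
    (h2 : cst k (zs H 1) ∈ F) : FH k N H ≤ F := by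
  rw [FH, IntermediateField.adjoin_le_iff]
  rintro x (hx | rfl)
  · exact h1 hx
  · exact h2

end FH

section Degree

variable {k : Type*} [Field k] {N : ℕ} [NeZero N] {H : Subgroup (ZMod N)ˣ}

theorem zq_injective {p : ℕ} [CharP k p] {A : ValuationSubring ℂ} [CharP (KA A) p] (h : Hyp N A H) :
    Function.Injective (fun c : (ZMod N)ˣ ⧸ H => cst k (zq H c)) := by
  intro c d hcd
  have h1 := (cst_eq_iff_congr (k := k) (k' := KA A) p).1 hcd
  apply red_zBq_injective h
  change red N A (zB h c.out) = red N A (zB h d.out)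
  rw [red_zB, red_zB]
  exact congrArg _ h1

theorem pZ_monic : (pZ H).Monic := monic_prod_of_monic _ _ fun c _ => monic_X_sub_C _

theorem natDegree_pZ : (pZ H).natDegree = H.index := by
  rw [pZ, natDegree_prod_of_monic _ _ (fun c _ => monic_X_sub_C _)]
  simp only [natDegree_X_sub_C, Finset.sum_const, Finset.card_univ, smul_eq_mul, mul_one]
  exact card_quot

theorem map_pZ : (pZ H).map (coeffMap (Int.castRingHom k)) =
    ∏ c : (ZMod N)ˣ ⧸ H, (X - C (cst k (zq H c))) := by
  rw [pZ, Polynomial.map_prod]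
  simp only [Polynomial.map_sub, map_X, map_C]

/-- the monomials remain independent in the same characteristic -/
theorem LIZ_monos (hk : (N : k) ≠ 0) : LIZ k (monos hk) := monos_indep hk

theorem SPZ_of_mem_FF (hk : (N : k) ≠ 0) {f : Fin (dedekindPsi N) → LaurentSeries ℤ}
    (hf : LIZ k f) (hm : ∀ i, f i ∈ Mono N) {w : LaurentSeries ℤ} (hw : cst k w ∈ FF k N) :
    SPZ k f w := by
  have h4 : FiniteDimensional k⟮(⟨jqModC k, jq_mem_FF⟩ : FF k N)⟯ (FF k N) := by
    rw [jF_eq]; exact finiteDimensional_E' hk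
  have h5 : Module.finrank k⟮(⟨jqModC k, jq_mem_FF⟩ : FF k N)⟯ (FF k N) =
      Fintype.card (Fin (dedekindPsi N)) := by
    rw [jF_eq, Fintype.card_fin]; exact finrank_E' hk
  exact SPZ_of_mem (FF k N) jq_mem_FF hf (fun i => cst_mem_FF (hm i)) h5 hw

variable [IsAlgClosed k]

/-- the family generating `FH` -/
def yF (hk : (N : k) ≠ 0) (H : Subgroup (ZMod N)ˣ) (p : Fin (dedekindPsi N) × Fin H.index) :
    LaurentSeries ℤ := monos hk p.1 * zs H 1 ^ (p.2 : ℕ)

theorem yF_mem (hk : (N : k) ≠ 0) (R : Type*) [Field R] (p : Fin (dedekindPsi N) × Fin H.index) :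
    cst R (yF hk H p) ∈ FH R N H := by
  rw [yF, cst, map_mul, map_pow]
  exact mul_mem (FF_le_FH (cst_mem_FF (monos_mem hk p.1))) (pow_mem z_mem_FH _)

theorem LIZ_yF (hk : (N : k) ≠ 0) (hN3 : 3 ≤ N) (hH : -1 ∈ H) : LIZ k (yF hk H) := by
  obtain ⟨p, A, hp, hpA⟩ := exists_valuationSubring_of k
  have h : Hyp N A H := ⟨(natCast_ne_zero_congr (k := k) p).1 hk, hN3, hH⟩
  have h1 : LIZ (KA A) (monos hk) := (LIZ_congr p).1 (LIZ_monos hk)
  exact (LIZ_congr (k := KA A) p).1 (LIZ_family h (monos_mem hk) h1)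

theorem coeff_pZ_mem_FF (hk : (N : k) ≠ 0) (hN3 : 3 ≤ N) (hH : -1 ∈ H) (n : ℕ) :
    cst k ((pZ H).coeff n) ∈ FF k N := by
  obtain ⟨p, A, hp, hpA⟩ := exists_valuationSubring_of k
  have hkA : (N : KA A) ≠ 0 := (natCast_ne_zero_congr (k := k) p).1 hk
  have h : Hyp N A H := ⟨hkA, hN3, hH⟩
  have h1 : LIZ (KA A) (monos hk) := (LIZ_congr p).1 (LIZ_monos hk)
  have h2 := coeff_pZ_mem h n
  have h3 : SPZ (KA A) (monos hk) ((pZ H).coeff n) :=
    SPZ_of_mem_FF hkA h1 (monos_mem hk) h2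
  exact ((SPZ_congr (k := KA A) (k' := k) p h1).1 h3).mem (FF k N) jq_mem_FF
    (fun i => cst_mem_FF (monos_mem hk i))

theorem FH_data (hk : (N : k) ≠ 0) (hN3 : 3 ≤ N) (hH : -1 ∈ H) :
    FiniteDimensional k⟮jX k N H⟯ (FH k N H) ∧ Algebra.IsSeparable k⟮jX k N H⟯ (FH k N H) ∧
      Module.finrank k⟮jX k N H⟯ (FH k N H) = dedekindPsi N * H.index := by
  obtain ⟨p, A, hp, hpA⟩ := exists_valuationSubring_of k
  have h : Hyp N A H := ⟨(natCast_ne_zero_congr (k := k) p).1 hk, hN3, hH⟩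
  have h1 : FiniteDimensional k⟮(⟨jqModC k, jq_mem_FF⟩ : FF k N)⟯ (FF k N) := by
    rw [jF_eq]; exact finiteDimensional_E hk
  have h2 : Algebra.IsSeparable k⟮(⟨jqModC k, jq_mem_FF⟩ : FF k N)⟯ (FF k N) := by
    rw [jF_eq]; exact isSeparable_E hk
  obtain ⟨h3, h4, n, hn, h5⟩ := ext_data (FF k N) (FH k N H) FF_le_FH (cst k (zs H 1)) z_mem_FH
    (fun F => FH_le) (jqModC k) jq_mem_FF h1 h2 ((pZ H).map (coeffMap (Int.castRingHom k)))
    (pZ_monic.map _) (by
      rw [map_pZ, Polynomial.separable_prod_X_sub_C_iff]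
      exact zq_injective (p := p) h) (by
      rw [map_pZ, eval_prod]
      apply Finset.prod_eq_zero (Finset.mem_univ (QuotientGroup.mk 1))
      rw [eval_sub, eval_X, eval_C, zq_mk, sub_self]) (by
      intro n
      rw [coeff_map]
      exact coeff_pZ_mem_FF hk hN3 hH n)
  have h6 : Module.finrank k⟮(⟨jqModC k, jq_mem_FF⟩ : FF k N)⟯ (FF k N) = dedekindPsi N := by
    rw [jF_eq]; exact finrank_E hk
  rw [h6] at h5
  have h7 : (pZ H).natDegree = ((pZ H).map (coeffMap (Int.castRingHom k))).natDegree :=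
    (pZ_monic.natDegree_map _).symm
  rw [← h7, natDegree_pZ] at hn
  refine ⟨h3, h4, le_antisymm ?_ ?_⟩
  · exact h5.le.trans (Nat.mul_le_mul_left _ hn)
  · haveI := h3
    have h8 := (linInd_of (FH k N H) jq_mem_FH (LIZ_yF hk hN3 hH)
      (fun i => yF_mem hk k i)).fintype_card_le_finrank
    rwa [Fintype.card_prod, Fintype.card_fin, Fintype.card_fin] at h8

end Degree

end Fermat.Agent.Cov
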