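import Fermat.Agent.Cov.Inf
import Fermat.Agent.RR.LevelH
import Fermat.Agent.RedMod.Genus

/-!
# Lower bound for the genus of the modular function field of level `Γ_H(M)`, `4 ∣ M` or `9 ∣ M`
-/

set_option autoImplicit false
set_option linter.style.haveILetI false
set_option linter.unusedSectionVars false

noncomputable section

open ModularCurve Polynomial IntermediateField

namespace Fermat.Agent.Cov

open Fermat.Agent.ModPoly Fermat.Agent.RR AlgebraicCurve

section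

variable {k : Type*} [Field k] [IsAlgClosed k]

/-- Hurwitz for subfields of the Laurent series -/
theorem hurwitz_incl {L : Type*} [Field L] [Algebra k L] {E F : IntermediateField k L}
    (hEF : E ≤ F) [FunField k E] [FunField k F] (j : E) (j' : F) (hj : (j : L) = j')
    (h1 : FiniteDimensional k⟮j'⟯ F) (h2 : Algebra.IsSeparable k⟮j'⟯ F) (hg : rrGenus k E = 0)
    (hjt : Transcendental k j) :
    ∃ n : ℕ, Module.finrank k⟮j'⟯ F = Module.finrank k⟮j⟯ E * n ∧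
    ((Set.ncard {v : Place k E | v.ord j < 0} : ℤ) - 2) * n
      - (Set.ncard {v : Place k F | v.ord j' < 0} : ℤ) ≤ 2 * (rrGenus k F : ℤ) - 2 := by
  letI : Algebra E F := (IntermediateField.inclusion hEF).toRingHom.toAlgebra
  haveI : IsScalarTower k E F := IsScalarTower.of_algebraMap_eq fun _ => rfl
  exact hurwitz_tower' (K := k) (E := E) (F := F) j j' (Subtype.ext hj) h1 h2 hg hjt


theorem genus_lower_H {L M : ℕ} [NeZero L] [NeZero M] {H : Subgroup (ZMod M)ˣ}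
    [FunField k (FF k L)] [FunField k (FH k M H)] (hLM : L ∣ M) (hM : (M : k) ≠ 0)
    (hM3 : 3 ≤ M) (hH : -1 ∈ H) (h0 : rrGenus k (FF k L) = 0) :
    ∃ n : ℕ, dedekindPsi M * H.index = dedekindPsi L * n ∧
      ((Set.ncard {v : Place k (FF k L) | v.ord (jF' k L) < 0} : ℤ) - 2) * n
      - (Set.ncard {v : Place k (FH k M H) | v.ord (jX k M H) < 0} : ℤ)
        ≤ 2 * (rrGenus k (FH k M H) : ℤ) - 2 := by
  have hL : (L : k) ≠ 0 := natCast_ne_zero_of_dvd hLM hM
  obtain ⟨hfd, hsep, hrk⟩ := FH_data (k := k) (H := H) hM hM3 hH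
  obtain ⟨n, hn, h⟩ := hurwitz_incl (k := k) (E := FF k L) (F := FH k M H)
    (le_trans (full_degeneracyC_le k hLM) FF_le_FH) (jF' k L) (jX k M H) Jc_one_one
    hfd hsep h0 (transcendental_jF L)
  refine ⟨n, ?_, h⟩
  rw [← hrk, ← finrank_E (k := k) (N := L) hL]
  exact hn

/-- the lower bound for the genus -/
theorem lower_of {M : ℕ} [NeZero M] {H : Subgroup (ZMod M)ˣ} {c : ℕ}
    [FunField k (FH k M H)] (hM : (M : k) ≠ 0)
    (hM3 : 3 ≤ M) (hH : -1 ∈ H)
    (hcM : Set.ncard {v : Place k (FH k M H) | v.ord (jX k M H) < 0} ≤ c)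
    (h : (4 ∣ M ∧ (∃ _ : FunField k (FF k 4), rrGenus k (FF k 4) = 0) ∧
        cuspCount 4 ≤ Set.ncard {v : Place k (FF k 4) | v.ord (jF' k 4) < 0}) ∨
      (9 ∣ M ∧ (∃ _ : FunField k (FF k 9), rrGenus k (FF k 9) = 0) ∧
        cuspCount 9 ≤ Set.ncard {v : Place k (FF k 9) | v.ord (jF' k 9) < 0})) :
    1 + ((dedekindPsi M * H.index : ℕ) : ℚ) / 12 - (c : ℚ) / 2 ≤ rrGenus k (FH k M H) := by
  have hcM' : (Set.ncard {v : Place k (FH k M H) | v.ord (jX k M H) < 0} : ℚ) ≤ c := by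
    exact_mod_cast hcM
  rcases h with ⟨h4, ⟨h0', h0⟩, hc⟩ | ⟨h9, ⟨h0', h0⟩, hc⟩
  · haveI : NeZero 4 := ⟨by norm_num⟩
    obtain ⟨n, hn, h1⟩ := genus_lower_H (H := H) h4 hM hM3 hH h0
    have h1' : (((Set.ncard {v : Place k (FF k 4) | v.ord (jF' k 4) < 0} : ℤ) : ℚ) - 2) * n
      - ((Set.ncard {v : Place k (FH k M H) | v.ord (jX k M H) < 0} : ℤ) : ℚ)
        ≤ 2 * ((rrGenus k (FH k M H) : ℤ) : ℚ) - 2 := by exact_mod_cast h1
    rw [cuspCount_four] at hc
    have hc' : (3 : ℚ) ≤ Set.ncard {v : Place k (FF k 4) | v.ord (jF' k 4) < 0} := by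
      exact_mod_cast hc
    rw [dedekindPsi_four] at hn
    rw [hn]
    push_cast at h1' ⊢
    have hn0 : (0 : ℚ) ≤ n := Nat.cast_nonneg _
    nlinarith
  · haveI : NeZero 9 := ⟨by norm_num⟩
    obtain ⟨n, hn, h1⟩ := genus_lower_H (H := H) h9 hM hM3 hH h0
    have h1' : (((Set.ncard {v : Place k (FF k 9) | v.ord (jF' k 9) < 0} : ℤ) : ℚ) - 2) * n
      - ((Set.ncard {v : Place k (FH k M H) | v.ord (jX k M H) < 0} : ℤ) : ℚ)
        ≤ 2 * ((rrGenus k (FH k M H) : ℤ) : ℚ) - 2 := by exact_mod_cast h1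
    rw [cuspCount_nine] at hc
    have hc' : (4 : ℚ) ≤ Set.ncard {v : Place k (FF k 9) | v.ord (jF' k 9) < 0} := by
      exact_mod_cast hc
    rw [dedekindPsi_nine] at hn
    rw [hn]
    push_cast at h1' ⊢
    have hn0 : (0 : ℚ) ≤ n := Nat.cast_nonneg _
    nlinarith

end

end Fermat.Agent.Cov
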