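import Fermat.Agent.Cov.Gauss
import Fermat.Agent.Cov.Lower
import Fermat.Agent.Cov.DimU
import Fermat.Agent.RedMod.Rigidity

/-!
# Good reduction of the modular function fields of level `Γ_H(N)`: equality of genera
-/

set_option autoImplicit false
set_option linter.style.haveILetI false
set_option linter.unusedSectionVars false

noncomputable section

open ModularCurve Polynomial IntermediateField

namespace Fermat.Agent.Cov

open Fermat.Agent.ModPoly Fermat.Agent.Red Fermat.Agent.RedMod Fermat.Agent.RR AlgebraicCurve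

section gen

variable {A K k : Type*} [CommRing A] [IsDomain A] [ValuationRing A]
  [Field K] [IsAlgClosed K] [Algebra A K] [IsFractionRing A K] [Field k] [IsAlgClosed k]
  [Algebra A k]
  {FK : IntermediateField K (LaurentSeries K)} {Fk : IntermediateField k (LaurentSeries k)}
  {ι : Type*} [Fintype ι] {y : ι → LaurentSeries ℤ}

/-- separability and degrees on both fibres -/
structure SP (G : GP A FK Fk y) : Prop where
  sep : Algebra.IsSeparable K⟮(⟨jqModC K, G.jK⟩ : FK)⟯ FK
  fink : FiniteDimensional k⟮(⟨jqModC k, G.jk⟩ : Fk)⟯ Fk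
  sepk : Algebra.IsSeparable k⟮(⟨jqModC k, G.jk⟩ : Fk)⟯ Fk
  rkk : Module.finrank k⟮(⟨jqModC k, G.jk⟩ : Fk)⟯ Fk = Fintype.card ι

variable {G : GP A FK Fk y}

theorem fibreHypG [Algebra A FK] [IsScalarTower A K FK] [Algebra A Fk] [IsScalarTower A k Fk]
    (S : SP G) [FunField k Fk] [FunField K FK] :
    FibreHyp (gaussG G) (poleDiv K (⟨jqModC K, G.jK⟩ : FK)) (zeroDiv K (⟨jqModC K, G.jK⟩ : FK))
      (poleDiv k (⟨jqModC k, G.jk⟩ : Fk)) (zeroDiv k (⟨jqModC k, G.jk⟩ : Fk)) (Fintype.card ι)
      (rrGenus K FK) (rrGenus k Fk) where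
  hk := G.hk
  hspan := gaussG_span G
  tr := transcendental_of FK G.jK
  trk := by rw [gaussG_πt]; exact transcendental_of Fk G.jk
  fin := G.fin
  sep := S.sep
  fink := by rw [gaussG_πt]; exact S.fink
  sepk := by rw [gaussG_πt]; exact S.sepk
  pz := by
    haveI := G.fin
    have h := poleZero (K := K) (t := (⟨jqModC K, G.jK⟩ : FK)) (transcendental_of FK G.jK)
      Module.finrank_pos
    rw [G.rk] at h
    exact h
  pzk := by
    haveI := S.fink
    have h := poleZero (K := k) (t := (⟨jqModC k, G.jk⟩ : Fk)) (transcendental_of Fk G.jk)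
      Module.finrank_pos
    rw [S.rkk] at h
    rw [gaussG_πt]
    exact h
  rr := riemannAt K FK
  rrk := riemannAt k Fk

/-- the genus does not increase under reduction -/
theorem SP.rrGenus_le (S : SP G) [FunField k Fk] [FunField K FK] :
    rrGenus k Fk ≤ rrGenus K FK := by
  letI : Algebra A FK := ((algebraMap K FK).comp (algebraMap A K)).toAlgebra
  haveI : IsScalarTower A K FK := IsScalarTower.of_algebraMap_eq fun a => rfl
  letI : Algebra A Fk := ((algebraMap k Fk).comp (algebraMap A k)).toAlgebra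
  haveI : IsScalarTower A k Fk := IsScalarTower.of_algebraMap_eq fun a => rfl
  have h := (fibreHypG S).genus_le
  exact_mod_cast h

/-- **Rigidity** when the genera agree. -/
theorem SP.rigidity (S : SP G) [FunField k Fk] [FunField K FK]
    (hg : rrGenus k Fk = rrGenus K FK) (hA : ∃ t : A, t ≠ 0 ∧ ¬ IsUnit t)
    (hrank : ∀ a c : A, algebraMap A k a = 0 → c ≠ 0 → ∃ n : ℕ, c ∣ a ^ n)
    {m : ℕ} (hm : (m : k) ≠ 0) {f : FK} (hf : (f : LaurentSeries K) ∈ WL A K k)
    {γ : Fk} (hγ : γ ≠ 0) (hfγ : πL A K k ⟨f, hf⟩ = (γ : LaurentSeries k) ^ m)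
    (hD : ∀ v : Place K FK, (m : ℤ) ∣ v.ord f) : ∃ x : FK, x ^ m = f := by
  letI : Algebra A FK := ((algebraMap K FK).comp (algebraMap A K)).toAlgebra
  haveI : IsScalarTower A K FK := IsScalarTower.of_algebraMap_eq fun a => rfl
  letI : Algebra A Fk := ((algebraMap k Fk).comp (algebraMap A k)).toAlgebra
  haveI : IsScalarTower A k Fk := IsScalarTower.of_algebraMap_eq fun a => rfl
  have H := fibreHypG S
  rw [hg] at H
  have hm0 : m ≠ 0 := by rintro rfl; simp at hm
  let D : Divisor K FK := Finsupp.mapRange (fun n : ℤ => n / m) (by simp) (divisor K f)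
  have hDv : ∀ v, (m : ℤ) * D v = v.ord f := by
    intro v
    have h1 : D v = v.ord f / m := by
      rw [Finsupp.mapRange_apply, divisor_apply]
    rw [h1]
    exact Int.mul_ediv_cancel' (hD v)
  have hD0 : Divisor.degree D = 0 := by
    have h1 : m • D = divisor K f := by
      ext v
      rw [Finsupp.smul_apply, nsmul_eq_mul, hDv, divisor_apply]
    have h2 := degree_divisor (K := K) f
    rw [← h1, map_nsmul, nsmul_eq_mul] at h2
    have h3 : (m : ℤ) ≠ 0 := by exact_mod_cast hm0
    exact (mul_eq_zero.1 h2).resolve_left h3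
  refine H.rigidity hA hrank hm (f := f) hf (γ := γ) hγ ?_ D hDv hD0
  apply Subtype.ext
  exact hfγ

end gen

/-- the residue field of a valuation ring of a subfield of `ℂ` embeds in the residue field of
a valuation ring of `ℂ` -/
theorem exists_theta {A K k : Type*} [CommRing A] [IsDomain A] [ValuationRing A]
    [Field K] [Algebra A K] [Field k] [Algebra A k]
    (ι : K →+* ℂ) (hk : Function.Surjective (algebraMap A k)) :
    ∃ B : ValuationSubring ℂ, Nonempty (k →+* KA B) := by
  obtain ⟨B, h, hloc⟩ := IsLocalRing.exists_factor_valuationRing (ι.comp (algebraMap A K))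
  let g : A →+* B := (ι.comp (algebraMap A K)).codRestrict B.toSubring h
  haveI : IsLocalHom g := hloc
  have hker : RingHom.ker (algebraMap A k) ≤ RingHom.ker ((IsLocalRing.residue B).comp g) := by
    intro a ha
    rw [RingHom.mem_ker] at ha ⊢
    rw [RingHom.comp_apply, IsLocalRing.residue_eq_zero_iff, IsLocalRing.mem_maximalIdeal,
      mem_nonunits_iff]
    intro hu
    have hu' : IsUnit a := isUnit_of_map_unit g a hu
    exact (hu'.map (algebraMap A k)).ne_zero ha
  exact ⟨B, ⟨RingHom.liftOfSurjective (algebraMap A k) hk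
    ⟨(IsLocalRing.residue B).comp g, hker⟩⟩⟩

section FH

variable {A K k : Type*} [CommRing A] [IsDomain A] [ValuationRing A]
  [Field K] [IsAlgClosed K] [Algebra A K] [IsFractionRing A K] [Field k] [IsAlgClosed k]
  [Algebra A k] {N : ℕ} [NeZero N] {H : Subgroup (ZMod N)ˣ}

variable (hk : Function.Surjective (algebraMap A k)) (hN : (N : k) ≠ 0) (hN3 : 3 ≤ N)
  (hH : -1 ∈ H)

include hk hN hN3 hH

theorem gpH : GP A (FH K N H) (FH k N H) (yF hN H) where
  hk := hk
  jK := jq_mem_FH
  jk := jq_mem_FH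
  yK := yF_mem hN K
  yk := yF_mem hN k
  indep := LIZ_yF hN hN3 hH
  fin := (FH_data (natCast_K (A := A) hN) hN3 hH).1
  rk := by
    rw [Fintype.card_prod, Fintype.card_fin, Fintype.card_fin]
    exact (FH_data (natCast_K (A := A) hN) hN3 hH).2.2

theorem spH : SP (gpH (K := K) hk hN hN3 hH) where
  sep := (FH_data (natCast_K (A := A) hN) hN3 hH).2.1
  fink := (FH_data hN hN3 hH).1
  sepk := (FH_data hN hN3 hH).2.1
  rkk := by
    rw [Fintype.card_prod, Fintype.card_fin, Fintype.card_fin]
    exact (FH_data hN hN3 hH).2.2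

end FH

theorem funField_FH {k : Type*} [Field k] [IsAlgClosed k] {N : ℕ} [NeZero N]
    {H : Subgroup (ZMod N)ˣ} (hN : (N : k) ≠ 0) (hN3 : 3 ≤ N) (hH : -1 ∈ H) :
    FunField k (FH k N H) := by
  haveI := (FH_data (k := k) hN hN3 hH).1
  exact FunField.of (t := jX k N H) transcendental_jX

section eq

variable {A K k : Type*} [CommRing A] [IsDomain A] [ValuationRing A]
  [Field K] [IsAlgClosed K] [Algebra A K] [IsFractionRing A K] [Field k] [IsAlgClosed k]
  [Algebra A k] {N : ℕ} [NeZero N] {H : Subgroup (ZMod N)ˣ}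

include A in
/-- **Equality of genera** at level `4 ∣ N` or `9 ∣ N`. -/
theorem rrGenus_eq_H [CharZero K] [Algebra ℚ K] (ι : K →+* ℂ)
    (hk : Function.Surjective (algebraMap A k)) (hN : (N : k) ≠ 0) (hN3 : 3 ≤ N) (hH : -1 ∈ H)
    (h : 4 ∣ N ∨ 9 ∣ N) [FunField k (FH k N H)] [FunField K (FH K N H)] :
    rrGenus k (FH k N H) = rrGenus K (FH K N H) := by
  apply le_antisymm (spH (K := K) hk hN hN3 hH).rrGenus_le
  have hup : (rrGenus K (FH K N H) : ℚ) ≤ 1 + ((dedekindPsi N * H.index : ℕ) : ℚ) / 12 -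
      (cInf (KumG.GH N H) : ℚ) / 2 := by
    have h1 := rrGenus_FG_le (K := K) ι (N := N) (H := H) (by omega) hH
    haveI := KumG.lvlG_GH N H hH
    haveI := GamH.ratG_GH N H hH
    haveI : Nonempty (K →+* ℂ) := ⟨ι⟩
    rw [rrGenus_congr (FG_eq_FH (H := H) ι hN3 hH)] at h1
    exact h1
  obtain ⟨B, ⟨θ⟩⟩ := exists_theta ι hk
  have hB : Hyp N B H := ⟨by rw [← map_natCast θ]; exact (_root_.map_ne_zero θ).2 hN, hN3, hH⟩
  have hcard := (places_inf hB θ).2
  have h1 : ∀ (L : ℕ) [NeZero L], L ∣ N → genusFormula L = 0 →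
      (∃ _ : FunField k (FF k L), rrGenus k (FF k L) = 0) ∧
        cuspCount L ≤ Set.ncard {v : Place k (FF k L) | v.ord (jF' k L) < 0} := by
    intro L _ hL hg
    have hLk : (L : k) ≠ 0 := RR.natCast_ne_zero_of_dvd hL hN
    haveI := funField_FF (k := k) (M := L) hLk
    haveI := funField_FF (k := K) (M := L) (natCast_K (A := A) hLk)
    refine ⟨⟨inferInstance, ?_⟩, (Cusp.card_cusps hLk).ge⟩
    have h2 := RedMod.rrGenus_le (A := A) (K := K) (k := k) (N := L) hk hLk
    have h3 := rrGenus_K (K := K) (N := L) ι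
    rw [hg] at h3
    have h4 : rrGenus K (FF K L) = 0 := by exact_mod_cast h3
    omega
  have h2 := lower_of (H := H) hN hN3 hH hcard.le (by
    rcases h with h | h
    · haveI : NeZero 4 := ⟨by norm_num⟩
      obtain ⟨h3, h4⟩ := h1 4 h genusFormula_four
      exact Or.inl ⟨h, h3, h4⟩
    · haveI : NeZero 9 := ⟨by norm_num⟩
      obtain ⟨h3, h4⟩ := h1 9 h genusFormula_nine
      exact Or.inr ⟨h, h3, h4⟩)
  exact_mod_cast hup.trans h2

end eq

end Fermat.Agent.Cov
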