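import Fermat.Agent.Cov.Decomp
import Mathlib.LinearAlgebra.Matrix.FixedDetMatrices

/-!
# The decomposition group of the Gauss valuation is everything
-/

set_option autoImplicit false
set_option linter.style.haveILetI false
set_option linter.unusedSectionVars false

noncomputable section

open UpperHalfPlane Complex ModularCurve Filter ModularForm
open scoped Topology Manifold MatrixGroups Pointwise

namespace Fermat.Agent.Cov

open Fermat.Agent.X0Genus Fermat.Agent.JFun Fermat.Agent.ModPoly Fermat.Agent.RedMod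

variable {N : ℕ} [NeZero N] {A : ValuationSubring ℂ}

variable (N A) in
/-- the decomposition group -/
def Dg : Subgroup SL(2, ℤ) where
  carrier := {g | ∀ x : BB N A, red N A (g • x) = 0 ↔ red N A x = 0}
  mul_mem' := by
    intro g h hg hh x
    rw [mul_smul, hg, hh]
  one_mem' := fun x => by rw [one_smul]
  inv_mem' := by
    intro g hg x
    have := hg (g⁻¹ • x)
    rw [smul_inv_smul] at this
    exact this.symm

theorem mem_Dg {g : SL(2, ℤ)} : g ∈ Dg N A ↔ ∀ x : BB N A, red N A (g • x) = 0 ↔ red N A x = 0 :=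
  Iff.rfl

theorem Gamma_le_Dg : CongruenceSubgroup.Gamma N ≤ Dg N A := fun g hg x => by rw [smul_of_Gamma hg]

theorem T_mem_Dg : ModularGroup.T ∈ Dg N A := by
  intro x
  obtain ⟨c, -, h⟩ := expB_T_smul N A
  rw [red_def, h, coeffMap_twist, ← red_def, map_eq_zero]

/-- the group of automorphisms induced by `Γ₀(N)` is finite -/
theorem finite_range : Finite ((CongruenceSubgroup.Gamma0 N).map
    (MulSemiringAction.toRingAut SL(2, ℤ) (BB N A))) := by
  let f : SL(2, ℤ) ⧸ CongruenceSubgroup.Gamma N → RingAut (BB N A) :=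
    Quotient.lift (fun g => MulSemiringAction.toRingAut SL(2, ℤ) (BB N A) g) (by
      intro a b hab
      have hab' := QuotientGroup.leftRel_apply.1 hab
      apply RingEquiv.ext
      intro x
      change a • x = b • x
      have : b = a * (a⁻¹ * b) := by group
      rw [this, mul_smul, smul_of_Gamma hab'])
  haveI : Finite (Set.range f) := inferInstance
  have hsub : (((CongruenceSubgroup.Gamma0 N).map
    (MulSemiringAction.toRingAut SL(2, ℤ) (BB N A)) : Subgroup (RingAut (BB N A))) :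
      Set (RingAut (BB N A))) ⊆ Set.range f := by
    rintro σ ⟨g, -, rfl⟩
    exact ⟨QuotientGroup.mk g, rfl⟩
  exact Set.Finite.subset (Set.toFinite (Set.range f)) hsub

theorem exists_Gamma0_mul (hN : (N : KA A) ≠ 0) (g : SL(2, ℤ)) :
    ∃ γ ∈ CongruenceSubgroup.Gamma0 N, g * γ ∈ Dg N A := by
  classical
  let G : Subgroup (RingAut (BB N A)) :=
    (CongruenceSubgroup.Gamma0 N).map (MulSemiringAction.toRingAut SL(2, ℤ) (BB N A))
  haveI : Finite G := finite_range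
  let B0 : Subring (BB N A) := FixedPoints.subring (BB N A) G
  haveI : Algebra.IsInvariant B0 (BB N A) G := ⟨fun b hb => ⟨⟨b, hb⟩, rfl⟩⟩
  let P : Ideal (BB N A) := RingHom.ker (red N A)
  let Q : Ideal (BB N A) := RingHom.ker ((red N A).comp (MulSemiringAction.toRingHom SL(2, ℤ)
    (BB N A) g))
  haveI : P.IsPrime := RingHom.ker_isPrime _
  haveI : Q.IsPrime := RingHom.ker_isPrime _
  have hPQ : P.under B0 = Q.under B0 := by
    ext b
    rw [Ideal.mem_comap, Ideal.mem_comap, RingHom.mem_ker, RingHom.mem_ker]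
    have hb : ∀ γ ∈ CongruenceSubgroup.Gamma0 N, γ • (b : BB N A) = b := by
      intro γ hγ
      exact b.2 ⟨MulSemiringAction.toRingAut SL(2, ℤ) (BB N A) γ, γ, hγ, rfl⟩
    exact (red_smul_eq_zero_iff hN hb g).symm
  haveI : SMulCommClass G B0 (BB N A) := ⟨fun σ b x => by
    have h1 : ∀ y : BB N A, b • y = (b : BB N A) * y := fun y => rfl
    rw [h1, h1, smul_mul', b.2 σ]⟩
  obtain ⟨⟨σ, γ, hγ, hσ⟩, hQ⟩ := Algebra.IsInvariant.exists_smul_of_under_eq B0 (BB N A) G P Q hPQ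
  refine ⟨γ, hγ, ?_⟩
  intro x
  have h1 : γ • x ∈ Q ↔ x ∈ P := by
    have h2 : (⟨σ, γ, hγ, hσ⟩ : G) • x = γ • x := by
      rw [Subgroup.smul_def]
      simp only
      rw [← hσ]
      rfl
    rw [hQ, ← h2, Ideal.smul_mem_pointwise_smul_iff]
  rw [RingHom.mem_ker, RingHom.mem_ker] at h1
  rw [mul_smul]
  exact h1

/-- conjugates of `T` by elements of `Γ₀(N)` -/
theorem conj_T_mem (γ : SL(2, ℤ)) (hγ : γ ∈ CongruenceSubgroup.Gamma0 N) :
    ∃ m : ℤ, (ModularGroup.T)⁻¹ * (γ * ModularGroup.T ^ m * γ⁻¹) ∈ CongruenceSubgroup.Gamma N := by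
  have hc : ((γ 1 0 : ℤ) : ZMod N) = 0 := CongruenceSubgroup.Gamma0_mem.1 hγ
  have hdet := congrArg (Int.cast : ℤ → ZMod N) γ.det_coe
  rw [Matrix.det_fin_two] at hdet
  push_cast at hdet
  rw [hc, mul_zero, sub_zero] at hdet
  refine ⟨(γ 1 1) ^ 2, ?_⟩
  rw [CongruenceSubgroup.Gamma_mem]
  have hTm : ∀ m : ℤ, ((ModularGroup.T ^ m : SL(2, ℤ)) : Matrix (Fin 2) (Fin 2) ℤ) =
      !![1, m; 0, 1] := ModularGroup.coe_T_zpow
  have hTi : ((ModularGroup.T⁻¹ : SL(2, ℤ)) : Matrix (Fin 2) (Fin 2) ℤ) = !![1, -1; 0, 1] := by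
    have := hTm (-1)
    rwa [zpow_neg, zpow_one] at this
  have hγi : ((γ⁻¹ : SL(2, ℤ)) : Matrix (Fin 2) (Fin 2) ℤ) = !![γ 1 1, -γ 0 1; -γ 1 0, γ 0 0] := by
    have := Matrix.SpecialLinearGroup.coe_inv γ
    rw [Matrix.adjugate_fin_two] at this
    exact this
  have hγ0 : (γ : Matrix (Fin 2) (Fin 2) ℤ) = !![γ 0 0, γ 0 1; γ 1 0, γ 1 1] :=
    Matrix.eta_fin_two _
  have hM : ((ModularGroup.T⁻¹ * (γ * ModularGroup.T ^ ((γ 1 1) ^ 2) * γ⁻¹) : SL(2, ℤ)) :
      Matrix (Fin 2) (Fin 2) ℤ) = !![1, -1; 0, 1] * (!![γ 0 0, γ 0 1; γ 1 0, γ 1 1] *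
        !![1, (γ 1 1) ^ 2; 0, 1] * !![γ 1 1, -γ 0 1; -γ 1 0, γ 0 0]) := by
    rw [Matrix.SpecialLinearGroup.coe_mul, Matrix.SpecialLinearGroup.coe_mul,
      Matrix.SpecialLinearGroup.coe_mul, hTm, hTi, hγi]
    conv_lhs => rw [hγ0]
    rfl
  have e : ∀ i j, ((ModularGroup.T⁻¹ * (γ * ModularGroup.T ^ ((γ 1 1) ^ 2) * γ⁻¹) : SL(2, ℤ)) i j) =
      (!![1, -1; 0, 1] * (!![γ 0 0, γ 0 1; γ 1 0, γ 1 1] *
        !![1, (γ 1 1) ^ 2; 0, 1] * !![γ 1 1, -γ 0 1; -γ 1 0, γ 0 0]) :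
          Matrix (Fin 2) (Fin 2) ℤ) i j := by
    intro i j
    rw [← hM]
  simp only [e]
  set a := γ 0 0
  set b := γ 0 1
  set c := γ 1 0
  set d := γ 1 1
  have hc' : (c : ZMod N) = 0 := hc
  have hdet' : (a : ZMod N) * d = 1 := hdet
  refine ⟨?_, ?_, ?_, ?_⟩
  · simp [Matrix.mul_apply, Fin.sum_univ_two, hc']
    linear_combination hdet'
  · simp [Matrix.mul_apply, Fin.sum_univ_two, hc']
    linear_combination (a * d : ZMod N) * hdet'
  · simp [Matrix.mul_apply, Fin.sum_univ_two, hc']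
  · simp [Matrix.mul_apply, Fin.sum_univ_two, hc']
    linear_combination hdet'

/-- **The decomposition group is everything.** -/
theorem Dg_eq_top (hN : (N : KA A) ≠ 0) : Dg N A = ⊤ := by
  obtain ⟨γ, hγ, h⟩ := exists_Gamma0_mul hN ModularGroup.S
  obtain ⟨m, hm⟩ := conj_T_mem γ hγ
  have h1 : ModularGroup.S * ModularGroup.T * ModularGroup.S⁻¹ ∈ Dg N A := by
    have h2 : ModularGroup.S * γ * ModularGroup.T ^ m * (ModularGroup.S * γ)⁻¹ ∈ Dg N A :=
      mul_mem (mul_mem h (zpow_mem T_mem_Dg m)) (inv_mem h)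
    have h3 : ModularGroup.S * (ModularGroup.T⁻¹ * (γ * ModularGroup.T ^ m * γ⁻¹))⁻¹ *
        ModularGroup.S⁻¹ ∈ CongruenceSubgroup.Gamma N :=
      (CongruenceSubgroup.Gamma_normal N).conj_mem _ (inv_mem hm) _
    have h4 : ModularGroup.S * ModularGroup.T * ModularGroup.S⁻¹ =
        (ModularGroup.S * γ * ModularGroup.T ^ m * (ModularGroup.S * γ)⁻¹) *
        (ModularGroup.S * (ModularGroup.T⁻¹ * (γ * ModularGroup.T ^ m * γ⁻¹))⁻¹ *
        ModularGroup.S⁻¹) := by group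
    rw [h4]
    exact mul_mem h2 (Gamma_le_Dg h3)
  have h2 : ModularGroup.S ∈ Dg N A := by
    have h3 : ModularGroup.S⁻¹ = ModularGroup.T *
        (ModularGroup.S * ModularGroup.T * ModularGroup.S⁻¹) * ModularGroup.T := by
      decide +kernel
    have h4 : ModularGroup.S⁻¹ ∈ Dg N A := by
      rw [h3]
      exact mul_mem (mul_mem T_mem_Dg h1) T_mem_Dg
    simpa using inv_mem h4
  rw [eq_top_iff, ← SpecialLinearGroup.SL2Z_generators, Subgroup.closure_le]
  rintro x (rfl | rfl)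
  · exact h2
  · exact T_mem_Dg

theorem red_smul_iff (hN : (N : KA A) ≠ 0) (g : SL(2, ℤ)) (x : BB N A) :
    red N A (g • x) = 0 ↔ red N A x = 0 := by
  have h : g ∈ Dg N A := by rw [Dg_eq_top hN]; trivial
  exact h x

end Fermat.Agent.Cov
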