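import Fermat.Agent.Cov.LIZ
import Fermat.Agent.RedMod.Basic

/-!
# Gauss data for pairs of fields of Laurent series with an integral basis over `K(j)`
-/

set_option autoImplicit false
set_option linter.style.haveILetI false
set_option linter.unusedSectionVars false

noncomputable section

namespace Fermat.Agent.Cov

open ModularCurve Polynomial IntermediateField Fermat.Agent.ModPoly Fermat.Agent.Red
open Fermat.Agent.RedMod

/-- a pair of fields of Laurent series over `K` and `k` with a common integral basis -/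
structure GP (A : Type*) {K k : Type*} [CommRing A] [Field K] [Algebra A K] [Field k]
    [Algebra A k] (FK : IntermediateField K (LaurentSeries K))
    (Fk : IntermediateField k (LaurentSeries k)) {ι : Type*} [Fintype ι]
    (y : ι → LaurentSeries ℤ) : Prop where
  hk : Function.Surjective (algebraMap A k)
  jK : jqModC K ∈ FK
  jk : jqModC k ∈ Fk
  yK : ∀ i, cst K (y i) ∈ FK
  yk : ∀ i, cst k (y i) ∈ Fk
  indep : LIZ k y
  fin : FiniteDimensional K⟮(⟨jqModC K, jK⟩ : FK)⟯ FK
  rk : Module.finrank K⟮(⟨jqModC K, jK⟩ : FK)⟯ FK = Fintype.card ι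

section

variable {A K k : Type*} [CommRing A] [IsDomain A] [ValuationRing A]
  [Field K] [Algebra A K] [IsFractionRing A K] [Field k] [Algebra A k]
  {FK : IntermediateField K (LaurentSeries K)} {Fk : IntermediateField k (LaurentSeries k)}
  {ι : Type*} [Fintype ι] {y : ι → LaurentSeries ℤ}

theorem val_jq (hj : jqModC K ∈ FK) : FK.val ⟨jqModC K, hj⟩ = incL A K (jqModC A) := by
  rw [coeffMap_jqModC]
  rfl

theorem val_cst {z : LaurentSeries ℤ} (hz : cst K z ∈ FK) :
    FK.val ⟨cst K z, hz⟩ = incL A K (cst A z) := by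
  rw [coeffMap_cst]
  rfl

theorem GP.nonempty (G : GP A FK Fk y) : Nonempty ι := by
  haveI := G.fin
  have h1 : 0 < Module.finrank K⟮(⟨jqModC K, G.jK⟩ : FK)⟯ FK := Module.finrank_pos
  rw [G.rk] at h1
  exact Fintype.card_pos_iff.1 h1

theorem hspan_of {F R : Type*} [Field F] [Algebra K F] [Algebra A F] [IsScalarTower A K F]
    [CommRing R] [Nontrivial R] [Algebra k R] [Algebra A R] [IsScalarTower A k R]
    (G' : GaussData A K F k R ι) (t : F) (ht : G'.t = t) (hne : Nonempty ι)
    (fin : FiniteDimensional K⟮t⟯ F) (rk : Module.finrank K⟮t⟯ F = Fintype.card ι) (x : F) :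
    ∃ q : K[X], q ≠ 0 ∧ ∃ P : ι → K[X], aeval G'.t q * x = G'.comb P := by
  subst ht
  exact GaussData.hspan_of_finrank _ rk x

section Pre

variable [Algebra A FK] [IsScalarTower A K FK] [Algebra A (LaurentSeries k)]
  (hT : ∀ a : A, algebraMap A (LaurentSeries k) a = algebraMap k (LaurentSeries k) (algebraMap A k a))

/-- Gauss data with values in Laurent series -/
def gaussL (G : GP A FK Fk y) :
    GaussData A K FK k (LaurentSeries k) ι where
  W := Wφ A k FK.val
  π :=
    { πφ A k FK.val with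
      commutes' := by
        intro a
        rw [hT, algebraMap_eq_C]
        exact πφ_algebraMap FK.val a }
  t := ⟨jqModC K, G.jK⟩
  ht := mem_Wφ_of_eq _ (val_jq G.jK)
  y i := ⟨cst K (y i), G.yK i⟩
  hy i := mem_Wφ_of_eq _ (val_cst (G.yK i))
  isUnit_of x hx := isUnit_of_πφ FK.val x hx.ne_zero
  indep P hP := by
    rw [finsum_eq_sum_of_fintype] at hP
    funext i
    refine G.indep P ?_ i
    rw [← hP]
    refine Finset.sum_congr rfl fun i _ => ?_
    rw [evT_eq_aeval]
    congr 1
    · congr 2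
      exact ((πφ_of_eq FK.val (val_jq G.jK) _).trans (coeffMap_jqModC _)).symm
    · exact ((πφ_of_eq FK.val (val_cst (G.yK i)) _).trans (coeffMap_cst _ _)).symm
  isUnit_t q hq := by
    refine IsUnit.mk0 _ fun h0 => hq ?_
    apply aeval_jqModC_injective
    rw [map_zero, ← h0]
    congr 2
    exact ((πφ_of_eq FK.val (val_jq G.jK) _).trans (coeffMap_jqModC _)).symm

theorem gaussL_πt (G : GP A FK Fk y) :
    (gaussL hT G).π ⟨(gaussL hT G).t, (gaussL hT G).ht⟩ = jqModC k :=
  (πφ_of_eq FK.val (val_jq G.jK) _).trans (coeffMap_jqModC _)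

theorem gaussL_πy (G : GP A FK Fk y) (i : ι) :
    (gaussL hT G).π ⟨(gaussL hT G).y i, (gaussL hT G).hy i⟩ = cst k (y i) :=
  (πφ_of_eq FK.val (val_cst (G.yK i)) _).trans (coeffMap_cst _ _)

theorem gaussL_span (G : GP A FK Fk y) (x : FK) : ∃ q : K[X], q ≠ 0 ∧
    ∃ P : ι → K[X], aeval (gaussL hT G).t q * x = (gaussL hT G).comb P := by
  haveI := IsScalarTower.of_algebraMap_eq hT
  exact hspan_of (gaussL hT G) ⟨jqModC K, G.jK⟩ rfl G.nonempty G.fin G.rk x

end Pre

/-- the reduction of an element of `FK` lies in `Fk` -/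
theorem GP.πL_mem (G : GP A FK Fk y) (x : FK) {h : (x : LaurentSeries K) ∈ WL A K k} :
    πL A K k ⟨x, h⟩ ∈ Fk := by
  letI : Algebra A (LaurentSeries k) :=
    ((algebraMap k (LaurentSeries k)).comp (algebraMap A k)).toAlgebra
  letI : Algebra A FK := ((algebraMap K FK).comp (algebraMap A K)).toAlgebra
  haveI : IsScalarTower A K FK := IsScalarTower.of_algebraMap_eq fun a => rfl
  have hT : ∀ a : A, algebraMap A (LaurentSeries k) a =
    algebraMap k (LaurentSeries k) (algebraMap A k a) := fun a => rfl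
  haveI := IsScalarTower.of_algebraMap_eq hT
  refine (gaussL hT G).π_mem Fk ?_ ?_ G.hk (gaussL_span hT G) ⟨x, h⟩
  · rw [gaussL_πt]
    exact G.jk
  · intro i
    rw [gaussL_πy]
    exact G.yk i

section Final

variable [Algebra A FK] [IsScalarTower A K FK] [Algebra A Fk] [IsScalarTower A k Fk]
  (G : GP A FK Fk y)

/-- the reduction map -/
def redG (G : GP A FK Fk y) : Wφ A k FK.val →ₐ[A] Fk where
  toFun x := ⟨πφ A k FK.val x, G.πL_mem x.1⟩
  map_one' := Subtype.ext (map_one _)
  map_zero' := Subtype.ext (map_zero _)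
  map_mul' x y := Subtype.ext (map_mul _ x y)
  map_add' x y := Subtype.ext (map_add _ x y)
  commutes' a := by
    apply Subtype.ext
    rw [IsScalarTower.algebraMap_apply A k Fk]
    change πφ A k FK.val (algebraMap A _ a) = algebraMap k (LaurentSeries k) (algebraMap A k a)
    rw [algebraMap_eq_C]
    exact πφ_algebraMap FK.val a

theorem coe_redG (x : Wφ A k FK.val) : (redG G x : LaurentSeries k) = πφ A k FK.val x := rfl

theorem redG_jq (h : (⟨jqModC K, G.jK⟩ : FK) ∈ Wφ A k FK.val) :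
    redG G ⟨⟨jqModC K, G.jK⟩, h⟩ = ⟨jqModC k, G.jk⟩ := by
  apply Subtype.ext
  rw [coe_redG, πφ_of_eq FK.val (val_jq G.jK) h, coeffMap_jqModC]

theorem redG_y (i : ι) (h : (⟨cst K (y i), G.yK i⟩ : FK) ∈ Wφ A k FK.val) :
    redG G ⟨⟨cst K (y i), G.yK i⟩, h⟩ = ⟨cst k (y i), G.yk i⟩ := by
  apply Subtype.ext
  rw [coe_redG, πφ_of_eq FK.val (val_cst (G.yK i)) h]
  exact coeffMap_cst _ _

/-- **Gauss data** -/
def gaussG (G : GP A FK Fk y) : GaussData A K FK k Fk ι where
  W := Wφ A k FK.val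
  π := redG G
  t := ⟨jqModC K, G.jK⟩
  ht := mem_Wφ_of_eq _ (val_jq G.jK)
  y i := ⟨cst K (y i), G.yK i⟩
  hy i := mem_Wφ_of_eq _ (val_cst (G.yK i))
  isUnit_of x hx := isUnit_of_πφ FK.val x fun h0 => hx.ne_zero (Subtype.ext h0)
  indep P hP := by
    rw [finsum_eq_sum_of_fintype] at hP
    funext i
    refine G.indep P ?_ i
    have h1 := congrArg Fk.val hP
    rw [map_sum, map_zero] at h1
    rw [← h1]
    refine Finset.sum_congr rfl fun i _ => ?_
    rw [redG_y G, redG_jq G, map_mul, ← coe_aeval_of Fk G.jk]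
    rfl
  isUnit_t q hq := by
    rw [redG_jq G]
    refine IsUnit.mk0 _ fun h0 => evT_ne_zero hq ?_
    rw [← coe_aeval_of Fk G.jk, h0]
    rfl

theorem gaussG_W : (gaussG G).W = Wφ A k FK.val := rfl

theorem gaussG_t : (gaussG G).t = ⟨jqModC K, G.jK⟩ := rfl

theorem gaussG_πt : (gaussG G).π ⟨(gaussG G).t, (gaussG G).ht⟩ = ⟨jqModC k, G.jk⟩ :=
  redG_jq G _

theorem gaussG_π (x : Wφ A k FK.val) :
    ((gaussG G).π x : LaurentSeries k) = πφ A k FK.val x := rfl

theorem gaussG_span (x : FK) : ∃ q : K[X], q ≠ 0 ∧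
    ∃ P : ι → K[X], aeval (gaussG G).t q * x = (gaussG G).comb P := by
  exact hspan_of (gaussG G) ⟨jqModC K, G.jK⟩ rfl G.nonempty G.fin G.rk x

end Final

end

end Fermat.Agent.Cov
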