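import Fermat.Agent.Cov.Tower
import Fermat.Agent.KumG.Frob
import Fermat.Agent.Kum.Final

/-!
# Good reduction for the modular function fields of level `Γ_H(N)`
-/

set_option autoImplicit false
set_option linter.style.haveILetI false
set_option linter.unusedSectionVars false

noncomputable section

open ModularCurve Polynomial IntermediateField

namespace Fermat.Agent.Cov

open Fermat.Agent.ModPoly Fermat.Agent.Red Fermat.Agent.RedMod Fermat.Agent.RR AlgebraicCurve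
open Fermat.Agent.KumG

section gen

variable {A K k : Type*} [CommRing A] [IsDomain A] [ValuationRing A]
  [Field K] [IsAlgClosed K] [Algebra A K] [IsFractionRing A K] [Field k] [IsAlgClosed k]
  [Algebra A k]
  {FK : IntermediateField K (LaurentSeries K)} {Fk : IntermediateField k (LaurentSeries k)}
  {ι : Type*} [Fintype ι] {y : ι → LaurentSeries ℤ}

/-- scaling -/
theorem GP.scale (G : GP A FK Fk y) {f : FK} (hf : f ≠ 0) :
    ∃ c : K, c ≠ 0 ∧ ∃ P Q : LaurentSeries A, redL A k P ≠ 0 ∧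
      redL A k Q ≠ 0 ∧ incL A K Q * (algebraMap K FK c * f : FK) = incL A K P := by
  letI := algA A FK
  haveI := tower_algA A FK
  letI := algA A Fk
  haveI := tower_algA A Fk
  obtain ⟨c, hc, hmem, h⟩ := Kum.exists_smul_red_ne_zero
    ((gaussG G).toRedModel G.hk (gaussG_span G)) G.hk hf
  refine ⟨c, hc, ?_⟩
  have hmem' : c • f ∈ Wφ A k FK.val := hmem
  obtain ⟨u, v, hv, huv⟩ := hmem'
  rw [Algebra.smul_def] at huv
  refine ⟨u, v, ?_, hv, huv⟩
  intro hu
  apply h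
  apply Subtype.ext
  change πφ A k FK.val ⟨c • f, hmem⟩ = 0
  rw [πφ_eq FK.val hmem hv (u := u) (by rw [Algebra.smul_def]; exact huv), hu, zero_div]

variable {G : GP A FK Fk y}

theorem πL_eq_pow {x : LaurentSeries K} {P Q : LaurentSeries A} (hf : x ∈ WL A K k)
    (hfPQ : incL A K Q * x = incL A K P) (hQ : redL A k Q ≠ 0)
    {γ : LaurentSeries k} {m : ℕ} (h : redL A k P = γ ^ m * redL A k Q) :
    πL A K k ⟨x, hf⟩ = γ ^ m := by
  rw [πL_eq ⟨x, hf⟩ hQ hfPQ, h, mul_div_cancel_right₀ _ hQ]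

/-- rigidity in terms of integral representations -/
theorem SP.rigidity' (S : SP G) [FunField k Fk] [FunField K FK]
    (hg : rrGenus k Fk = rrGenus K FK) (hA : ∃ t : A, t ≠ 0 ∧ ¬ IsUnit t)
    (hrank : ∀ a c : A, algebraMap A k a = 0 → c ≠ 0 → ∃ n : ℕ, c ∣ a ^ n)
    {m : ℕ} (hm : (m : k) ≠ 0) {f : FK} {P Q : LaurentSeries A}
    (hfPQ : incL A K Q * (f : LaurentSeries K) = incL A K P)
    (hP : redL A k P ≠ 0) (hQ : redL A k Q ≠ 0)
    {γ : LaurentSeries k} (hγ : γ ∈ Fk) (h : redL A k P = γ ^ m * redL A k Q)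
    (hD : ∀ v : Place K FK, (m : ℤ) ∣ v.ord f) : ∃ x : FK, x ^ m = f := by
  have hf : (f : LaurentSeries K) ∈ WL A K k := ⟨P, Q, hQ, hfPQ⟩
  have hγ0 : (⟨γ, hγ⟩ : Fk) ≠ 0 := by
    intro h0
    have h1 : γ = 0 := congrArg Subtype.val h0
    have hm0 : m ≠ 0 := by rintro rfl; simp at hm
    rw [h1, zero_pow hm0, zero_mul] at h
    exact hP h
  exact S.rigidity hg hA hrank hm (f := f) hf hγ0 (πL_eq_pow hf hfPQ hQ h) hD

end gen

section Qbar

variable {A : ValuationSubring (AlgebraicClosure ℚ)} {ℓ : ℕ} {N m : ℕ} [NeZero N]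
  {H : Subgroup (ZMod N)ˣ}

/-- **Rigidity for `Γ_H(N)` over `ℚ̄`.** -/
theorem rigidity_GH (hℓ : ℓ.Prime) (hN : ¬ ℓ ∣ N) (hm : ¬ ℓ ∣ m)
    (hA : A.LiesOverPrime ℓ) (hN3 : 3 ≤ N) (hH : -1 ∈ H)
    {E : IntermediateField (AlgebraicClosure ℚ) (LaurentSeries (AlgebraicClosure ℚ))}
    (hE : E = FH (AlgebraicClosure ℚ) N H) {f : E} {P Q : LaurentSeries A}
    (hfPQ : coeffMap A.subtype Q * (f : LaurentSeries (AlgebraicClosure ℚ)) = coeffMap A.subtype P)
    (hP : coeffMap (IsLocalRing.residue A) P ≠ 0) (hQ : coeffMap (IsLocalRing.residue A) Q ≠ 0)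
    {γ : LaurentSeries (IsLocalRing.ResidueField A)}
    (hγ : γ ∈ FH (IsLocalRing.ResidueField A) N H)
    (h : coeffMap (IsLocalRing.residue A) P = γ ^ m * coeffMap (IsLocalRing.residue A) Q)
    (hD : ∀ v : Place (AlgebraicClosure ℚ) E, (m : ℤ) ∣ v.ord f) :
    ∃ x : E, x ^ m = f := by
  subst hE
  haveI : Fact ℓ.Prime := ⟨hℓ⟩
  have hNk : (N : IsLocalRing.ResidueField A) ≠ 0 := natCast_residue_ne_zero hA hN
  have hNK : (N : AlgebraicClosure ℚ) ≠ 0 := by exact_mod_cast NeZero.ne N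
  haveI := funField_FH (k := IsLocalRing.ResidueField A) (H := H) hNk hN3 hH
  haveI := funField_FH (k := AlgebraicClosure ℚ) (H := H) hNK hN3 hH
  exact (spH (A := A) (K := AlgebraicClosure ℚ) (k := IsLocalRing.ResidueField A) (H := H)
    IsLocalRing.residue_surjective hNk hN3 hH).rigidity'
    (rrGenus_eq_all (A := A) exists_ιC.some IsLocalRing.residue_surjective hNk hN3 hH)
    (exists_nonunit hA) (fun a c ha hc => rank_one hA a c ha hc) (natCast_residue_ne_zero hA hm)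
    hfPQ hP hQ hγ h hD

theorem scale_GH (hℓ : ℓ.Prime) (hN : ¬ ℓ ∣ N)
    (hA : A.LiesOverPrime ℓ) (hN3 : 3 ≤ N) (hH : -1 ∈ H)
    {E : IntermediateField (AlgebraicClosure ℚ) (LaurentSeries (AlgebraicClosure ℚ))}
    (hE : E = FH (AlgebraicClosure ℚ) N H) {f : E} (hf : f ≠ 0) :
    ∃ c : AlgebraicClosure ℚ, c ≠ 0 ∧ ∃ P Q : LaurentSeries A,
      coeffMap (IsLocalRing.residue A) P ≠ 0 ∧ coeffMap (IsLocalRing.residue A) Q ≠ 0 ∧
      coeffMap A.subtype Q * (algebraMap (AlgebraicClosure ℚ) E c * f : E) =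
        coeffMap A.subtype P := by
  subst hE
  haveI : Fact ℓ.Prime := ⟨hℓ⟩
  have hNk : (N : IsLocalRing.ResidueField A) ≠ 0 := natCast_residue_ne_zero hA hN
  exact (gpH (A := A) (K := AlgebraicClosure ℚ) (k := IsLocalRing.ResidueField A) (H := H)
    IsLocalRing.residue_surjective hNk hN3 hH).scale hf

/-- **Good reduction for `Γ_H(N)`, `N ≥ 3`.** -/
theorem goodRedG [NeZero m] (hℓ : ℓ.Prime) (hN : ¬ ℓ ∣ N) (hm : ¬ ℓ ∣ m)
    (hA : A.LiesOverPrime ℓ) (hN3 : 3 ≤ N) (hH : -1 ∈ H) :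
    haveI := lvlG_GH N H hH
    GoodRedG (GH N H) m A := by
  haveI := lvlG_GH N H hH
  have hE := FG_eq_FH (H := H) exists_ιC.some hN3 hH
  refine ⟨?_, ?_⟩
  · rintro f hf ⟨u, v, hv, h1, h2⟩
    have hu : coeffMap (IsLocalRing.residue A) u = coeffMap (IsLocalRing.residue A) v := by
      rw [mul_one] at h2
      exact h2.symm
    exact rigidity_GH (A := A) hℓ hN hm hA hN3 hH hE (f := f) (P := u) (Q := v)
      h1 (by rw [hu]; exact hv) hv (γ := 1) (one_mem _)
      (by rw [one_pow, one_mul]; exact hu) hf.2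
  · intro f hf
    obtain ⟨c, hc, P, Q, hP, hQ, h⟩ := scale_GH (A := A) hℓ hN hA hN3 hH hE hf
    exact ⟨c, hc, redL A _ P / redL A _ Q, div_ne_zero hP hQ, P, Q, hQ, h,
      mul_div_cancel₀ _ hQ⟩

end Qbar

end Fermat.Agent.Cov
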