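import Fermat.Agent.Cov.Good
import Fermat.Agent.KumG.Adic

/-!
# Good reduction for `Γ_H(N)` at all levels, in the form used for Galois representations
-/

set_option autoImplicit false
set_option linter.style.haveILetI false
set_option linter.unusedSectionVars false

noncomputable section

open ModularCurve Polynomial IntermediateField

namespace Fermat.Agent.Cov

open Fermat.Agent.ModPoly Fermat.Agent.Red Fermat.Agent.RedMod Fermat.Agent.RR AlgebraicCurve
open Fermat.Agent.KumG

section small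

variable {K : Type*} [Field K] [Algebra ℚ K] {N : ℕ} [NeZero N] {H : Subgroup (ZMod N)ˣ}

theorem FF_le_FG (hH : -1 ∈ H) :
    haveI := lvlG_GH N H hH
    FF K N ≤ FG (GH N H) K := by
  haveI := lvlG_GH N H hH
  obtain ⟨A, hA⟩ := exists_valuationSubring_charP (p := 0) (Or.inr rfl)
  rw [FF_eq_adjoin, IntermediateField.adjoin_le_iff]
  rintro _ ⟨m, hm, rfl⟩
  haveI : NeZero (m : ℕ) := ⟨m.ne_zero⟩
  have h1 : (Jc 1 m : LaurentSeries K) = cst K (qExpand ℤ m (jqModC ℤ)) := by
    rw [cst, coeffMap_qExpand, coeffMap_jqModC, Jc_one_eq]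
  rw [h1]
  apply cst_mem_FG
  refine cst_mem_MFunG (N := N) (A := A) (x := jdB N A m hm)
    (fun γ hγ => smul_jdB_of_mem hm (GH_le N H hγ)) ?_
  have h2 : cst A (qExpand ℤ m (jqModC ℤ)) = qExpand A m (jqModC A) := by
    rw [cst, coeffMap_qExpand, coeffMap_jqModC]
  rw [h2]
  exact hasExp_jdH_one m

variable [IsAlgClosed K] [CharZero K]

theorem FG_eq_FF (ι : K →+* ℂ) (hH : -1 ∈ H) (hidx : H.index = 1) :
    haveI := lvlG_GH N H hH
    FG (GH N H) K = FF K N := by
  haveI := lvlG_GH N H hH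
  haveI := GamH.ratG_GH N H hH
  haveI : Nonempty (K →+* ℂ) := ⟨ι⟩
  refine le_antisymm ?_ (FF_le_FG hH)
  have hk : (N : K) ≠ 0 := by exact_mod_cast NeZero.ne N
  intro x hx
  have h1 : Module.finrank K⟮jj (GH N H) K⟯ (FG (GH N H) K) =
      Fintype.card (Fin (dedekindPsi N)) := by
    rw [finrank_eq (GH N H) K ι, Fintype.card_fin]
    have h2 := index_GH N H
    rw [hidx, mul_one] at h2
    rw [← h2, Subgroup.index, Nat.card_eq_fintype_card]
  obtain ⟨q, hq, P, hP⟩ := Red.exists_repr_of_finrank (jj (GH N H) K)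
    (transcendental_jj (Γ := GH N H) (K := K))
    (fun p => (⟨cst K (monos hk p), FF_le_FG hH (cst_mem_FF (monos_mem hk p))⟩ : FG (GH N H) K))
    (by
      intro P hP
      funext i
      refine LIZ_monos hk P ?_ i
      have h2 := congrArg (fun x : FG (GH N H) K => (x : LaurentSeries K)) hP
      simp only [AddSubmonoidClass.coe_finsetSum, MulMemClass.coe_mul, ZeroMemClass.coe_zero] at h2
      rw [← h2]
      refine Finset.sum_congr rfl fun i _ => ?_
      congr 1
      exact (coe_aeval_of (FG (GH N H) K) j_mem _).symm) h1 ⟨x, hx⟩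
  have h2 := congrArg (fun x : FG (GH N H) K => (x : LaurentSeries K)) hP
  simp only [AddSubmonoidClass.coe_finsetSum, MulMemClass.coe_mul] at h2
  have e1 : ∀ Q : K[X], ((aeval (jj (GH N H) K) Q : FG (GH N H) K) : LaurentSeries K) =
      evT (jqModC K) Q := fun Q => coe_aeval_of (FG (GH N H) K) j_mem Q
  simp only [e1] at h2
  have h3 : evT (jqModC K) q * x ∈ FF K N := by
    rw [h2]
    exact sum_mem fun i _ => mul_mem (evT_mem _ jq_mem_FF _) (cst_mem_FF (monos_mem hk i))
  have h4 : x = (evT (jqModC K) q)⁻¹ * (evT (jqModC K) q * x) := by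
    rw [inv_mul_cancel_left₀ (evT_ne_zero hq)]
  rw [h4]
  exact mul_mem (inv_mem (evT_mem _ jq_mem_FF _)) h3

end small

section Qbar

variable {A : ValuationSubring (AlgebraicClosure ℚ)} {ℓ : ℕ} {N m : ℕ} [NeZero N]
  {H : Subgroup (ZMod N)ˣ}

theorem goodRedG_index_one [NeZero m] (hℓ : ℓ.Prime) (hN : ¬ ℓ ∣ N) (hm : ¬ ℓ ∣ m)
    (hA : A.LiesOverPrime ℓ) (hH : -1 ∈ H) (hidx : H.index = 1) :
    haveI := lvlG_GH N H hH
    GoodRedG (GH N H) m A := by
  haveI := lvlG_GH N H hH
  haveI : Fact ℓ.Prime := ⟨hℓ⟩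
  have hE := FG_eq_FF (H := H) exists_ιC.some hH hidx
  refine ⟨?_, ?_⟩
  · rintro f hf ⟨u, v, hv, h1, h2⟩
    have hu : coeffMap (IsLocalRing.residue A) u = coeffMap (IsLocalRing.residue A) v := by
      rw [mul_one] at h2
      exact h2.symm
    exact rigidity_E (A := A) (K := AlgebraicClosure ℚ) (k := IsLocalRing.ResidueField A) (N := N)
      exists_ιC.some IsLocalRing.residue_surjective (natCast_residue_ne_zero hA hN)
      (exists_nonunit hA) (fun a c ha hc => rank_one hA a c ha hc)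
      (natCast_residue_ne_zero hA hm) hE (f := f) (P := u) (Q := v)
      (by rw [mul_comm]; exact h1) (by change coeffMap (IsLocalRing.residue A) u ≠ 0; rw [hu]; exact hv)
      hv (γ := 1) (one_mem _)
      (by rw [one_pow, one_mul]; exact hu) hf.2
  · intro f hf
    obtain ⟨c, hc, P, Q, hP, hQ, h⟩ := Kum.scale_FF (A := A) (K := AlgebraicClosure ℚ)
      (k := IsLocalRing.ResidueField A) (N := N)
      IsLocalRing.residue_surjective (natCast_residue_ne_zero hA hN) hE hf
    exact ⟨c, hc, redL A _ P / redL A _ Q, div_ne_zero hP hQ, P, Q, hQ, h,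
      mul_div_cancel₀ _ hQ⟩

theorem index_of_lt_three (hN : N < 3) : H.index = 1 := by
  have h0 := NeZero.pos N
  haveI : Subsingleton (ZMod N)ˣ := by
    obtain rfl | rfl : N = 1 ∨ N = 2 := by omega
    · infer_instance
    · exact ⟨by decide⟩
  rw [Subgroup.index_eq_one]
  exact Subsingleton.elim _ _

/-- **Good reduction for `Γ_H(N)`.** -/
theorem hasGoodRedH (N : ℕ) [NeZero N] (H : Subgroup (ZMod N)ˣ)
    [hH : Fact ((-1 : (ZMod N)ˣ) ∈ H)] : HasGoodRedH N H := by
  intro m ℓ _ hℓ hN hm A hA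
  rcases lt_or_ge N 3 with h | h
  · exact goodRedG_index_one hℓ hN hm hA hH.out (index_of_lt_three h)
  · exact goodRedG hℓ hN hm hA h hH.out

end Qbar

end Fermat.Agent.Cov
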