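import Fermat.Agent.ModPoly.Monomials
import Fermat.Agent.Red.Span
import Fermat.Agent.RR.TowerDeg

/-!
# Linear independence of integral Laurent series over `k[j]` depends only on the characteristic
-/

set_option autoImplicit false
set_option linter.style.haveILetI false
set_option linter.unusedSectionVars false

noncomputable section

open ModularCurve Polynomial IntermediateField

namespace Fermat.Agent.Cov

open Fermat.Agent.ModPoly

section LIZ

variable {k k' : Type*} [Field k] [Field k'] {I : Type*} [Fintype I]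

variable (k) in
/-- linear independence over `k[j]` -/
def LIZ (f : I → LaurentSeries ℤ) : Prop :=
  ∀ P : I → k[X], ∑ i, evT (jqModC k) (P i) * cst k (f i) = 0 → ∀ i, P i = 0

variable (k) in
/-- membership in the span over `k(j)` -/
def SPZ (f : I → LaurentSeries ℤ) (w : LaurentSeries ℤ) : Prop :=
  ∃ q : k[X], q ≠ 0 ∧ ∃ P : I → k[X],
    evT (jqModC k) q * cst k w = ∑ i, evT (jqModC k) (P i) * cst k (f i)

theorem LIZ_iff_hom (φ : k →+* k') {f : I → LaurentSeries ℤ} : LIZ k f ↔ LIZ k' f := by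
  letI : Algebra k k' := φ.toAlgebra
  constructor
  · intro h
    have h1 := LIP_baseChange (K' := k') (jqModC k) (fun i => cst k (f i)) h
    rw [coeffMap_jqModC] at h1
    simp only [coeffMap_cst] at h1
    exact h1
  · intro h
    refine LIP_of_baseChange (K' := k') (jqModC k) (fun i => cst k (f i)) ?_
    rw [coeffMap_jqModC]
    simp only [coeffMap_cst]
    exact h

theorem LIZ_congr (p : ℕ) [CharP k p] [CharP k' p] {f : I → LaurentSeries ℤ} :
    LIZ k f ↔ LIZ k' f := by
  rcases CharP.char_is_prime_or_zero k p with hp | rfl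
  · haveI : Fact p.Prime := ⟨hp⟩
    exact (LIZ_iff_hom (ZMod.castHom dvd_rfl k)).symm.trans (LIZ_iff_hom (ZMod.castHom dvd_rfl k'))
  · haveI : CharZero k := CharP.charP_to_charZero k
    haveI : CharZero k' := CharP.charP_to_charZero k'
    exact (LIZ_iff_hom (algebraMap ℚ k)).symm.trans (LIZ_iff_hom (algebraMap ℚ k'))

theorem SPZ_iff {f : I → LaurentSeries ℤ} (hf : LIZ k f) {w : LaurentSeries ℤ} :
    SPZ k f w ↔ ¬ LIZ k (fun o : Option I => o.elim w f) := by
  constructor
  · rintro ⟨q, hq, P, hP⟩ h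
    apply hq
    refine h (fun o => o.elim q (fun i => - P i)) ?_ none
    rw [Fintype.sum_option]
    simp only [Option.elim_none, Option.elim_some]
    rw [hP, ← Finset.sum_add_distrib]
    refine Finset.sum_eq_zero fun i _ => ?_
    rw [map_neg]
    ring
  · intro h
    unfold LIZ at h
    push Not at h
    obtain ⟨P, hP, o, ho⟩ := h
    rw [Fintype.sum_option] at hP
    simp only [Option.elim_none, Option.elim_some] at hP
    have hq : P none ≠ 0 := by
      intro h0
      rw [h0, map_zero, zero_mul, zero_add] at hP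
      have h1 := hf (fun i => P (some i)) hP
      rcases o with _ | i
      · exact ho h0
      · exact ho (h1 i)
    refine ⟨P none, hq, fun i => - P (some i), ?_⟩
    rw [eq_neg_of_add_eq_zero_left hP, ← Finset.sum_neg_distrib]
    refine Finset.sum_congr rfl fun i _ => ?_
    rw [map_neg]
    ring

theorem SPZ_congr (p : ℕ) [CharP k p] [CharP k' p] {f : I → LaurentSeries ℤ} (hf : LIZ k f)
    {w : LaurentSeries ℤ} : SPZ k f w ↔ SPZ k' f w := by
  rw [SPZ_iff hf, SPZ_iff ((LIZ_congr p).1 hf), LIZ_congr (k := k) (k' := k') p]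

theorem cst_eq_iff_congr (p : ℕ) [CharP k p] [CharP k' p] {w w' : LaurentSeries ℤ} :
    cst k w = cst k w' ↔ cst k' w = cst k' w' := by
  have key : ∀ (R : Type _) [Field R] [CharP R p], (cst R w = cst R w') ↔
      ∀ n, (p : ℤ) ∣ w.coeff n - w'.coeff n := by
    intro R _ _
    rw [HahnSeries.ext_iff, funext_iff]
    refine forall_congr' fun n => ?_
    rw [cst, coeffMap_coeff, cst, coeffMap_coeff, ← sub_eq_zero, ← map_sub, eq_intCast,
      CharP.intCast_eq_zero_iff R p]
  have key' : ∀ (R : Type _) [Field R] [CharP R p], (cst R w = cst R w') ↔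
      ∀ n, (p : ℤ) ∣ w.coeff n - w'.coeff n := by
    intro R _ _
    rw [HahnSeries.ext_iff, funext_iff]
    refine forall_congr' fun n => ?_
    rw [cst, coeffMap_coeff, cst, coeffMap_coeff, ← sub_eq_zero, ← map_sub, eq_intCast,
      CharP.intCast_eq_zero_iff R p]
  rw [key k, key' k']

theorem evT_ne_zero {q : k[X]} (hq : q ≠ 0) : evT (jqModC k) q ≠ 0 := by
  intro h
  apply hq
  rw [evT_eq_aeval] at h
  apply aeval_jqModC_injective
  rw [h, map_zero]

theorem evT_mem (F : IntermediateField k (LaurentSeries k)) (hj : jqModC k ∈ F) (q : k[X]) :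
    evT (jqModC k) q ∈ F := by
  rw [evT_eq_aeval, aeval_eq_sum_range]
  exact sum_mem fun i _ => F.smul_mem (pow_mem hj i)

theorem SPZ.mem {f : I → LaurentSeries ℤ} {w : LaurentSeries ℤ} (h : SPZ k f w)
    (F : IntermediateField k (LaurentSeries k)) (hj : jqModC k ∈ F) (hf : ∀ i, cst k (f i) ∈ F) :
    cst k w ∈ F := by
  obtain ⟨q, hq, P, hP⟩ := h
  have h1 : evT (jqModC k) q * cst k w ∈ F := by
    rw [hP]
    exact sum_mem fun i _ => mul_mem (evT_mem F hj _) (hf i)
  have h2 : cst k w = (evT (jqModC k) q)⁻¹ * (evT (jqModC k) q * cst k w) := by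
    rw [inv_mul_cancel_left₀ (evT_ne_zero hq)]
  rw [h2]
  exact mul_mem (inv_mem (evT_mem F hj _)) h1

end LIZ

section Abs

variable {K F : Type*} [Field K] [Field F] [Algebra K F]

theorem linInd_abs {ι : Type*} [Fintype ι] (t : F) (htr : Transcendental K t) (y : ι → F)
    (hy : ∀ P : ι → K[X], ∑ i, aeval t (P i) * y i = 0 → P = 0) :
    LinearIndependent K⟮t⟯ y := by
  classical
  let g : K⟮t⟯ := AdjoinSimple.gen K t
  letI : Algebra K[X] K⟮t⟯ := (aeval g).toRingHom.toAlgebra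
  letI : Algebra K[X] F := (aeval t).toRingHom.toAlgebra
  haveI : IsScalarTower K[X] K⟮t⟯ F := by
    refine IsScalarTower.of_algebraMap_eq fun p => ?_
    change aeval t p = algebraMap K⟮t⟯ F (aeval g p)
    rw [← aeval_algebraMap_apply]
    rfl
  haveI : IsFractionRing K[X] K⟮t⟯ := by
    let e : RatFunc K ≃ₐ[K[X]] K⟮t⟯ :=
      AlgEquiv.ofRingEquiv (f := (RatFunc.algEquivOfTranscendental t htr).toRingEquiv)
        (fun p => RatFunc.algEquivOfTranscendental_algebraMap t htr p)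
    exact IsLocalization.isLocalization_of_algEquiv (nonZeroDivisors K[X]) e
  rw [← LinearIndependent.iff_fractionRing K[X] K⟮t⟯, Fintype.linearIndependent_iff]
  intro P hP i
  have : P = 0 := hy P (by
    rw [← hP]
    refine Finset.sum_congr rfl fun i _ => ?_
    rw [Algebra.smul_def]; rfl)
  rw [this]
  rfl

/-- degree and separability in a tower `K(t) ⊂ E ⊂ F` -/
theorem tower_up {E : Type*} [Field E] [Algebra K E] [Algebra E F] [IsScalarTower K E F] (t : E)
    (h1 : FiniteDimensional K⟮t⟯ E) (h2 : Algebra.IsSeparable K⟮t⟯ E)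
    (h3 : FiniteDimensional E F) (h4 : Algebra.IsSeparable E F) (t' : F) (ht : algebraMap E F t = t') :
    FiniteDimensional K⟮t'⟯ F ∧ Algebra.IsSeparable K⟮t'⟯ F ∧
      Module.finrank K⟮t'⟯ F = Module.finrank K⟮t⟯ E * Module.finrank E F := by
  subst ht
  haveI : FiniteDimensional K⟮t⟯ F := FiniteDimensional.trans K⟮t⟯ E F
  haveI : Algebra.IsSeparable K⟮t⟯ F := Algebra.IsSeparable.trans K⟮t⟯ E F
  refine ⟨Module.Finite.of_equiv_equiv (RR.adjEquiv (K := K) F t) (RingEquiv.refl F)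
    (RR.adj_comp t), ?_, RR.finrank_tower t⟩
  exact Algebra.IsSeparable.of_equiv_equiv (RR.adjEquiv (K := K) F t) (RingEquiv.refl F)
      (RR.adj_comp t)

/-- a generator with a separable polynomial -/
theorem adjoin_data {E : Type*} [Field E] [Algebra E F] (z : F) (hz : E⟮z⟯ = ⊤)
    (p : E[X]) (hp : p.Monic) (hsep : p.Separable) (hroot : aeval z p = 0) :
    FiniteDimensional E F ∧ Algebra.IsSeparable E F ∧ Module.finrank E F ≤ p.natDegree := by
  have hint : IsIntegral E z := ⟨p, hp, hroot⟩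
  haveI h1 : FiniteDimensional E E⟮z⟯ := IntermediateField.adjoin.finiteDimensional hint
  have hz1 : IsSeparable E z := hsep.of_dvd (minpoly.dvd E z hroot)
  have h2 : Algebra.IsSeparable E E⟮z⟯ := by
    rw [IntermediateField.isSeparable_adjoin_simple_iff_isSeparable]
    exact hz1
  have h3 : Module.finrank E E⟮z⟯ ≤ p.natDegree := by
    rw [IntermediateField.adjoin.finrank hint]
    exact Polynomial.natDegree_le_of_dvd (minpoly.dvd E z hroot) hp.ne_zero
  rw [hz] at h1 h2 h3
  let e : (⊤ : IntermediateField E F) ≃ₐ[E] F := IntermediateField.topEquiv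
  refine ⟨Module.Finite.equiv e.toLinearEquiv, ?_, ?_⟩
  · exact AlgEquiv.Algebra.isSeparable e
  · rwa [← e.toLinearEquiv.finrank_eq]

theorem gen_sub {k L : Type*} [Field k] [Field L] [Algebra k L] {F₁ F₂ : IntermediateField k L}
    (h12 : F₁ ≤ F₂) {z : L} (hz : z ∈ F₂)
    (hgen : ∀ F : IntermediateField k L, F₁ ≤ F → z ∈ F → F₂ ≤ F) (G : IntermediateField k F₂)
    (h1 : ∀ x (hx : x ∈ F₁), (⟨x, h12 hx⟩ : F₂) ∈ G) (h2 : (⟨z, hz⟩ : F₂) ∈ G) (x : F₂) :
    x ∈ G := by
  have hE : F₂ ≤ G.map F₂.val := by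
    apply hgen
    · intro y hy
      exact ⟨⟨y, h12 hy⟩, h1 y hy, rfl⟩
    · exact ⟨⟨z, hz⟩, h2, rfl⟩
  obtain ⟨y, hy, hyx⟩ := hE x.2
  have : y = x := Subtype.ext hyx
  rw [← this]
  exact hy

/-- adjoining a root of a separable polynomial, abstract version -/
theorem ext_data_abs {k E F L : Type*} [Field k] [Field E] [Field F] [Field L] [Algebra k E]
    [Algebra k F] [Algebra E F] [IsScalarTower k E F] (i : F →+* L)
    (z : F) (hz : ∀ G : IntermediateField k F, (∀ x : E, algebraMap E F x ∈ G) → z ∈ G → ∀ x, x ∈ G)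
    (t : E) (h1 : FiniteDimensional k⟮t⟯ E) (h2 : Algebra.IsSeparable k⟮t⟯ E)
    (p : L[X]) (hp : p.Monic) (hsep : p.Separable) (hroot : eval (i z) p = 0)
    (hcoef : ∀ n, ∃ x : E, i (algebraMap E F x) = p.coeff n) (t' : F) (ht' : algebraMap E F t = t') :
    FiniteDimensional k⟮t'⟯ F ∧ Algebra.IsSeparable k⟮t'⟯ F ∧
      ∃ n ≤ p.natDegree, Module.finrank k⟮t'⟯ F = Module.finrank k⟮t⟯ E * n := by
  have hlift : p ∈ lifts (i.comp (algebraMap E F)) := by
    rw [lifts_iff_coeff_lifts]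
    exact fun n => hcoef n
  obtain ⟨q, hq, hqd, hqm⟩ := lifts_and_natDegree_eq_and_monic hlift hp
  have hqsep : q.Separable := by
    rw [← separable_map (i.comp (algebraMap E F)), hq]
    exact hsep
  have hqroot : aeval z q = 0 := by
    apply i.injective
    rw [map_zero, ← hroot, ← hq, eval_map, aeval_def, hom_eval₂]
  have hadj : E⟮z⟯ = ⊤ := by
    rw [eq_top_iff]
    intro x _
    have e1 : z ∈ E⟮z⟯ := IntermediateField.mem_adjoin_simple_self E z
    have e2 : ∀ y : E, algebraMap E F y ∈ E⟮z⟯ := fun y => E⟮z⟯.algebraMap_mem y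
    exact hz (E⟮z⟯.restrictScalars k) e2 e1 x
  obtain ⟨h3, h4, h5⟩ := adjoin_data _ hadj q hqm hqsep hqroot
  obtain ⟨h6, h7, h8⟩ := tower_up (K := k) t h1 h2 h3 h4 t' ht'
  exact ⟨h6, h7, _, h5.trans hqd.le, h8⟩

/-- adjoining a root of a separable polynomial to a field between `k(t)` and `L` -/
theorem ext_data {k L : Type*} [Field k] [Field L] [Algebra k L] (F₁ F₂ : IntermediateField k L)
    (h12 : F₁ ≤ F₂) (z : L) (hz : z ∈ F₂)
    (hgen : ∀ F : IntermediateField k L, F₁ ≤ F → z ∈ F → F₂ ≤ F) (t : L) (ht : t ∈ F₁)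
    (h1 : FiniteDimensional k⟮(⟨t, ht⟩ : F₁)⟯ F₁) (h2 : Algebra.IsSeparable k⟮(⟨t, ht⟩ : F₁)⟯ F₁)
    (p : L[X]) (hp : p.Monic) (hsep : p.Separable) (hroot : eval z p = 0)
    (hcoef : ∀ n, p.coeff n ∈ F₁) :
    FiniteDimensional k⟮(⟨t, h12 ht⟩ : F₂)⟯ F₂ ∧ Algebra.IsSeparable k⟮(⟨t, h12 ht⟩ : F₂)⟯ F₂ ∧
      ∃ n ≤ p.natDegree, Module.finrank k⟮(⟨t, h12 ht⟩ : F₂)⟯ F₂ =
        Module.finrank k⟮(⟨t, ht⟩ : F₁)⟯ F₁ * n := by
  letI : Algebra F₁ F₂ := (IntermediateField.inclusion h12).toRingHom.toAlgebra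
  haveI : IsScalarTower k F₁ F₂ := IsScalarTower.of_algebraMap_eq fun a => Subtype.ext rfl
  have e1 : ∀ G : IntermediateField k F₂, (∀ x : F₁, algebraMap F₁ F₂ x ∈ G) →
      (⟨z, hz⟩ : F₂) ∈ G → ∀ x, x ∈ G :=
    fun G hG hzG x => gen_sub h12 hz hgen G (fun x hx => hG ⟨x, hx⟩) hzG x
  have e2 : algebraMap F₁ F₂ ⟨t, ht⟩ = ⟨t, h12 ht⟩ := rfl
  have e3 : ∀ n, ∃ x : F₁, (algebraMap F₂ L) (algebraMap F₁ F₂ x) = p.coeff n :=
    fun n => ⟨⟨_, hcoef n⟩, rfl⟩
  exact ext_data_abs (k := k) (E := F₁) (F := F₂) (algebraMap F₂ L) ⟨z, hz⟩ e1 ⟨t, ht⟩ h1 h2 p hp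
    hsep hroot e3 _ e2

end Abs

section Field

variable {k : Type*} [Field k] (F : IntermediateField k (LaurentSeries k)) (hj : jqModC k ∈ F)
variable {I : Type*} [Fintype I]

theorem coe_aeval_of (P : k[X]) :
    ((aeval (⟨jqModC k, hj⟩ : F) P : F) : LaurentSeries k) = evT (jqModC k) P := by
  rw [evT_eq_aeval]
  exact (Polynomial.aeval_algHom_apply F.val (⟨jqModC k, hj⟩ : F) P).symm

theorem transcendental_of : Transcendental k (⟨jqModC k, hj⟩ : F) := by
  rw [transcendental_iff]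
  intro p hp
  have h1 := congrArg (fun x : F => (x : LaurentSeries k)) hp
  simp only [coe_aeval_of] at h1
  by_contra hc
  exact evT_ne_zero hc h1

/-- linear independence over the field generated by `j` -/
theorem linInd_of {f : I → LaurentSeries ℤ} (hf : LIZ k f) (hmem : ∀ i, cst k (f i) ∈ F) :
    LinearIndependent k⟮(⟨jqModC k, hj⟩ : F)⟯ (fun i => (⟨cst k (f i), hmem i⟩ : F)) := by
  refine linInd_abs _ (transcendental_of F hj) _ fun P hP => ?_
  funext i
  refine hf P ?_ i
  have h1 := congrArg (fun x : F => (x : LaurentSeries k)) hP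
  simp only [AddSubmonoidClass.coe_finsetSum, MulMemClass.coe_mul, ZeroMemClass.coe_zero,
    coe_aeval_of] at h1
  exact h1

/-- membership in the span of a basis -/
theorem SPZ_of_mem {f : I → LaurentSeries ℤ} (hf : LIZ k f) (hmem : ∀ i, cst k (f i) ∈ F)
    [FiniteDimensional k⟮(⟨jqModC k, hj⟩ : F)⟯ F]
    (hcard : Module.finrank k⟮(⟨jqModC k, hj⟩ : F)⟯ F = Fintype.card I) {w : LaurentSeries ℤ}
    (hw : cst k w ∈ F) : SPZ k f w := by
  rw [SPZ_iff hf]
  intro h
  have h1 := (linInd_of F hj h (by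
    intro o
    rcases o with _ | i
    · exact hw
    · exact hmem i)).fintype_card_le_finrank
  rw [hcard, Fintype.card_option] at h1
  omega

end Field

end Fermat.Agent.Cov
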