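import Fermat.Agent.Cov.ZRed
import Fermat.Agent.Cov.LIZ

/-!
# Independence of the powers of `z_1`, and the polynomial with roots `z_a`
-/

set_option autoImplicit false
set_option linter.style.haveILetI false
set_option linter.unusedSectionVars false

noncomputable section

open UpperHalfPlane Complex ModularCurve Filter ModularForm Polynomial
open scoped Topology Manifold MatrixGroups Pointwise

namespace Fermat.Agent.Cov

open Fermat.Agent.X0Genus Fermat.Agent.JFun Fermat.Agent.ModPoly Fermat.Agent.RedMod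
open Fermat.Agent.GamH Fermat.Agent.KumG

/-- surjectivity of the lower right entry -/
theorem exists_Gamma0 (N : ℕ) [NeZero N] (a : (ZMod N)ˣ) :
    ∃ (γ : SL(2, ℤ)) (hγ : γ ∈ CongruenceSubgroup.Gamma0 N), lre hγ = a := by
  have h1 : Nat.Coprime (a : ZMod N).val N := ZMod.val_coe_unit_coprime a
  have h2 : IsCoprime (((a : ZMod N).val : ℕ) : ℤ) (N : ℤ) := Nat.isCoprime_iff_coprime.2 h1
  obtain ⟨x, y, hxy⟩ := h2
  let γ : SL(2, ℤ) := ⟨!![x, -y; (N : ℤ), (((a : ZMod N).val : ℕ) : ℤ)], by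
    rw [Matrix.det_fin_two_of]
    linear_combination hxy⟩
  have hγ : γ ∈ CongruenceSubgroup.Gamma0 N := by
    rw [CongruenceSubgroup.Gamma0_mem]
    simp [γ]
  refine ⟨γ, hγ, Units.ext ?_⟩
  rw [coe_lre]
  simp [γ]

variable {N : ℕ} [NeZero N] {A : ValuationSubring ℂ} {H : Subgroup (ZMod N)ˣ} (h : Hyp N A H)

/-- `z_a` and `z_b` have the same reduction only if `a / b ∈ H` -/
theorem mem_of_red_eq {a b : (ZMod N)ˣ} (hab : red N A (zB h a) = red N A (zB h b)) :
    a * b⁻¹ ∈ H := by
  classical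
  obtain ⟨γ, hγ, hγb⟩ := exists_Gamma0 N b⁻¹
  have h1 := red_smul_congr h.hN γ hab
  rw [smul_zB h hγ, smul_zB h hγ, hγb, mul_inv_cancel, red_zB, red_zB] at h1
  have h2 := (qExpand_injective N) h1
  have h3 := congrArg (fun x : LaurentSeries (KA A) => x.coeff 0) h2
  have hN2 : 2 ≤ N := by have := h.hN3; omega
  simp only [coeff_cst_zs hN2] at h3
  rw [if_pos (one_mem H)] at h3
  by_contra hc
  rw [if_neg hc] at h3
  exact zero_ne_one h3

/-- the classes of `z_a` -/
def zq (H : Subgroup (ZMod N)ˣ) (c : (ZMod N)ˣ ⧸ H) : LaurentSeries ℤ := zs H c.out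

theorem fa_mul_mem {u : (ZMod N)ˣ} (hu : u ∈ H) (a : (ZMod N)ˣ) : fa H (a * u) = fa H a := by
  ext n
  rw [fa, fa, PowerSeries.coeff_mk, PowerSeries.coeff_mk]
  refine Finset.sum_congr rfl fun x _ => ?_
  have h1 : inC H (a * u) ((x.1 : ℕ) : ZMod N) = inC H a ((x.1 : ℕ) : ZMod N) :=
    propext (inC_mul_mem hu a _)
  rw [h1]

theorem zs_mul_mem {u : (ZMod N)ˣ} (hu : u ∈ H) (a : (ZMod N)ˣ) : zs H (a * u) = zs H a := by
  rw [zs, zs, fa_mul_mem hu]

theorem zq_mk (a : (ZMod N)ˣ) : zq H (QuotientGroup.mk a) = zs H a := by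
  rw [zq]
  have h1 : a⁻¹ * (QuotientGroup.mk (s := H) a).out ∈ H := by
    rw [← QuotientGroup.eq]
    exact (QuotientGroup.out_eq' _).symm
  have h2 : (QuotientGroup.mk (s := H) a).out = a * (a⁻¹ * (QuotientGroup.mk (s := H) a).out) := by
    group
  rw [h2, zs_mul_mem h1]

/-- the classes of `z_a` in `BB` -/
def zBq (h : Hyp N A H) (c : (ZMod N)ˣ ⧸ H) : BB N A := zB h c.out

theorem zBq_mk (a : (ZMod N)ˣ) : zBq h (QuotientGroup.mk a) = zB h a := by
  rw [zBq]
  have h1 : a⁻¹ * (QuotientGroup.mk (s := H) a).out ∈ H := by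
    rw [← QuotientGroup.eq]
    exact (QuotientGroup.out_eq' _).symm
  have h2 : (QuotientGroup.mk (s := H) a).out = a * (a⁻¹ * (QuotientGroup.mk (s := H) a).out) := by
    group
  rw [h2]
  exact Subtype.ext (zH_mul_mem h1 a)

theorem red_zBq_injective : Function.Injective (fun c : (ZMod N)ˣ ⧸ H => red N A (zBq h c)) := by
  intro c d hcd
  have h1 := mem_of_red_eq h hcd
  have h2 : (QuotientGroup.mk (s := H) c.out) = QuotientGroup.mk d.out := by
    rw [QuotientGroup.eq, mul_comm, ← inv_mem_iff, mul_inv_rev, inv_inv]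
    exact h1
  rwa [QuotientGroup.out_eq', QuotientGroup.out_eq'] at h2

instance : Fintype ((ZMod N)ˣ ⧸ H) := Fintype.ofFinite _

theorem card_quot : Fintype.card ((ZMod N)ˣ ⧸ H) = H.index := by
  rw [Subgroup.index, Nat.card_eq_fintype_card]

include h in
/-- **Independence**: the powers of `z_1` are independent over `F₀(N)` -/
theorem LIZ_family {I : Type*} [Fintype I] {y : I → LaurentSeries ℤ} (hy : ∀ i, y i ∈ Mono N)
    (hLI : LIZ (KA A) y) :
    LIZ (KA A) (fun p : I × Fin H.index => y p.1 * zs H 1 ^ (p.2 : ℕ)) := by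
  classical
  intro P hP
  have hlift : ∀ p, ∃ Q : A[X], Q.map (algebraMap A (KA A)) = P p := fun p =>
    Polynomial.map_surjective _ residue_surj (P p)
  choose Q hQ using hlift
  choose yB hyB hyB' using fun i => exists_mono (A := A) (hy i)
  have hyr : ∀ i, red N A (yB i) = qExpand _ N (cst (KA A) (y i)) := by
    intro i
    rw [red_def, expB_eq (hasExp_of_one (hyB i)), coeffMap_qExpand, coeffMap_cst]
  set x : BB N A := ∑ p : I × Fin H.index, aeval (jB N A) (Q p) * yB p.1 * zB h 1 ^ (p.2 : ℕ)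
    with hx
  have hx0 : red N A x = 0 := by
    have h1 := congrArg (qExpand (KA A) N) hP
    rw [map_zero, map_sum] at h1
    rw [hx, map_sum, ← h1]
    refine Finset.sum_congr rfl fun p _ => ?_
    simp only [map_mul, map_pow, red_aeval, hyr, red_zB, hQ]
    ring
  let c : Fin H.index → LaurentSeries (KA A) := fun s =>
    ∑ i, evT (jqModC (KA A)) (P (i, s)) * cst (KA A) (y i)
  have hroot : ∀ a : (ZMod N)ˣ, ∑ s : Fin H.index, qExpand _ N (c s) *
      red N A (zB h a) ^ (s : ℕ) = 0 := by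
    intro a
    obtain ⟨γ, hγ, hγa⟩ := exists_Gamma0 N a
    have h1 := (red_smul_iff h.hN γ x).2 hx0
    rw [hx, Finset.smul_sum, map_sum] at h1
    rw [← h1, Fintype.sum_prod_type_right]
    refine Finset.sum_congr rfl fun s _ => ?_
    rw [map_sum, Finset.sum_mul]
    refine Finset.sum_congr rfl fun i _ => ?_
    rw [smul_mul', smul_mul', smul_pow', smul_aeval, hyB' i γ hγ, smul_zB h hγ, hγa, one_mul]
    simp only [map_mul, map_pow, red_aeval, hyr, hQ]
  have hc : ∀ s, c s = 0 := by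
    let p : (LaurentSeries (KA A))[X] := ∑ s : Fin H.index, C (qExpand _ N (c s)) * X ^ (s : ℕ)
    have hp : p = 0 := by
      apply Polynomial.eq_zero_of_natDegree_lt_card_of_eval_eq_zero p (red_zBq_injective h)
      · intro d
        rw [eval_finsetSum]
        simp only [eval_mul, eval_C, eval_pow, eval_X]
        exact hroot d.out
      · rw [card_quot]
        have h0 : 0 < H.index := Nat.pos_of_ne_zero Subgroup.FiniteIndex.index_ne_zero
        rcases eq_or_ne p 0 with hp0 | hp0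
        · rw [hp0, natDegree_zero]; exact h0
        · exact (Polynomial.natDegree_lt_iff_degree_lt hp0).2 (Polynomial.degree_sum_fin_lt _)
    intro s
    have h1 := congrArg (fun r : (LaurentSeries (KA A))[X] => r.coeff (s : ℕ)) hp
    simp only [p, finsetSum_coeff, coeff_C_mul_X_pow, coeff_zero] at h1
    rw [Finset.sum_eq_single s] at h1
    · rw [if_pos rfl, map_eq_zero] at h1
      exact h1
    · intro b _ hb
      rw [if_neg]
      intro h2
      exact hb (Fin.ext h2.symm)
    · intro h2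
      exact absurd (Finset.mem_univ _) h2
  rintro ⟨i, s⟩
  exact hLI (fun i => P (i, s)) (hc s) i

/-- the polynomial with roots `z_a` -/
def pZ (H : Subgroup (ZMod N)ˣ) : (LaurentSeries ℤ)[X] :=
  ∏ c : (ZMod N)ˣ ⧸ H, (X - C (zq H c))

/-- the polynomial over `BB` -/
def pB (h : Hyp N A H) : (BB N A)[X] := ∏ c : (ZMod N)ˣ ⧸ H, (X - C (zBq h c))

theorem smul_zBq {γ : SL(2, ℤ)} (hγ : γ ∈ CongruenceSubgroup.Gamma0 N) (c : (ZMod N)ˣ ⧸ H) :
    γ • zBq h c = zBq h (c * QuotientGroup.mk (lre hγ)) := by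
  obtain ⟨a, rfl⟩ := QuotientGroup.mk_surjective c
  rw [← QuotientGroup.mk_mul, zBq_mk, zBq_mk]
  exact smul_zB h hγ a

theorem smul_pB {γ : SL(2, ℤ)} (hγ : γ ∈ CongruenceSubgroup.Gamma0 N) :
    (pB h).map (MulSemiringAction.toRingHom SL(2, ℤ) (BB N A) γ) = pB h := by
  have h1 := Equiv.prod_comp (Equiv.mulRight (QuotientGroup.mk (s := H) (lre hγ)))
    (fun c => (X - C (zBq h c)))
  have h2 : (pB h).map (MulSemiringAction.toRingHom SL(2, ℤ) (BB N A) γ) =
      ∏ c : (ZMod N)ˣ ⧸ H, (X - C (zBq h (c * QuotientGroup.mk (lre hγ)))) := by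
    rw [pB, Polynomial.map_prod]
    refine Finset.prod_congr rfl fun c _ => ?_
    have h3 : (MulSemiringAction.toRingHom SL(2, ℤ) (BB N A) γ) (zBq h c) =
      zBq h (c * QuotientGroup.mk (lre hγ)) := smul_zBq h hγ c
    rw [Polynomial.map_sub, map_X, map_C, h3]
  rw [h2]
  exact h1

theorem expB_zBq (c : (ZMod N)ˣ ⧸ H) : expB N A (zBq h c) = qExpand A N (cst A (zq H c)) :=
  expB_zB h _

theorem expB_pB (n : ℕ) : expB N A ((pB h).coeff n) = qExpand A N (cst A ((pZ H).coeff n)) := by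
  have h1 : (pB h).map (expB N A) = ((pZ H).map (coeffMap (Int.castRingHom A))).map
      (qExpand A N) := by
    rw [pB, pZ, Polynomial.map_prod, Polynomial.map_prod, Polynomial.map_prod]
    refine Finset.prod_congr rfl fun c _ => ?_
    simp only [Polynomial.map_sub, map_X, map_C]
    rw [expB_zBq]
  have h2 := congrArg (fun r : (LaurentSeries A)[X] => r.coeff n) h1
  simp only [coeff_map] at h2
  exact h2

include h in
/-- the symmetric functions of the `z_a` are in the modular function field of `Γ₀(N)` -/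
theorem coeff_pZ_mem (n : ℕ) : cst (KA A) ((pZ H).coeff n) ∈ FF (KA A) N := by
  obtain ⟨s, hs, hsF⟩ := exists_mem_FF (x := (pB h).coeff n) (by
    intro γ hγ
    have h1 := congrArg (fun r : (BB N A)[X] => r.coeff n) (smul_pB h hγ)
    simp only [coeff_map] at h1
    exact h1)
  have h1 : s = cst A ((pZ H).coeff n) := by
    apply qExpand_injective (R := A) N
    rw [← expB_pB h, expB_eq (hasExp_of_one hs)]
  have h2 := πφ_mem (A := A) (K := ℂ) (k := KA A) residue_surj h.hN ⟨_, hsF⟩
    (h := incL_mem s)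
  rw [πL_incL, h1] at h2
  have h3 : redL A (KA A) (cst A ((pZ H).coeff n)) = cst (KA A) ((pZ H).coeff n) :=
    coeffMap_cst _ _
  rwa [h3] at h2

end Fermat.Agent.Cov
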