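import Fermat.Agent.Cov.Orb

/-!
# The number of places over infinity
-/

set_option autoImplicit false
set_option linter.style.haveILetI false
set_option linter.unusedSectionVars false

noncomputable section

open UpperHalfPlane Complex ModularCurve Filter ModularForm Polynomial IntermediateField
open scoped Topology Manifold MatrixGroups Pointwise

namespace Fermat.Agent.Cov

open Fermat.Agent.X0Genus Fermat.Agent.JFun Fermat.Agent.ModPoly Fermat.Agent.RedMod
open Fermat.Agent.GamH Fermat.Agent.KumG AlgebraicCurve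

/-- the lower right entry as a homomorphism -/
def lreHom (N : ℕ) : CongruenceSubgroup.Gamma0 N →* (ZMod N)ˣ :=
  MonoidHom.toHomUnits (CongruenceSubgroup.Gamma0Map N)

theorem coe_lreHom {N : ℕ} (γ : CongruenceSubgroup.Gamma0 N) :
    ((lreHom N γ : (ZMod N)ˣ) : ZMod N) = ((γ.1 1 1 : ℤ) : ZMod N) := rfl

theorem lreHom_eq {N : ℕ} [NeZero N] {γ : SL(2, ℤ)} (hγ : γ ∈ CongruenceSubgroup.Gamma0 N) :
    lreHom N ⟨γ, hγ⟩ = lre hγ := Units.ext rfl

theorem lreHom_surjective (N : ℕ) [NeZero N] : Function.Surjective (lreHom N) := by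
  intro a
  obtain ⟨γ, hγ, h⟩ := exists_Gamma0 N a
  exact ⟨⟨γ, hγ⟩, by rw [lreHom_eq, h]⟩

theorem index_GH (N : ℕ) [NeZero N] (H : Subgroup (ZMod N)ˣ) :
    (GH N H).index = dedekindPsi N * H.index := by
  have h1 : (GH N H).subgroupOf (CongruenceSubgroup.Gamma0 N) = H.comap (lreHom N) := by
    ext ⟨γ, hγ⟩
    rw [Subgroup.mem_subgroupOf, Subgroup.mem_comap, lreHom_eq hγ]
    exact mem_GH_iff hγ
  rw [← Subgroup.relIndex_mul_index (GH_le N H), Subgroup.relIndex, h1,
    Subgroup.index_comap_of_surjective _ (lreHom_surjective N), Cosets.index_Gamma0, mul_comm]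

instance finIndex_GH (N : ℕ) [NeZero N] (H : Subgroup (ZMod N)ˣ) : (GH N H).FiniteIndex :=
  Subgroup.finiteIndex_of_le (Gamma1_le_GH N H)

/-- the number of cusps -/
def cInf (Γ : Subgroup SL(2, ℤ)) : ℕ :=
  Nat.card (Quot fun x y : SL(2, ℤ) ⧸ Γ => y = ModularGroup.T • x)

variable {k : Type*} [Field k] [IsAlgClosed k] {N : ℕ} [NeZero N] {A : ValuationSubring ℂ}
  {H : Subgroup (ZMod N)ˣ} (h : Hyp N A H) (θ : k →+* KA A)

theorem transcendental_jX : Transcendental k (jX k N H) := transcendental_of _ jq_mem_FH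

include h in
theorem hk_of (θ : k →+* KA A) : (N : k) ≠ 0 := by
  intro h0
  apply h.hN
  rw [← map_natCast θ, h0, map_zero]

theorem orderSbA (x : LaurentSeries (KA A)) (c : (KA A)ˣ) : (twist c x).order = x.order := by
  have := Cusp.order_SbA_one c x
  rw [← this]
  congr 1
  ext n
  rw [twist_coeff, Cusp.SbA_one_coeff]

theorem finrank_adj_inv {K F : Type*} [Field K] [Field F] [Algebra K F] (t : F) :
    Module.finrank K⟮t⁻¹⟯ F = Module.finrank K⟮t⟯ F := by
  have : ∀ (A B : IntermediateField K F), A = B →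
    Module.finrank A F = Module.finrank B F := by
    rintro A B rfl; rfl
  exact this _ _ (Cusp.adjoin_inv' _)

/-- Ring homomorphisms agreeing on constants and on `t` agree on `K(t)`. -/
theorem agreeAdj {K F L : Type*} [Field K] [Field F] [Algebra K F] [Field L] (f g : F →+* L) (t : F)
    (hK : ∀ a : K, f (algebraMap K F a) = g (algebraMap K F a)) (hj : f t = g t) :
    ∀ z ∈ K⟮t⟯, f z = g z := by
  intro z hz
  have hz' : z ∈ Subfield.closure (Set.range (algebraMap K F) ∪ {t}) := hz
  have h2 : Subfield.closure (Set.range (algebraMap K F) ∪ {t}) ≤ RingHom.eqLocusField f g := by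
    rw [Subfield.closure_le]
    rintro y (⟨a, rfl⟩ | hy)
    · exact hK a
    · rw [Set.mem_singleton_iff] at hy
      rw [hy]
      exact hj
  exact h2 hz'

include h θ in
theorem places_inf :
    {v : Place k (FH k N H) | v.ord (jX k N H) < 0}.Finite ∧
    Set.ncard {v : Place k (FH k N H) | v.ord (jX k N H) < 0} = cInf (GH N H) := by
  classical
  have hk : (N : k) ≠ 0 := hk_of h θ
  obtain ⟨hfd, hsep, hrk⟩ := FH_data (k := k) (H := H) hk h.hN3 h.hH
  have hj0 : jX k N H ≠ 0 := by
    intro h0
    apply transcendental_jX (k := k) (N := N) (H := H)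
    rw [h0]
    exact isAlgebraic_zero
  haveI h1 : FiniteDimensional k⟮(jX k N H)⁻¹⟯ (FH k N H) := by
    rw [Cusp.adjoin_inv']; exact hfd
  haveI h2 : Algebra.IsSeparable k⟮(jX k N H)⁻¹⟯ (FH k N H) := by
    rw [Cusp.adjoin_inv']; exact hsep
  have ht : Transcendental k (jX k N H)⁻¹ := fun h' => transcendental_jX (k := k) (N := N) (H := H) (by
    have := h'.inv
    rwa [inv_inv] at this)
  haveI : Fintype (SL(2, ℤ) ⧸ GH N H) := Fintype.ofFinite _
  have hφj : ∀ x, phiQ h θ x (jX k N H)⁻¹ = (qExpand (KA A) N (jqModC (KA A)))⁻¹ := by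
    intro x
    rw [map_inv₀]
    congr 1
    exact phiF_jX h θ _
  have hjne : qExpand (KA A) N (jqModC (KA A)) ≠ 0 := by
    rw [← phiF_jX h θ 1, ne_eq, map_eq_zero]
    exact hj0
  obtain ⟨pl, m, hm0, hm, hpos, hsurj, hcyc, hper, hfin, hsum⟩ := Cusp.orbits (K := k)
    (F := FH k N H) (jX k N H)⁻¹ ht
    (X := SL(2, ℤ) ⧸ GH N H) (Ω := LaurentSeries (KA A)) (phiQ h θ) (phiQ_injective h θ)
    (by
      intro x y z hz
      rw [Cusp.adjoin_inv'] at hz
      exact agreeAdj (phiQ h θ x) (phiQ h θ y) (jX k N H)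
        (fun c => by rw [phiQ, phiQ, phiF_const, phiF_const])
        (by rw [phiQ, phiQ, phiF_jX, phiF_jX]) z hz)
    (by
      rw [finrank_adj_inv, hrk, ← index_GH, Subgroup.index])
    HahnSeries.order (fun f g hf hg => HahnSeries.order_mul hf hg)
    (fun f g hf hg hfg => HahnSeries.min_order_le_order_add hfg)
    (by
      intro x a ha
      rw [phiQ, phiF_const, HahnSeries.order_C])
    N (by exact_mod_cast NeZero.pos N)
    (by
      intro x
      rw [hφj]
      have h4 := HahnSeries.order_mul hjne (inv_ne_zero hjne)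
      rw [mul_inv_cancel₀ hjne, HahnSeries.order_one, order_qExpand, order_jqModC] at h4
      linarith)
    (MulAction.toPerm ModularGroup.T) (twist (rootT N A)) (fun x => phiQ_T h θ x)
    (fun f _ => orderSbA f _)
    (by
      intro n f hf hn
      have h3 : ∀ (n : ℕ) (f : LaurentSeries (KA A)) (i : ℤ), ((twist (rootT N A))^[n] f).coeff i =
          (((rootT N A : (KA A)ˣ) ^ (n * i : ℤ) : (KA A)ˣ) : KA A) * f.coeff i := by
        intro n
        induction n with
        | zero => intro f i; simp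
        | succ n ih =>
          intro f i
          rw [Function.iterate_succ_apply', twist_coeff, ih, ← mul_assoc, ← Units.val_mul,
            ← zpow_add]
          congr 3
          push_cast
          ring
      have h4 := h3 n f f.order
      rw [hn] at h4
      have h5 : f.coeff f.order ≠ 0 := Cusp.coeff_order_ne' hf
      have h6 : ((((rootT N A : (KA A)ˣ) ^ (n * f.order : ℤ) : (KA A)ˣ) : KA A) - 1) *
          f.coeff f.order = 0 := by
        rw [sub_mul, one_mul, ← h4, sub_self]
      have h7 := sub_eq_zero.1 ((mul_eq_zero.1 h6).resolve_right h5)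
      rw [Units.val_eq_one] at h7
      exact ((rootT_primitive h.hN).zpow_eq_one_iff_dvd _).1 h7)
  have hset : {v : Place k (FH k N H) | 0 < v.ord (jX k N H)⁻¹} =
      {v | v.ord (jX k N H) < 0} := by
    ext v
    simp only [Set.mem_ofPred_eq]
    rw [v.ord_inv]
    omega
  rw [hset] at hfin
  refine ⟨hfin, ?_⟩
  rw [← hset]
  let F : Quot (fun x y : SL(2, ℤ) ⧸ GH N H => y = ModularGroup.T • x) →
      {v : Place k (FH k N H) | 0 < v.ord (jX k N H)⁻¹} :=
    Quot.lift (fun x => ⟨pl x, hpos x⟩) (by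
      intro x y hxy
      apply Subtype.ext
      exact (hcyc x y).2 ⟨1, hxy⟩)
  have hF : Function.Bijective F := by
    constructor
    · intro a b hab
      obtain ⟨x, rfl⟩ := Quot.exists_rep a
      obtain ⟨y, rfl⟩ := Quot.exists_rep b
      obtain ⟨i, hi⟩ := (hcyc x y).1 (congrArg Subtype.val hab)
      have h3 : ∀ (i : ℕ) (x : SL(2, ℤ) ⧸ GH N H),
          Quot.mk (fun x y : SL(2, ℤ) ⧸ GH N H => y = ModularGroup.T • x) x =
          Quot.mk _ ((MulAction.toPerm ModularGroup.T)^[i] x) := by
        intro i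
        induction i with
        | zero => intro x; rfl
        | succ i ih =>
          intro x
          rw [Function.iterate_succ_apply', ih x]
          exact Quot.sound rfl
      rw [hi]
      exact h3 i x
    · rintro ⟨v, hv⟩
      obtain ⟨x, hx⟩ := hsurj v hv
      exact ⟨Quot.mk _ x, Subtype.ext hx⟩
  rw [cInf, Nat.card_eq_of_bijective F hF]
  rfl

end Fermat.Agent.Cov
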