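import Fermat.Agent.Cov.FHdef
import Fermat.Agent.Cusp.Places

/-!
# Places over infinity in arbitrary characteristic
-/

set_option autoImplicit false
set_option linter.style.haveILetI false
set_option linter.unusedSectionVars false

noncomputable section

open UpperHalfPlane Complex ModularCurve Filter ModularForm Polynomial IntermediateField
open scoped Topology Manifold MatrixGroups Pointwise

namespace Fermat.Agent.Cov

open Fermat.Agent.X0Genus Fermat.Agent.JFun Fermat.Agent.ModPoly Fermat.Agent.RedMod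
open Fermat.Agent.GamH Fermat.Agent.KumG AlgebraicCurve

variable {k : Type*} [Field k] {N : ℕ} [NeZero N] {A : ValuationSubring ℂ}
  {H : Subgroup (ZMod N)ˣ} (h : Hyp N A H) (θ : k →+* KA A)

include h in
theorem mem_Lr_of_mem {x : LaurentSeries k} (hx : x ∈ FH k N H) :
    qExpand (KA A) N (coeffMap θ x) ∈ Lr N A := by
  let E : IntermediateField k (LaurentSeries k) :=
    { (Lr N A).comap ((qExpand (KA A) N).comp (coeffMap θ)) with
      algebraMap_mem' := by
        intro c
        change qExpand (KA A) N (coeffMap θ (algebraMap k (LaurentSeries k) c)) ∈ Lr N A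
        rw [algebraMap_eq_C, coeffMap_C, qExpand_C]
        obtain ⟨a, ha⟩ := residue_surj (A := A) (θ c)
        have h1 := red_mem_Lr (constB N A a)
        rw [red_constB] at h1
        rw [← ha]
        exact h1 }
  have hE : FH k N H ≤ E := by
    apply FH_le
    · rw [FF_eq_adjoin, IntermediateField.adjoin_le_iff]
      rintro _ ⟨m, hm, rfl⟩
      haveI : NeZero (m : ℕ) := ⟨m.ne_zero⟩
      change qExpand (KA A) N (coeffMap θ (Jc 1 m)) ∈ Lr N A
      rw [Jc_one_eq, coeffMap_qExpand, coeffMap_jqModC, ← red_jdB (N := N) m hm]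
      exact red_mem_Lr _
    · change qExpand (KA A) N (coeffMap θ (cst k (zs H 1))) ∈ Lr N A
      rw [coeffMap_cst, ← red_zB h]
      exact red_mem_Lr _
  exact hE hx

/-- the map to the field of reductions -/
def toLr : FH k N H →+* Lr N A :=
  (((qExpand (KA A) N).comp (coeffMap θ)).comp (FH k N H).val.toRingHom).codRestrict (Lr N A)
    fun x => mem_Lr_of_mem h θ x.2

theorem coe_toLr (x : FH k N H) : ((toLr h θ x : Lr N A) : LaurentSeries (KA A)) =
    qExpand (KA A) N (coeffMap θ x) := rfl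

/-- the embeddings -/
def phiF (g : SL(2, ℤ)) : FH k N H →+* LaurentSeries (KA A) := (emb h.hN g).comp (toLr h θ)

theorem phiF_of_red (g : SL(2, ℤ)) (x : FH k N H) (y : BB N A)
    (hxy : qExpand (KA A) N (coeffMap θ x) = red N A y) : phiF h θ g x = red N A (g • y) :=
  emb_red h.hN g y hxy

theorem phiF_const (g : SL(2, ℤ)) (c : k) :
    phiF h θ g (algebraMap k (FH k N H) c) = HahnSeries.C (θ c) := by
  obtain ⟨a, ha⟩ := residue_surj (A := A) (θ c)
  rw [phiF_of_red h θ g _ (constB N A a), smul_constB, red_constB, ← ha]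
  · rfl
  · change qExpand (KA A) N (coeffMap θ (algebraMap k (LaurentSeries k) c)) = _
    rw [algebraMap_eq_C, coeffMap_C, qExpand_C, red_constB, ← ha]
    rfl

theorem phiF_jX (g : SL(2, ℤ)) : phiF h θ g (jX k N H) = qExpand (KA A) N (jqModC (KA A)) := by
  have e : red N A (jB N A) = qExpand (KA A) N (jqModC (KA A)) := by
    rw [red_def, expB_jB, coeffMap_qExpand, coeffMap_jqModC]
  rw [phiF_of_red h θ g _ (jB N A), smul_jB, e]
  change qExpand (KA A) N (coeffMap θ (jqModC k)) = _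
  rw [coeffMap_jqModC, e]

/-- two ring homomorphisms on `FH` agreeing on generators are equal -/
theorem homExt {Ω : Type*} [Field Ω] {f g : FH k N H →+* Ω}
    (hc : ∀ c, f (algebraMap k (FH k N H) c) = g (algebraMap k (FH k N H) c))
    (hj : ∀ (m : ℕ+) (hm : (m : ℕ) ∣ N), f ⟨Jc 1 m, FF_le_FH (Jc_one_mem hm)⟩ =
      g ⟨Jc 1 m, FF_le_FH (Jc_one_mem hm)⟩)
    (hz : f (zX k N H) = g (zX k N H)) : f = g := by
  let E0 : Subfield (FH k N H) := f.eqLocusField g
  let E : IntermediateField k (LaurentSeries k) :=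
    { E0.map (FH k N H).val.toRingHom with
      algebraMap_mem' := fun c => ⟨algebraMap k (FH k N H) c, hc c, rfl⟩ }
  have hE : FH k N H ≤ E := by
    apply FH_le
    · rw [FF_eq_adjoin, IntermediateField.adjoin_le_iff]
      rintro _ ⟨m, hm, rfl⟩
      exact ⟨_, hj m hm, rfl⟩
    · exact ⟨_, hz, rfl⟩
  apply RingHom.ext
  intro x
  obtain ⟨y, hy, hyx⟩ := hE x.2
  have : y = x := Subtype.ext hyx
  rw [← this]
  exact hy

theorem phiF_Jc (g : SL(2, ℤ)) (m : ℕ+) (hm : (m : ℕ) ∣ N) :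
    haveI : NeZero (m : ℕ) := ⟨m.ne_zero⟩
    phiF h θ g ⟨Jc 1 m, FF_le_FH (Jc_one_mem hm)⟩ = red N A (g • jdB N A m hm) := by
  haveI : NeZero (m : ℕ) := ⟨m.ne_zero⟩
  apply phiF_of_red h θ g
  change qExpand (KA A) N (coeffMap θ (Jc 1 m)) = _
  rw [Jc_one_eq, coeffMap_qExpand, coeffMap_jqModC, ← red_jdB (N := N) m hm]

theorem phiF_zX (g : SL(2, ℤ)) : phiF h θ g (zX k N H) = red N A (g • zB h 1) := by
  apply phiF_of_red h θ g
  change qExpand (KA A) N (coeffMap θ (cst k (zs H 1))) = _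
  rw [coeffMap_cst, ← red_zB h]

theorem phiF_mul_of_mem (g : SL(2, ℤ)) {δ : SL(2, ℤ)} (hδ : δ ∈ GH N H) :
    phiF h θ (g * δ) = phiF h θ g := by
  apply homExt
  · intro c
    rw [phiF_const, phiF_const]
  · intro m hm
    haveI : NeZero (m : ℕ) := ⟨m.ne_zero⟩
    have e1 := phiF_Jc h θ (g * δ) m hm
    have e2 := phiF_Jc h θ g m hm
    rw [e1, e2, mul_smul, smul_jdB_of_mem hm hδ.1]
  · rw [phiF_zX, phiF_zX, mul_smul, smul_zB_of_mem h hδ]

theorem mem_of_phiF_eq {g g' : SL(2, ℤ)} (he : phiF h θ g = phiF h θ g') : g⁻¹ * g' ∈ GH N H := by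
  have hz := congrArg (fun f : FH k N H →+* LaurentSeries (KA A) => f (zX k N H)) he
  simp only [phiF_zX] at hz
  obtain ⟨t, ht⟩ : ∃ t : ℕ+, (t : ℕ) = N := ⟨⟨N, NeZero.pos N⟩, rfl⟩
  have hj : red N A (g • jdB N A N dvd_rfl) = red N A (g' • jdB N A N dvd_rfl) := by
    have h1 : ∀ g : SL(2, ℤ), phiF h θ g ⟨Jc 1 t, FF_le_FH (Jc_one_mem (by rw [ht]))⟩ =
        red N A (g • jdB N A N dvd_rfl) := by
      intro g
      apply phiF_of_red h θ g
      change qExpand (KA A) N (coeffMap θ (Jc 1 t)) = _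
      haveI : NeZero (t : ℕ) := ⟨t.ne_zero⟩
      rw [Jc_one_eq, coeffMap_qExpand, coeffMap_jqModC, red_jdB]
      congr 1
      congr 1
      congr!
    rw [← h1, ← h1, he]
  have key : ∀ y : BB N A, red N A (g • y) = red N A (g' • y) →
      red N A ((g⁻¹ * g') • y) = red N A y := by
    intro y hy
    have h1 := red_smul_congr h.hN g⁻¹ hy
    rw [inv_smul_smul, ← mul_smul] at h1
    exact h1.symm
  exact mem_GH_of_red' h (key _ hj) (key _ hz)

/-- the embeddings indexed by cosets -/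
def phiQ (x : SL(2, ℤ) ⧸ GH N H) : FH k N H →+* LaurentSeries (KA A) := phiF h θ x.out

theorem phiQ_mk (g : SL(2, ℤ)) : phiQ h θ (QuotientGroup.mk g) = phiF h θ g := by
  rw [phiQ]
  have h1 : g⁻¹ * (QuotientGroup.mk (s := GH N H) g).out ∈ GH N H := by
    rw [← QuotientGroup.eq]
    exact (QuotientGroup.out_eq' _).symm
  have h2 : (QuotientGroup.mk (s := GH N H) g).out =
      g * (g⁻¹ * (QuotientGroup.mk (s := GH N H) g).out) := by group
  rw [h2, phiF_mul_of_mem h θ g h1]

theorem phiQ_injective : Function.Injective (phiQ h θ) := by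
  intro x y hxy
  obtain ⟨g, rfl⟩ := QuotientGroup.mk_surjective x
  obtain ⟨g', rfl⟩ := QuotientGroup.mk_surjective y
  rw [phiQ_mk, phiQ_mk] at hxy
  rw [QuotientGroup.eq]
  exact mem_of_phiF_eq h θ hxy

theorem phiQ_T (x : SL(2, ℤ) ⧸ GH N H) :
    (twist (rootT N A)).comp (phiQ h θ x) = phiQ h θ (ModularGroup.T • x) := by
  obtain ⟨g, rfl⟩ := QuotientGroup.mk_surjective x
  have h1 : ModularGroup.T • (QuotientGroup.mk g : SL(2, ℤ) ⧸ GH N H) =
    QuotientGroup.mk (ModularGroup.T * g) := rfl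
  rw [h1, phiQ_mk, phiQ_mk]
  apply RingHom.ext
  intro y
  exact (emb_T_mul h.hN g (toLr h θ y)).symm

end Fermat.Agent.Cov
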