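import Fermat.Agent.X0Genus.CuspCase
import Fermat.Agent.RedMod.Good

/-!
# Holomorphic modular functions of level `Γ(N)` with integral expansions at all cusps
-/

set_option autoImplicit false
set_option linter.style.haveILetI false
set_option linter.unusedSectionVars false

noncomputable section

open UpperHalfPlane Complex ModularCurve Filter ModularForm CongruenceSubgroup
open scoped Topology Manifold MatrixGroups

namespace Fermat.Agent.Cov

open Fermat.Agent.X0Genus Fermat.Agent.JFun Fermat.Agent.ModPoly Fermat.Agent.RedMod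

variable (N : ℕ) [NeZero N] (A : ValuationSubring ℂ)

/-- `s` is the expansion of `x` in `q^{1/N}` -/
def HasExp (x : hol) (s : LaurentSeries A) : Prop :=
  ∃ F : ConvL, F.1 = coeffMap (algebraMap A ℂ) s ∧ evPh N F = x

variable {N A}

namespace HasExp

variable {x y : hol} {s t : LaurentSeries A}

theorem add (h : HasExp N A x s) (h' : HasExp N A y t) : HasExp N A (x + y) (s + t) := by
  obtain ⟨F, hF, rfl⟩ := h
  obtain ⟨G, hG, rfl⟩ := h'
  exact ⟨F + G, by rw [map_add, ← hF, ← hG]; rfl, map_add _ _ _⟩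

theorem mul (h : HasExp N A x s) (h' : HasExp N A y t) : HasExp N A (x * y) (s * t) := by
  obtain ⟨F, hF, rfl⟩ := h
  obtain ⟨G, hG, rfl⟩ := h'
  exact ⟨F * G, by rw [map_mul, ← hF, ← hG]; rfl, map_mul _ _ _⟩

theorem neg (h : HasExp N A x s) : HasExp N A (-x) (-s) := by
  obtain ⟨F, hF, rfl⟩ := h
  exact ⟨-F, by rw [map_neg, ← hF]; rfl, map_neg _ _⟩

theorem one : HasExp N A 1 1 := ⟨1, by rw [map_one]; rfl, map_one _⟩

theorem zero : HasExp N A 0 0 := ⟨0, by rw [map_zero]; rfl, map_zero _⟩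

theorem const (a : A) : HasExp N A (constH a) (HahnSeries.C a) := by
  refine ⟨⟨HahnSeries.single 0 (a : ℂ), conv_single 0 _⟩, ?_, (constH_eq_evPh N _).symm⟩
  rw [coeffMap_C]
  rfl

theorem coeffMap_injective_A : Function.Injective (coeffMap (algebraMap A ℂ)) :=
  coeffMap_injective (f := algebraMap A ℂ) Subtype.val_injective

theorem unique (h : HasExp N A x s) (h' : HasExp N A x t) : s = t := by
  obtain ⟨F, hF, rfl⟩ := h
  obtain ⟨G, hG, h3⟩ := h'
  have h4 := evPh_injective N h3
  apply coeffMap_injective_A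
  rw [← hF, ← hG, h4]

theorem injective (h : HasExp N A x s) (h' : HasExp N A y s) : x = y := by
  obtain ⟨F, hF, rfl⟩ := h
  obtain ⟨G, hG, rfl⟩ := h'
  rw [show F = G from Subtype.ext (hF.trans hG.symm)]

end HasExp

variable (N A) in
/-- Holomorphic functions invariant under `Γ(N)` with integral expansions at all cusps. -/
def BB : Subring hol where
  carrier := {x | (∀ γ ∈ CongruenceSubgroup.Gamma N, pull γ x = x) ∧ ∀ g, ∃ s, HasExp N A (pull g x) s}
  mul_mem' := by
    rintro x y ⟨hx, hx'⟩ ⟨hy, hy'⟩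
    refine ⟨fun γ hγ => by rw [map_mul, hx γ hγ, hy γ hγ], fun g => ?_⟩
    obtain ⟨s, hs⟩ := hx' g
    obtain ⟨t, ht⟩ := hy' g
    exact ⟨s * t, by rw [map_mul]; exact hs.mul ht⟩
  one_mem' := ⟨fun γ _ => map_one _, fun g => ⟨1, by rw [map_one]; exact HasExp.one⟩⟩
  add_mem' := by
    rintro x y ⟨hx, hx'⟩ ⟨hy, hy'⟩
    refine ⟨fun γ hγ => by rw [map_add, hx γ hγ, hy γ hγ], fun g => ?_⟩
    obtain ⟨s, hs⟩ := hx' g
    obtain ⟨t, ht⟩ := hy' g
    exact ⟨s + t, by rw [map_add]; exact hs.add ht⟩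
  zero_mem' := ⟨fun γ _ => map_zero _, fun g => ⟨0, by rw [map_zero]; exact HasExp.zero⟩⟩
  neg_mem' := by
    rintro x ⟨hx, hx'⟩
    refine ⟨fun γ hγ => by rw [map_neg, hx γ hγ], fun g => ?_⟩
    obtain ⟨s, hs⟩ := hx' g
    exact ⟨-s, by rw [map_neg]; exact hs.neg⟩

theorem mem_BB {x : hol} : x ∈ BB N A ↔
    (∀ γ ∈ CongruenceSubgroup.Gamma N, pull γ x = x) ∧ ∀ g, ∃ s, HasExp N A (pull g x) s := Iff.rfl

theorem exists_exp (x : BB N A) : ∃ s, HasExp N A (x : hol) s := by
  obtain ⟨s, hs⟩ := x.2.2 1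
  rw [pull_one] at hs
  exact ⟨s, hs⟩

variable (N A) in
/-- the expansion at infinity -/
def expB : BB N A →+* LaurentSeries A where
  toFun x := (exists_exp x).choose
  map_one' := (exists_exp 1).choose_spec.unique HasExp.one
  map_zero' := (exists_exp 0).choose_spec.unique HasExp.zero
  map_mul' x y := (exists_exp (x * y)).choose_spec.unique
    ((exists_exp x).choose_spec.mul (exists_exp y).choose_spec)
  map_add' x y := (exists_exp (x + y)).choose_spec.unique
    ((exists_exp x).choose_spec.add (exists_exp y).choose_spec)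

theorem hasExp_expB (x : BB N A) : HasExp N A (x : hol) (expB N A x) := (exists_exp x).choose_spec

theorem expB_eq {x : BB N A} {s : LaurentSeries A} (h : HasExp N A (x : hol) s) :
    expB N A x = s := (hasExp_expB x).unique h

theorem pull_mem (g : SL(2, ℤ)) {x : hol} (hx : x ∈ BB N A) : pull g x ∈ BB N A := by
  refine ⟨fun γ hγ => ?_, fun h => ?_⟩
  · rw [← pull_mul]
    have h1 : g * γ * g⁻¹ ∈ CongruenceSubgroup.Gamma N := (Gamma_normal N).conj_mem γ hγ g
    have h2 : g * γ = g * γ * g⁻¹ * g := by group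
    rw [h2, pull_mul, hx.1 _ h1]
  · rw [← pull_mul]
    exact hx.2 _

variable (N A) in
/-- the action of `SL₂(ℤ)` on `BB` -/
def pullB (g : SL(2, ℤ)) : BB N A →+* BB N A :=
  ((pull g).comp (BB N A).subtype).codRestrict (BB N A) fun x => pull_mem g x.2

theorem coe_pullB (g : SL(2, ℤ)) (x : BB N A) : (pullB N A g x : hol) = pull g x := rfl

theorem pullB_mul (g h : SL(2, ℤ)) (x : BB N A) :
    pullB N A (g * h) x = pullB N A h (pullB N A g x) := Subtype.ext (pull_mul g h _)

theorem pullB_one (x : BB N A) : pullB N A 1 x = x := Subtype.ext (pull_one _)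

/-- the left action -/
instance : MulSemiringAction SL(2, ℤ) (BB N A) where
  smul g x := pullB N A g⁻¹ x
  one_smul x := by
    change pullB N A 1⁻¹ x = x
    rw [inv_one, pullB_one]
  mul_smul g h x := by
    change pullB N A (g * h)⁻¹ x = pullB N A g⁻¹ (pullB N A h⁻¹ x)
    rw [mul_inv_rev, pullB_mul]
  smul_zero g := map_zero _
  smul_add g := map_add _
  smul_one g := map_one _
  smul_mul g := map_mul _

theorem smul_def' (g : SL(2, ℤ)) (x : BB N A) : g • x = pullB N A g⁻¹ x := rfl

theorem coe_smul' (g : SL(2, ℤ)) (x : BB N A) : ((g • x : BB N A) : hol) = pull g⁻¹ x := rfl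

theorem smul_of_Gamma {g : SL(2, ℤ)} (hg : g ∈ CongruenceSubgroup.Gamma N) (x : BB N A) : g • x = x :=
  Subtype.ext (x.2.1 _ (inv_mem hg))

variable (N A) in
/-- the reduction -/
def red : BB N A →+* LaurentSeries (IsLocalRing.ResidueField A) :=
  (coeffMap (IsLocalRing.residue A)).comp (expB N A)

theorem red_eq {x : BB N A} {s : LaurentSeries A} (h : HasExp N A (x : hol) s) :
    red N A x = coeffMap (IsLocalRing.residue A) s := by
  rw [red, RingHom.comp_apply, expB_eq h]

end Fermat.Agent.Cov
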