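import Fermat.Agent.Cov.Fibre
import Fermat.Agent.Spec.Level

/-!
# Good reduction at every level: equality of genera
-/

set_option autoImplicit false
set_option linter.style.haveILetI false
set_option linter.unusedSectionVars false

noncomputable section

open ModularCurve Polynomial IntermediateField

namespace Fermat.Agent.Cov

open Fermat.Agent.ModPoly Fermat.Agent.Red Fermat.Agent.RedMod Fermat.Agent.RR AlgebraicCurve
  Fermat.Agent.Spec

section gen

variable {A K k : Type*} [CommRing A] [IsDomain A] [ValuationRing A]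
  [Field K] [IsAlgClosed K] [Algebra A K] [IsFractionRing A K] [Field k] [IsAlgClosed k]
  [Algebra A k]
  {FK FK' : IntermediateField K (LaurentSeries K)} {Fk Fk' : IntermediateField k (LaurentSeries k)}
  {ι ι' : Type*} [Fintype ι] [Fintype ι'] {y : ι → LaurentSeries ℤ} {y' : ι' → LaurentSeries ℤ}
  {G : GP A FK Fk y} {G' : GP A FK' Fk' y'}

/-- the algebra structure over the valuation ring -/
@[reducible] def algA (A : Type*) {K L : Type*} [CommRing A] [Field K] [Algebra A K] [Field L]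
    [Algebra K L] (F : IntermediateField K L) : Algebra A F :=
  ((algebraMap K F).comp (algebraMap A K)).toAlgebra

theorem tower_algA (A : Type*) {K L : Type*} [CommRing A] [Field K] [Algebra A K] [Field L]
    [Algebra K L] (F : IntermediateField K L) :
    letI := algA A F
    IsScalarTower A K F := by
  letI := algA A F
  exact IsScalarTower.of_algebraMap_eq fun a => rfl

/-- the algebra structure of an inclusion -/
@[reducible] def algI {K L : Type*} [Field K] [Field L]
    [Algebra K L] {E F : IntermediateField K L} (h : E ≤ F) : Algebra E F :=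
  (IntermediateField.inclusion h).toRingHom.toAlgebra

theorem tower_algI {K L : Type*} [Field K] [Field L]
    [Algebra K L] {E F : IntermediateField K L} (h : E ≤ F) :
    letI := algI h
    IsScalarTower K E F := by
  letI := algI h
  exact IsScalarTower.of_algebraMap_eq fun a => rfl

set_option maxHeartbeats 1600000 in
/-- **Descent of good reduction.** -/
theorem SP.genus_eq_of_tower (S : SP G) (S' : SP G') (hKK : FK ≤ FK') (hkk : Fk ≤ Fk')
    [FunField k Fk] [FunField K FK] [FunField k Fk'] [FunField K FK']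
    (hg : rrGenus k Fk' = rrGenus K FK') : rrGenus k Fk = rrGenus K FK := by
  letI := algA A FK
  haveI := tower_algA A FK
  letI := algA A Fk
  haveI := tower_algA A Fk
  letI := algA A FK'
  haveI := tower_algA A FK'
  letI := algA A Fk'
  haveI := tower_algA A Fk'
  letI := algI hKK
  haveI := tower_algI hKK
  letI := algI hkk
  haveI := tower_algI hkk
  obtain ⟨h1, h2, h3⟩ := tower_of (K := K) (E := FK) (F := FK') ⟨jqModC K, G.jK⟩
    ⟨jqModC K, G'.jK⟩ (Subtype.ext rfl) G'.fin S'.sep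
  obtain ⟨h4, h5, h6⟩ := tower_of (K := k) (E := Fk) (F := Fk') ⟨jqModC k, G.jk⟩
    ⟨jqModC k, G'.jk⟩ (Subtype.ext rfl) S'.fink S'.sepk
  haveI := h1
  haveI := h2
  haveI := h4
  haveI := h5
  have H := fibreHypG S
  have H' := fibreHypG S'
  rw [hg] at H'
  have hrank : Module.finrank FK FK' = Module.finrank Fk Fk' := by
    rw [G'.rk, G.rk] at h3
    rw [S'.rkk, S.rkk] at h6
    rw [h6] at h3
    haveI := G.nonempty
    exact (Nat.eq_of_mul_eq_mul_left Fintype.card_pos h3).symm
  have hc : Compat H.M H'.M := by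
    intro x hx
    refine ⟨hx, ?_⟩
    apply Subtype.ext
    rfl
  have := genus_eq_of_descent H H' hc hrank (Subtype.ext rfl) (by
    rw [gaussG_πt, gaussG_πt]
    exact Subtype.ext rfl)
  exact_mod_cast this

end gen

section level

open Fermat.Agent.KumG

theorem MFunG_mono {Γ Γ' : Subgroup (Matrix.SpecialLinearGroup (Fin 2) ℤ)} [LvlG Γ] [LvlG Γ']
    (h : Γ' ≤ Γ) : MFunG Γ ≤ MFunG Γ' := by
  rintro x ⟨k, f, g, hfg⟩
  exact ⟨k, f, g, hfg.mf.mono h, hfg.mg.mono h, hfg.g0, hfg.eq⟩

theorem FG_mono {Γ Γ' : Subgroup (Matrix.SpecialLinearGroup (Fin 2) ℤ)} [LvlG Γ] [LvlG Γ']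
    (K : Type*) [Field K] [Algebra ℚ K] (h : Γ' ≤ Γ) : FG Γ K ≤ FG Γ' K := by
  change laurentBaseChange K (FQG Γ) ≤ _
  rw [laurentBaseChange, IntermediateField.adjoin_le_iff]
  rintro _ ⟨x, hx, rfl⟩
  exact coeffEmb_mem_laurentBaseChange K (MFunG_mono h hx)

variable {N M : ℕ} [NeZero N] [NeZero M] (hNM : N ∣ M) (H : Subgroup (ZMod N)ˣ)

/-- the subgroup at the higher level -/
def HM {N M : ℕ} (hNM : N ∣ M) (H : Subgroup (ZMod N)ˣ) : Subgroup (ZMod M)ˣ :=
  H.comap (ZMod.unitsMap hNM)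

theorem neg_mem_HM (hH : -1 ∈ H) : -1 ∈ HM hNM H := by
  rw [HM, Subgroup.mem_comap]
  have : ZMod.unitsMap hNM (-1) = -1 := by
    ext
    simp [ZMod.unitsMap]
  rwa [this]

theorem index_HM : (HM hNM H).index = H.index :=
  Subgroup.index_comap_of_surjective _ (ZMod.unitsMap_surjective hNM)

theorem GH_HM_le : GH M (HM hNM H) ≤ GH N H := by
  rintro γ ⟨h0, u, hu, hu'⟩
  refine ⟨?_, ZMod.unitsMap hNM u, hu, ?_⟩
  · rw [CongruenceSubgroup.Gamma0_mem] at h0 ⊢
    have := congrArg (ZMod.castHom hNM (ZMod N)) h0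
    simpa using this
  · have h1 : ((ZMod.unitsMap hNM u : (ZMod N)ˣ) : ZMod N) = ZMod.castHom hNM (ZMod N) (u : ZMod M) := rfl
    rw [h1, hu']
    simp

variable {H}

theorem FH_K_mono {K : Type*} [Field K] [Algebra ℚ K] [IsAlgClosed K] [CharZero K] (ι : K →+* ℂ)
    (hN3 : 3 ≤ N) (hH : -1 ∈ H) : FH K N H ≤ FH K M (HM hNM H) := by
  have hM3 : 3 ≤ M := hN3.trans (Nat.le_of_dvd (NeZero.pos M) hNM)
  haveI := lvlG_GH N H hH
  haveI := lvlG_GH M (HM hNM H) (neg_mem_HM hNM H hH)
  rw [← FG_eq_FH ι hN3 hH, ← FG_eq_FH ι hM3 (neg_mem_HM hNM H hH)]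
  exact FG_mono K (GH_HM_le hNM H)

variable {A K k : Type*} [CommRing A] [IsDomain A] [ValuationRing A]
  [Field K] [IsAlgClosed K] [Algebra A K] [IsFractionRing A K] [Field k] [IsAlgClosed k]
  [Algebra A k]

include A in
theorem FH_k_mono [CharZero K] [Algebra ℚ K] (ι : K →+* ℂ)
    (hk : Function.Surjective (algebraMap A k)) (hM : (M : k) ≠ 0)
    (hN3 : 3 ≤ N) (hH : -1 ∈ H) : FH k N H ≤ FH k M (HM hNM H) := by
  have hM3 : 3 ≤ M := hN3.trans (Nat.le_of_dvd (NeZero.pos M) hNM)
  apply FH_le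
  · exact (full_degeneracyC_le k hNM).trans FF_le_FH
  · have G := gpH (A := A) (K := K) hk hM hM3 (neg_mem_HM hNM H hH)
    have h1 : cst K (zs H 1) ∈ FH K M (HM hNM H) := FH_K_mono hNM ι hN3 hH z_mem_FH
    have h2 : cst K (zs H 1) = incL A K (cst A (zs H 1)) := (coeffMap_cst _ _).symm
    have h0 : cst K (zs H 1) ∈ WL A K k := by
      rw [h2]
      exact incL_mem _
    have h3 := G.πL_mem ⟨cst K (zs H 1), h1⟩ (h := h0)
    rw [πL_of_eq h2 h0] at h3
    rwa [redL, coeffMap_cst] at h3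

include A in
/-- **Good reduction at every level**: the genus of the modular function field of level `Γ_H(N)` is
the same in characteristic zero and in every characteristic prime to the level. -/
theorem rrGenus_eq_all [CharZero K] [Algebra ℚ K] (ι : K →+* ℂ)
    (hk : Function.Surjective (algebraMap A k)) (hN : (N : k) ≠ 0) (hN3 : 3 ≤ N) (hH : -1 ∈ H)
    [FunField k (FH k N H)] [FunField K (FH K N H)] :
    rrGenus k (FH k N H) = rrGenus K (FH K N H) := by
  obtain ⟨p, hp, hpk, hp23⟩ := Spec.exists_p23 k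
  obtain ⟨M, hM⟩ : ∃ M, M = N * p * p := ⟨_, rfl⟩
  haveI : NeZero M := ⟨by rw [hM]; exact mul_ne_zero (mul_ne_zero (NeZero.ne N) hp.ne_zero) hp.ne_zero⟩
  have hMk : (M : k) ≠ 0 := by
    rw [hM]; push_cast
    exact mul_ne_zero (mul_ne_zero hN hpk) hpk
  have hNM : N ∣ M := ⟨p * p, by rw [hM]; ring⟩
  have h49 : 4 ∣ M ∨ 9 ∣ M := by
    rcases hp23 with rfl | rfl
    · exact Or.inl ⟨N, by rw [hM]; ring⟩
    · exact Or.inr ⟨N, by rw [hM]; ring⟩
  have hM3 : 3 ≤ M := hN3.trans (Nat.le_of_dvd (NeZero.pos M) hNM)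
  have hH' := neg_mem_HM hNM H hH
  have hMK := natCast_K (A := A) (K := K) hMk
  haveI := funField_FH (k := k) (H := HM hNM H) hMk hM3 hH'
  haveI := funField_FH (k := K) (H := HM hNM H) hMK hM3 hH'
  exact (spH (K := K) hk hN hN3 hH).genus_eq_of_tower (spH (K := K) hk hMk hM3 hH')
    (FH_K_mono hNM ι hN3 hH) (FH_k_mono (A := A) (K := K) hNM ι hk hMk hN3 hH)
    (rrGenus_eq_H (A := A) ι hk hMk hM3 hH' h49)

end level

end Fermat.Agent.Cov
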