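import Fermat.Agent.Cov.Emb

/-!
# The reductions of the functions `z_a`
-/

set_option autoImplicit false
set_option linter.style.haveILetI false
set_option linter.unusedSectionVars false

noncomputable section

open UpperHalfPlane Complex ModularCurve Filter ModularForm
open scoped Topology Manifold MatrixGroups Pointwise

namespace Fermat.Agent.Cov

open Fermat.Agent.X0Genus Fermat.Agent.JFun Fermat.Agent.ModPoly Fermat.Agent.RedMod
open Fermat.Agent.GamH Fermat.Agent.KumG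

variable {N : ℕ} [NeZero N] {A : ValuationSubring ℂ}

/-- the standing hypotheses -/
structure Hyp (N : ℕ) [NeZero N] (A : ValuationSubring ℂ) (H : Subgroup (ZMod N)ˣ) : Prop where
  hN : (N : KA A) ≠ 0
  hN3 : 3 ≤ N
  hH : -1 ∈ H

variable {H : Subgroup (ZMod N)ˣ} (h : Hyp N A H)

/-- the functions `z_a` in the ring `BB` -/
def zB (h : Hyp N A H) (a : (ZMod N)ˣ) : BB N A := ⟨zH H a, zH_mem h.hN h.hN3 h.hH a⟩

theorem hasExp_zB (a : (ZMod N)ˣ) : HasExp 1 A (zB h a : hol) (cst A (zs H a)) :=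
  hasExp_zH (by have := h.hN3; omega) h.hH a

theorem expB_zB (a : (ZMod N)ˣ) : expB N A (zB h a) = qExpand A N (cst A (zs H a)) :=
  expB_eq (hasExp_of_one (hasExp_zB h a))

theorem red_zB (a : (ZMod N)ˣ) : red N A (zB h a) = qExpand _ N (cst (KA A) (zs H a)) := by
  rw [red_def, expB_zB, coeffMap_qExpand, coeffMap_cst]

theorem det_Gamma0 {γ : SL(2, ℤ)} (hγ : γ ∈ CongruenceSubgroup.Gamma0 N) :
    ((γ 0 0 : ℤ) : ZMod N) * ((γ 1 1 : ℤ) : ZMod N) = 1 := by
  have hdet := congrArg (Int.cast : ℤ → ZMod N) γ.det_coe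
  rw [Matrix.det_fin_two] at hdet
  push_cast at hdet
  have hc : ((γ 1 0 : ℤ) : ZMod N) = 0 := CongruenceSubgroup.Gamma0_mem.1 hγ
  rwa [hc, mul_zero, sub_zero] at hdet

/-- the lower right entry -/
def lre {γ : SL(2, ℤ)} (hγ : γ ∈ CongruenceSubgroup.Gamma0 N) : (ZMod N)ˣ :=
  ⟨((γ 1 1 : ℤ) : ZMod N), ((γ 0 0 : ℤ) : ZMod N), by rw [mul_comm]; exact det_Gamma0 hγ,
    det_Gamma0 hγ⟩

theorem coe_lre {γ : SL(2, ℤ)} (hγ : γ ∈ CongruenceSubgroup.Gamma0 N) :
    ((lre hγ : (ZMod N)ˣ) : ZMod N) = ((γ 1 1 : ℤ) : ZMod N) := rfl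

theorem mem_GH_iff {γ : SL(2, ℤ)} (hγ : γ ∈ CongruenceSubgroup.Gamma0 N) :
    γ ∈ GH N H ↔ lre hγ ∈ H := by
  rw [mem_GH]
  constructor
  · rintro ⟨-, u, hu, hu'⟩
    have : lre hγ = u := Units.ext (by rw [coe_lre, hu'])
    rw [this]
    exact hu
  · intro h
    exact ⟨hγ, _, h, rfl⟩

theorem lre_inv {γ : SL(2, ℤ)} (hγ : γ ∈ CongruenceSubgroup.Gamma0 N) :
    lre (inv_mem hγ) = (lre hγ)⁻¹ := by
  apply eq_inv_of_mul_eq_one_left
  apply Units.ext
  rw [Units.val_mul, coe_lre, coe_lre, Units.val_one]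
  have h1 : (γ⁻¹) 1 1 = γ 0 0 := by
    rw [Matrix.SpecialLinearGroup.coe_inv, Matrix.adjugate_fin_two]
    simp
  rw [h1]
  exact det_Gamma0 hγ

/-- the action of `Γ₀(N)` -/
theorem smul_zB {γ : SL(2, ℤ)} (hγ : γ ∈ CongruenceSubgroup.Gamma0 N) (a : (ZMod N)ˣ) :
    γ • zB h a = zB h (a * lre hγ) := by
  apply Subtype.ext
  rw [coe_smul']
  have h1 := pull_zH_Gamma0 (H := H) (inv_mem hγ) (u := lre (inv_mem hγ)) rfl a
  rw [lre_inv, inv_inv] at h1
  exact h1

theorem smul_zB_of_mem {γ : SL(2, ℤ)} (hγ : γ ∈ GH N H) (a : (ZMod N)ˣ) :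
    γ • zB h a = zB h a := by
  rw [smul_zB h hγ.1]
  exact Subtype.ext (zH_mul_mem ((mem_GH_iff hγ.1).1 hγ) a)

/-! ### the leading coefficients -/

theorem wZ_eq (R : Type*) [CommRing R] : wZ R = HahnSeries.single (-1 : ℤ) 1 *
    HahnSeries.ofPowerSeries ℤ R ((eisenstein4.map (Int.castRingHom R)) ^ 2 *
      dedekindEtaUnitInv.map (Int.castRingHom R)) := by
  rw [wZ, eisC, deltaInvC, map_mul, map_pow]
  ring

open Classical in
theorem coeff_zs (hN2 : 2 ≤ N) (a : (ZMod N)ˣ) :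
    (zs H a).coeff 0 = if a ∈ H then 1 else 0 := by
  rw [zs, wZ_eq, mul_left_comm, ← map_mul]
  have h1 := HahnSeries.coeff_single_mul_add (r := (1 : ℤ)) (x := HahnSeries.ofPowerSeries ℤ ℤ
    (fa H a * ((eisenstein4.map (Int.castRingHom ℤ)) ^ 2 *
      dedekindEtaUnitInv.map (Int.castRingHom ℤ)))) (a := (1 : ℤ)) (b := (-1 : ℤ))
  rw [show (1 : ℤ) + -1 = 0 by norm_num, one_mul] at h1
  rw [h1]
  have h2 := HahnSeries.ofPowerSeries_apply_coeff (Γ := ℤ) (fa H a *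
    ((eisenstein4.map (Int.castRingHom ℤ)) ^ 2 * dedekindEtaUnitInv.map (Int.castRingHom ℤ))) 1
  rw [Nat.cast_one] at h2
  rw [h2, PowerSeries.coeff_mul, Finset.Nat.antidiagonal_succ]
  simp only [Finset.Nat.antidiagonal_zero, Finset.map_singleton, Finset.sum_cons,
    Finset.sum_singleton]
  have h3 : (fa H a).coeff 0 = 0 := by simp [fa]
  simp only [Function.Embedding.prodMap, Function.Embedding.coeFn_mk, Prod.map]
  rw [h3, zero_mul, zero_add]
  have h4 : ((eisenstein4.map (Int.castRingHom ℤ)) ^ 2 *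
      dedekindEtaUnitInv.map (Int.castRingHom ℤ)).coeff 0 = 1 := by
    rw [PowerSeries.coeff_zero_eq_constantCoeff, map_mul, map_pow,
      ← PowerSeries.coeff_zero_eq_constantCoeff, PowerSeries.coeff_map, PowerSeries.coeff_map,
      PowerSeries.coeff_zero_eq_constantCoeff, constantCoeff_eisenstein4,
      constantCoeff_dedekindEtaUnitInv]
    simp
  change (fa H a).coeff (0 + 1) * PowerSeries.coeff 0 ((eisenstein4.map (Int.castRingHom ℤ)) ^ 2 *
      dedekindEtaUnitInv.map (Int.castRingHom ℤ)) = _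
  rw [h4, mul_one, zero_add]
  exact coeff_fa_one a

open Classical in
theorem coeff_cst_zs (hN2 : 2 ≤ N) (R : Type*) [CommRing R] (a : (ZMod N)ˣ) :
    (cst R (zs H a)).coeff 0 = if a ∈ H then 1 else 0 := by
  rw [cst, coeffMap_coeff, coeff_zs hN2]
  split_ifs <;> simp

/-- an element of `Γ₀(N)` fixing the reduction of `z_1` is in `Γ_H(N)`. -/
theorem mem_GH_of_red {γ : SL(2, ℤ)} (hγ : γ ∈ CongruenceSubgroup.Gamma0 N)
    (hr : red N A (γ • zB h 1) = red N A (zB h 1)) : γ ∈ GH N H := by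
  classical
  have hN2 : 2 ≤ N := by have := h.hN3; omega
  rw [smul_zB h hγ, red_zB, red_zB, one_mul] at hr
  have h1 := (qExpand_injective N) hr
  have h2 := congrArg (fun x : LaurentSeries (KA A) => x.coeff 0) h1
  simp only [coeff_cst_zs hN2] at h2
  rw [if_pos (one_mem H)] at h2
  rw [mem_GH_iff hγ]
  by_contra hc
  rw [if_neg hc] at h2
  exact zero_ne_one h2

/-- an element fixing the reductions of `j(Nτ)` and `z_1` is in `Γ_H(N)`. -/
theorem mem_GH_of_red' {g : SL(2, ℤ)}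
    (hj : red N A (g • jdB N A N dvd_rfl) = red N A (jdB N A N dvd_rfl))
    (hr : red N A (g • zB h 1) = red N A (zB h 1)) : g ∈ GH N H :=
  mem_GH_of_red h (mem_Gamma0_of_red_eq hj) hr

end Fermat.Agent.Cov
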